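import Mathlib

/-!
# S55 / local theory: explicit second cohomology of a finite cyclic group

For a finite cyclic group `G = ⟨σ⟩` of order `n` acting on an abelian group `A` we describe
`H²(G, A)` by inhomogeneous cocycles (Mathlib's `IsCocycle₂` / `IsCoboundary₂`): the map
`f ↦ cy_sum σ n f = ∑_{i<n} f (σ^i, σ)` induces `H²(G, A) ≅ A^G / N A`, with inverse given by the
"cyclic algebra" cocycles `cy_cocycle σ n a`, and we compute its behaviour under pull-back along a
homomorphism of cyclic groups (inflation and restriction).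
-/

set_option autoImplicit false

namespace Fermat.Agent.S55

open Finset groupCohomology

variable {G A : Type*} [Group G] [AddCommGroup A] [DistribMulAction G A]

/-- The cyclic invariant of a 2-cochain: `∑_{i<n} f (σ^i, σ)`. -/
def cy_sum (σ : G) (n : ℕ) (f : G × G → A) : A := ∑ i ∈ range n, f (σ ^ i, σ)

/-- The norm along the powers of `σ`: `∑_{i<n} σ^i • x`. -/
def cy_norm (σ : G) (n : ℕ) (x : A) : A := ∑ i ∈ range n, σ ^ i • x

omit [DistribMulAction G A] in
theorem cy_sum_add (σ : G) (n : ℕ) (f f' : G × G → A) :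
    cy_sum σ n (f + f') = cy_sum σ n f + cy_sum σ n f' := by
  simp [cy_sum, Finset.sum_add_distrib]

omit [DistribMulAction G A] in
theorem cy_sum_sub (σ : G) (n : ℕ) (f f' : G × G → A) :
    cy_sum σ n (f - f') = cy_sum σ n f - cy_sum σ n f' := by
  simp [cy_sum, Finset.sum_sub_distrib]

theorem cy_norm_add (σ : G) (n : ℕ) (x y : A) :
    cy_norm σ n (x + y) = cy_norm σ n x + cy_norm σ n y := by
  simp [cy_norm, smul_add, Finset.sum_add_distrib]

theorem cy_norm_sub (σ : G) (n : ℕ) (x y : A) :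
    cy_norm σ n (x - y) = cy_norm σ n x - cy_norm σ n y := by
  simp [cy_norm, smul_sub, Finset.sum_sub_distrib]

/-- `σ • N x = N x` when `σ ^ n = 1`. -/
theorem cy_smul_norm {σ : G} {n : ℕ} (hσ : σ ^ n = 1) (x : A) :
    σ • cy_norm σ n x = cy_norm σ n x := by
  unfold cy_norm
  rw [Finset.smul_sum]
  have h1 : ∀ i ∈ range n, σ • σ ^ i • x = σ ^ (i + 1) • x := fun i _ => by
    rw [smul_smul, ← pow_succ']
  rw [Finset.sum_congr rfl h1]
  rcases n with _ | n
  · simp
  · rw [Finset.sum_range_succ (fun i => σ ^ (i + 1) • x), Finset.sum_range_succ' (fun i => σ ^ i • x),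
      hσ, pow_zero]

/-- The partial sums `Φ m = ∑_{k<m} f (σ^k, σ)`. -/
def cy_phi (σ : G) (f : G × G → A) (m : ℕ) : A := ∑ k ∈ range m, f (σ ^ k, σ)

omit [DistribMulAction G A] in
theorem cy_phi_succ (σ : G) (f : G × G → A) (m : ℕ) :
    cy_phi σ f (m + 1) = cy_phi σ f m + f (σ ^ m, σ) := by
  simp [cy_phi, Finset.sum_range_succ]

omit [DistribMulAction G A] in
@[simp] theorem cy_phi_zero (σ : G) (f : G × G → A) : cy_phi σ f 0 = 0 := by simp [cy_phi]

omit [DistribMulAction G A] in
theorem cy_phi_eq_sum (σ : G) (n : ℕ) (f : G × G → A) : cy_phi σ f n = cy_sum σ n f := rfl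

/-- The basic identity: a 2-cocycle on the powers of `σ` is determined by its values
`f (σ^k, σ)` and `f (1, 1)`. -/
theorem cy_cocycle_formula {σ : G} {f : G × G → A} (hf : IsCocycle₂ f) (i j : ℕ) :
    f (σ ^ i, σ ^ j) =
      σ ^ i • f (1, 1) + cy_phi σ f (i + j) - cy_phi σ f i - σ ^ i • cy_phi σ f j := by
  induction j with
  | zero =>
    simp only [pow_zero, add_zero, cy_phi_zero, smul_zero, sub_zero]
    rw [map_one_snd_of_isCocycle₂ hf]
    abel
  | succ j ih =>
    have h := hf (σ ^ i) (σ ^ j) σ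
    rw [← pow_add, ← pow_succ] at h
    have h2 : f (σ ^ i, σ ^ (j + 1)) = f (σ ^ (i + j), σ) + f (σ ^ i, σ ^ j) - σ ^ i • f (σ ^ j, σ) := by
      rw [h]; abel
    rw [h2, ih, ← add_assoc, cy_phi_succ, cy_phi_succ, smul_add]
    abel

section periodic

variable {σ : G} {n : ℕ} (hσ : σ ^ n = 1)

include hσ

theorem cy_pow_add_period (k : ℕ) : σ ^ (k + n) = σ ^ k := by rw [pow_add, hσ, mul_one]

theorem cy_pow_mul_period (k r : ℕ) : σ ^ (k + n * r) = σ ^ k := by
  rw [pow_add, pow_mul, hσ, one_pow, mul_one]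

omit [DistribMulAction G A] in
theorem cy_phi_add_period (f : G × G → A) (m : ℕ) :
    cy_phi σ f (m + n) = cy_phi σ f m + cy_sum σ n f := by
  induction m with
  | zero => rw [Nat.zero_add, cy_phi_zero, zero_add, cy_phi_eq_sum]
  | succ m ih =>
    have : m + 1 + n = (m + n) + 1 := by omega
    rw [this, cy_phi_succ, ih, cy_phi_succ, cy_pow_add_period hσ]
    abel

omit [DistribMulAction G A] in
theorem cy_phi_mul_period (f : G × G → A) (r : ℕ) :
    cy_phi σ f (n * r) = r • cy_sum σ n f := by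
  induction r with
  | zero => simp
  | succ r ih =>
    rw [Nat.mul_succ, cy_phi_add_period hσ, ih, succ_nsmul]

omit [DistribMulAction G A] in
theorem cy_phi_add_mul_period (f : G × G → A) (m r : ℕ) :
    cy_phi σ f (m + n * r) = cy_phi σ f m + r • cy_sum σ n f := by
  induction r with
  | zero => simp
  | succ r ih =>
    have : m + n * (r + 1) = (m + n * r) + n := by ring
    rw [this, cy_phi_add_period hσ, ih, succ_nsmul]
    abel

/-- The cyclic invariant of a cocycle is fixed by `σ`. -/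
theorem cy_smul_sum {f : G × G → A} (hf : IsCocycle₂ f) (i : ℕ) :
    σ ^ i • cy_sum σ n f = cy_sum σ n f := by
  have h1 : f (σ ^ i, 1) = σ ^ i • f (1, 1) + (cy_phi σ f i + cy_sum σ n f) - cy_phi σ f i -
      σ ^ i • cy_sum σ n f := by
    have := cy_cocycle_formula (σ := σ) hf i n
    rwa [hσ, cy_phi_add_period hσ, cy_phi_eq_sum] at this
  have h2 : f (σ ^ i, 1) = σ ^ i • f (1, 1) := map_one_snd_of_isCocycle₂ hf _
  rw [h2] at h1
  have h3 : σ ^ i • cy_sum σ n f - cy_sum σ n f = 0 := by
    have h4 := sub_eq_zero.2 h1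
    rw [← h4]
    abel
  exact sub_eq_zero.1 h3

/-- The cyclic invariant of a coboundary is a norm. -/
theorem cy_sum_coboundary (x : G → A) :
    cy_sum σ n (fun p : G × G => p.1 • x p.2 - x (p.1 * p.2) + x p.1) = cy_norm σ n (x σ) := by
  unfold cy_sum cy_norm
  have h1 : ∀ i ∈ range n, σ ^ i • x σ - x (σ ^ i * σ) + x (σ ^ i) =
      σ ^ i • x σ - (x (σ ^ (i + 1)) - x (σ ^ i)) := fun i _ => by
    rw [← pow_succ]; abel
  rw [Finset.sum_congr rfl h1, Finset.sum_sub_distrib, Finset.sum_range_sub (fun i => x (σ ^ i)),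
    hσ, pow_zero, sub_self, sub_zero]

/-- **Pull-back formula.** If `d * m = n * r` then the cyclic invariant of the pull-back of a
cocycle `f` to a cyclic group of order `m` mapping its generator to `σ ^ d` is `r` times the
cyclic invariant of `f`, up to an explicit norm. -/
theorem cy_sum_pullback {f : G × G → A} (hf : IsCocycle₂ f) (d m r : ℕ) (h : d * m = n * r) :
    ∑ i ∈ range m, f ((σ ^ d) ^ i, σ ^ d) =
      r • cy_sum σ n f + cy_norm (σ ^ d) m (f (1, 1) - cy_phi σ f d) := by
  have h1 : ∀ i ∈ range m, f ((σ ^ d) ^ i, σ ^ d) =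
      (σ ^ d) ^ i • (f (1, 1) - cy_phi σ f d) +
        (cy_phi σ f (d * (i + 1)) - cy_phi σ f (d * i)) := fun i _ => by
    rw [← pow_mul, cy_cocycle_formula hf (d * i) d, smul_sub, Nat.mul_succ]
    abel
  rw [Finset.sum_congr rfl h1, Finset.sum_add_distrib,
    Finset.sum_range_sub (fun i => cy_phi σ f (d * i)), Nat.mul_zero, cy_phi_zero, sub_zero, h,
    cy_phi_mul_period hσ]
  unfold cy_norm
  abel

/-- **Pull-back along a homomorphism of cyclic groups** (covers restriction to the subgroup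
generated by `σ ^ d` and, with `d = 1`, inflation from a quotient): if `ι τ = σ ^ d` and
`d * m = n * r` then the cyclic invariant (w.r.t. `τ`, `m`) of `f ∘ (ι × ι)` is `r` times the
cyclic invariant of `f`, up to an explicit norm. -/
theorem cy_sum_comp_hom {H : Type*} [Group H] (ι : H →* G) {τ : H} {d : ℕ} (hι : ι τ = σ ^ d)
    {f : G × G → A} (hf : IsCocycle₂ f) (m r : ℕ) (h : d * m = n * r) :
    cy_sum τ m (fun p : H × H => f (ι p.1, ι p.2)) =
      r • cy_sum σ n f + cy_norm (σ ^ d) m (f (1, 1) - cy_phi σ f d) := by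
  rw [← cy_sum_pullback hσ hf d m r h]
  unfold cy_sum
  exact Finset.sum_congr rfl fun i _ => by
    show f (ι (τ ^ i), ι τ) = _
    rw [map_pow, hι]

/-- **Inflation formula**: if `ι τ = σ` and `τ` has order (dividing) `n * r`, the cyclic invariant
of the inflated cocycle is `r` times the cyclic invariant of `f`. -/
theorem cy_sum_inflation {H : Type*} [Group H] (ι : H →* G) {τ : H} (hι : ι τ = σ)
    {f : G × G → A} (hf : IsCocycle₂ f) (r : ℕ) :
    cy_sum τ (n * r) (fun p : H × H => f (ι p.1, ι p.2)) = r • cy_sum σ n f := by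
  have h1 := cy_sum_comp_hom hσ ι (τ := τ) (d := 1) (by rw [hι, pow_one]) hf (n * r) r
    (by rw [one_mul])
  have h2 : f (1, 1) - cy_phi σ f 1 = 0 := by
    rw [cy_phi_succ, cy_phi_zero, zero_add, pow_zero, map_one_fst_of_isCocycle₂ hf σ, sub_self]
  rw [h1, h2]
  unfold cy_norm
  simp

end periodic

/-! ### The index function and the cyclic-algebra cocycles -/

/-- The least exponent `i` with `σ ^ i = g` (junk value `0` if there is none). -/
noncomputable def cy_idx (σ : G) (g : G) : ℕ := sInf {i : ℕ | σ ^ i = g}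

theorem cy_idx_pow {σ : G} {n : ℕ} (ho : orderOf σ = n) (i : ℕ) :
    cy_idx σ (σ ^ i) = i % n := by
  unfold cy_idx
  have hmem : i % n ∈ {k : ℕ | σ ^ k = σ ^ i} := by
    show σ ^ (i % n) = σ ^ i
    rw [← ho, pow_mod_orderOf]
  apply le_antisymm (Nat.sInf_le hmem)
  have hne : {k : ℕ | σ ^ k = σ ^ i}.Nonempty := ⟨_, hmem⟩
  have h2 : σ ^ sInf {k : ℕ | σ ^ k = σ ^ i} = σ ^ i := Nat.sInf_mem hne
  rw [pow_eq_pow_iff_modEq, ho] at h2
  have h3 : i % n = sInf {k : ℕ | σ ^ k = σ ^ i} % n := h2.symm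
  rw [h3]
  exact Nat.mod_le _ _

theorem cy_idx_lt {σ : G} {n : ℕ} (hn : 0 < n) (ho : orderOf σ = n)
    (hgen : ∀ g : G, g ∈ Subgroup.zpowers σ) (g : G) : cy_idx σ g < n := by
  obtain ⟨k, rfl⟩ := (Subgroup.mem_zpowers_iff).1 (hgen g)
  have : σ ^ k = σ ^ (k % (n : ℤ)).toNat := by
    rw [← zpow_natCast, Int.toNat_of_nonneg (Int.emod_nonneg _ (by exact_mod_cast hn.ne')),
      ← ho, zpow_mod_orderOf]
  rw [this, cy_idx_pow ho]
  exact Nat.mod_lt _ hn

theorem cy_pow_idx {σ : G} {n : ℕ} (hn : 0 < n) (ho : orderOf σ = n)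
    (hgen : ∀ g : G, g ∈ Subgroup.zpowers σ) (g : G) : σ ^ cy_idx σ g = g := by
  obtain ⟨k, rfl⟩ := (Subgroup.mem_zpowers_iff).1 (hgen g)
  have : σ ^ k = σ ^ (k % (n : ℤ)).toNat := by
    rw [← zpow_natCast, Int.toNat_of_nonneg (Int.emod_nonneg _ (by exact_mod_cast hn.ne')),
      ← ho, zpow_mod_orderOf]
  rw [this, cy_idx_pow ho, ← ho, pow_mod_orderOf]

theorem cy_idx_mul {σ : G} {n : ℕ} (hn : 0 < n) (ho : orderOf σ = n)
    (hgen : ∀ g : G, g ∈ Subgroup.zpowers σ) (g k : G) :
    cy_idx σ (g * k) = (cy_idx σ g + cy_idx σ k) % n := by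
  conv_lhs => rw [← cy_pow_idx hn ho hgen g, ← cy_pow_idx hn ho hgen k, ← pow_add]
  exact cy_idx_pow ho _

/-- The cyclic-algebra cocycle attached to `a`. -/
noncomputable def cy_cocycle (σ : G) (n : ℕ) (a : A) : G × G → A :=
  fun p => if n ≤ cy_idx σ p.1 + cy_idx σ p.2 then a else 0

section main

variable {σ : G} {n : ℕ} (hn : 0 < n) (ho : orderOf σ = n)
  (hgen : ∀ g : G, g ∈ Subgroup.zpowers σ)

include hn ho hgen

theorem cy_invariant_of_pow {a : A} (ha : σ • a = a) (g : G) : g • a = a := by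
  rw [← cy_pow_idx hn ho hgen g]
  generalize cy_idx σ g = i
  induction i with
  | zero => simp
  | succ i ih => rw [pow_succ, mul_smul, ha, ih]

/-- **Every cocycle is cohomologous to a cyclic-algebra cocycle.** -/
theorem cy_isCoboundary_sub {f : G × G → A} (hf : IsCocycle₂ f) :
    IsCoboundary₂ (f - cy_cocycle σ n (cy_sum σ n f)) := by
  have hσ : σ ^ n = 1 := by rw [← ho]; exact pow_orderOf_eq_one σ
  refine ⟨fun g => f (1, 1) - cy_phi σ f (cy_idx σ g), fun g k => ?_⟩
  set i := cy_idx σ g with hi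
  set j := cy_idx σ k with hj
  have hi_lt : i < n := cy_idx_lt hn ho hgen g
  have hj_lt : j < n := cy_idx_lt hn ho hgen k
  have hg : σ ^ i = g := cy_pow_idx hn ho hgen g
  have hk : σ ^ j = k := cy_pow_idx hn ho hgen k
  have hgk : cy_idx σ (g * k) = (i + j) % n := cy_idx_mul hn ho hgen g k
  have hform := cy_cocycle_formula (σ := σ) hf i j
  rw [hg, hk] at hform
  simp only [Pi.sub_apply, cy_cocycle, ← hi, ← hj, hgk]
  rw [hform, ← hg]
  by_cases hc : n ≤ i + j
  · have hmod : (i + j) % n = i + j - n := by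
      rw [Nat.mod_eq_sub_mod hc, Nat.mod_eq_of_lt (by omega)]
    have hsplit : i + j = (i + j - n) + n := by omega
    have hphi : cy_phi σ f (i + j) = cy_phi σ f (i + j - n) + cy_sum σ n f := by
      conv_lhs => rw [hsplit]
      exact cy_phi_add_period hσ f _
    rw [if_pos hc, hmod, hphi, smul_sub]
    abel
  · have hmod : (i + j) % n = i + j := Nat.mod_eq_of_lt (by omega)
    rw [if_neg hc, hmod, smul_sub]
    abel

/-- The cyclic-algebra cocycle of an invariant element is a cocycle. -/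
theorem cy_isCocycle₂ {a : A} (ha : σ • a = a) : IsCocycle₂ (cy_cocycle σ n a) := by
  intro g h j
  have hinv := cy_invariant_of_pow hn ho hgen ha g
  simp only [cy_cocycle, cy_idx_mul hn ho hgen]
  have hg := cy_idx_lt hn ho hgen g
  have hh := cy_idx_lt hn ho hgen h
  have hj := cy_idx_lt hn ho hgen j
  set x := cy_idx σ g
  set y := cy_idx σ h
  set z := cy_idx σ j
  have e1 : (x + y) % n = if n ≤ x + y then x + y - n else x + y := by
    split_ifs with hc
    · rw [Nat.mod_eq_sub_mod hc, Nat.mod_eq_of_lt (by omega)]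
    · exact Nat.mod_eq_of_lt (by omega)
  have e2 : (y + z) % n = if n ≤ y + z then y + z - n else y + z := by
    split_ifs with hc
    · rw [Nat.mod_eq_sub_mod hc, Nat.mod_eq_of_lt (by omega)]
    · exact Nat.mod_eq_of_lt (by omega)
  rw [e1, e2]
  by_cases c1 : n ≤ x + y <;> by_cases c2 : n ≤ y + z
  · rw [if_pos c1, if_pos c2, if_pos c1, if_pos c2, hinv]
    by_cases c3 : n ≤ x + y - n + z
    · rw [if_pos c3, if_pos (by omega : n ≤ x + (y + z - n))]
    · rw [if_neg c3, if_neg (by omega : ¬ n ≤ x + (y + z - n))]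
      abel
  · rw [if_pos c1, if_neg c2, if_pos c1, if_neg c2, smul_zero,
      if_neg (by omega : ¬ n ≤ x + y - n + z), if_pos (by omega : n ≤ x + (y + z))]
  · rw [if_neg c1, if_pos c2, if_neg c1, if_pos c2, hinv,
      if_pos (by omega : n ≤ x + y + z), if_neg (by omega : ¬ n ≤ x + (y + z - n))]
  · rw [if_neg c1, if_neg c2, if_neg c1, if_neg c2, smul_zero]
    by_cases c3 : n ≤ x + y + z
    · rw [if_pos c3, if_pos (by omega : n ≤ x + (y + z))]
      abel
    · rw [if_neg c3, if_neg (by omega : ¬ n ≤ x + (y + z))]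

omit hgen [DistribMulAction G A] in
/-- The cyclic invariant of the cyclic-algebra cocycle of `a` is `a` (for `n ≥ 2`; for `n = 1`
the cocycle `cy_cocycle σ 1 a` vanishes identically). -/
theorem cy_sum_cocycle (h1n : 1 < n) (a : A) : cy_sum σ n (cy_cocycle σ n a) = a := by
  unfold cy_sum cy_cocycle
  obtain ⟨m, rfl⟩ : ∃ m, n = m + 1 := ⟨n - 1, by omega⟩
  have h1 : cy_idx σ σ = 1 := by
    have := cy_idx_pow (σ := σ) ho 1
    rwa [pow_one, Nat.mod_eq_of_lt h1n] at this
  rw [Finset.sum_range_succ]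
  have h2 : ∀ i ∈ range m, (if m + 1 ≤ cy_idx σ (σ ^ i) + cy_idx σ σ then a else 0) = 0 := by
    intro i hi
    have hi' : i < m := Finset.mem_range.1 hi
    rw [if_neg]
    rw [cy_idx_pow ho, h1, Nat.mod_eq_of_lt (by omega : i < m + 1)]
    omega
  rw [Finset.sum_eq_zero h2, zero_add, cy_idx_pow ho, h1, Nat.mod_eq_of_lt (by omega : m < m + 1),
    if_pos le_rfl]

/-- **Classification of coboundaries.** A 2-cocycle of a finite cyclic group is a coboundary iff
its cyclic invariant is a norm. -/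
theorem cy_isCoboundary₂_iff {f : G × G → A} (hf : IsCocycle₂ f) :
    IsCoboundary₂ f ↔ ∃ b : A, cy_norm σ n b = cy_sum σ n f := by
  have hσ : σ ^ n = 1 := by rw [← ho]; exact pow_orderOf_eq_one σ
  constructor
  · rintro ⟨x, hx⟩
    refine ⟨x σ, ?_⟩
    rw [← cy_sum_coboundary hσ x]
    congr 1
    funext p
    exact hx p.1 p.2
  · rintro ⟨b, hb⟩
    -- `cy_cocycle (N b)` is the coboundary of `g ↦ ∑_{k < idx g} σ^k • b`
    obtain ⟨y, hy⟩ := cy_isCoboundary_sub hn ho hgen hf
    have hcob : IsCoboundary₂ (cy_cocycle σ n (cy_norm σ n b)) := by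
      refine ⟨fun g => ∑ k ∈ range (cy_idx σ g), σ ^ k • b, fun g k => ?_⟩
      set i := cy_idx σ g with hi
      set j := cy_idx σ k with hj
      have hi_lt : i < n := cy_idx_lt hn ho hgen g
      have hj_lt : j < n := cy_idx_lt hn ho hgen k
      have hg : σ ^ i = g := cy_pow_idx hn ho hgen g
      have hgk : cy_idx σ (g * k) = (i + j) % n := cy_idx_mul hn ho hgen g k
      simp only [cy_cocycle, ← hi, ← hj, hgk]
      have hshift : g • ∑ k ∈ range j, σ ^ k • b = ∑ k ∈ range j, σ ^ (i + k) • b := by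
        rw [Finset.smul_sum, ← hg]
        exact Finset.sum_congr rfl fun k _ => by rw [smul_smul, ← pow_add]
      have hcat : ∑ k ∈ range i, σ ^ k • b + ∑ k ∈ range j, σ ^ (i + k) • b =
          ∑ k ∈ range (i + j), σ ^ k • b := by
        rw [Finset.sum_range_add]
      rw [hshift]
      by_cases hc : n ≤ i + j
      · have hmod : (i + j) % n = i + j - n := by
          rw [Nat.mod_eq_sub_mod hc, Nat.mod_eq_of_lt (by omega)]
        have hsplit : i + j = n + (i + j - n) := by omega
        have hper : ∑ k ∈ range (i + j), σ ^ k • b =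
            cy_norm σ n b + ∑ k ∈ range (i + j - n), σ ^ k • b := by
          conv_lhs => rw [hsplit]
          rw [Finset.sum_range_add]
          unfold cy_norm
          congr 1
          exact Finset.sum_congr rfl fun k _ => by rw [pow_add, hσ, one_mul]
        rw [if_pos hc, hmod]
        have : ∑ k ∈ range j, σ ^ (i + k) • b = ∑ k ∈ range (i + j), σ ^ k • b -
            ∑ k ∈ range i, σ ^ k • b := by rw [← hcat]; abel
        rw [this, hper]
        abel
      · have hmod : (i + j) % n = i + j := Nat.mod_eq_of_lt (by omega)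
        rw [if_neg hc, hmod, ← hcat]
        abel
    obtain ⟨z, hz⟩ := hcob
    refine ⟨fun g => y g + z g, fun g k => ?_⟩
    have e1 := hy g k
    have e2 := hz g k
    rw [Pi.sub_apply, ← hb] at e1
    have e3 : f (g, k) = (g • y k - y (g * k) + y g) + (g • z k - z (g * k) + z g) := by
      rw [e1, e2]; abel
    show g • (y k + z k) - (y (g * k) + z (g * k)) + (y g + z g) = f (g, k)
    rw [e3, smul_add]
    abel

end main

end Fermat.Agent.S55
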