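import Mathlib
import Fermat.Agent.S55.Local.CyclicH2

/-!
# S55 / local theory: `H²` of a finite cyclic group on Mathlib's carrier

We transport the explicit description of `Local/CyclicH2.lean` to `groupCohomology.H2 A` for
`A : Rep k G`.
-/

set_option autoImplicit false

namespace Fermat.Agent.S55

open Finset groupCohomology CategoryTheory

universe u

variable {k G : Type u} [CommRing k] [Group G] (A : Rep k G)

/-! ### A generic descent tool -/

theorem cy_H2π_surjective : Function.Surjective (H2π A).hom :=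
  (ModuleCat.epi_iff_surjective (H2π A)).1 inferInstance

theorem cy_ker_H2π (f : cocycles₂ A) :
    f ∈ LinearMap.ker (H2π A).hom ↔ (f : G × G → A.V) ∈ coboundaries₂ A := by
  rw [LinearMap.mem_ker]
  exact H2π_eq_zero_iff f

/-- Descend a linear map on 2-cocycles which kills the coboundaries to `H²`. -/
noncomputable def cy_H2lift {M : Type*} [AddCommGroup M] [Module k M]
    (φ : cocycles₂ A →ₗ[k] M)
    (hφ : ∀ f : cocycles₂ A, (f : G × G → A.V) ∈ coboundaries₂ A → φ f = 0) :
    H2 A →ₗ[k] M :=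
  ((LinearMap.ker (H2π A).hom).liftQ φ (fun f hf => by
      rw [LinearMap.mem_ker]
      exact hφ f ((cy_ker_H2π A f).1 hf))).comp
    ((H2π A).hom.quotKerEquivOfSurjective (cy_H2π_surjective A)).symm.toLinearMap

theorem cy_H2lift_H2π {M : Type*} [AddCommGroup M] [Module k M]
    (φ : cocycles₂ A →ₗ[k] M)
    (hφ : ∀ f : cocycles₂ A, (f : G × G → A.V) ∈ coboundaries₂ A → φ f = 0)
    (f : cocycles₂ A) : cy_H2lift A φ hφ ((H2π A).hom f) = φ f := by
  unfold cy_H2lift
  have h : ((H2π A).hom.quotKerEquivOfSurjective (cy_H2π_surjective A)).symm ((H2π A).hom f) =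
      Submodule.Quotient.mk f := by
    rw [LinearEquiv.symm_apply_eq]
    rfl
  rw [LinearMap.comp_apply, LinearEquiv.coe_coe, h]
  rfl

theorem cy_H2lift_H2π' {M : Type*} [AddCommGroup M] [Module k M]
    (φ : cocycles₂ A →ₗ[k] M)
    (hφ : ∀ f : cocycles₂ A, (f : G × G → A.V) ∈ coboundaries₂ A → φ f = 0)
    (f : cocycles₂ A) : cy_H2lift A φ hφ (H2π A f) = φ f :=
  cy_H2lift_H2π A φ hφ f

/-! ### The action of `G` on the underlying module, and the dictionary with `CyclicH2.lean` -/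

/-- The `G`-action on the underlying module of a representation (used as a local instance to
apply the lemmas of `Local/CyclicH2.lean`). -/
@[reducible] def cy_repAction : DistribMulAction G A.V where
  smul g x := A.ρ g x
  one_smul x := by show A.ρ 1 x = x; simp
  mul_smul g h x := by show A.ρ (g * h) x = A.ρ g (A.ρ h x); simp
  smul_zero g := map_zero _
  smul_add g x y := map_add _ _ _

theorem cy_repAction_smul (g : G) (x : A.V) :
    letI := cy_repAction A
    g • x = A.ρ g x := rfl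

theorem cy_rep_isCocycle₂ (f : cocycles₂ A) :
    letI := cy_repAction A
    IsCocycle₂ (f : G × G → A.V) :=
  fun g h j => (mem_cocycles₂_iff (f : G × G → A.V)).1 f.2 g h j

theorem cy_rep_mem_cocycles₂ {f : G × G → A.V}
    (hf : letI := cy_repAction A; IsCocycle₂ f) : f ∈ cocycles₂ A :=
  (mem_cocycles₂_iff f).2 fun g h j => hf g h j

theorem cy_rep_mem_coboundaries₂_iff (f : G × G → A.V) :
    f ∈ coboundaries₂ A ↔ (letI := cy_repAction A; IsCoboundary₂ f) := by
  constructor
  · rintro ⟨x, rfl⟩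
    exact ⟨x, fun g h => rfl⟩
  · rintro ⟨x, hx⟩
    exact ⟨x, funext fun p => hx p.1 p.2⟩

/-- The cyclic invariant of a 2-cochain, as a linear map. -/
def cy_repSum (σ : G) (n : ℕ) : (G × G → A.V) →ₗ[k] A.V :=
  ∑ i ∈ range n, LinearMap.proj (σ ^ i, σ)

/-- The norm along the powers of `σ`, as a linear map. -/
def cy_repNorm (σ : G) (n : ℕ) : A.V →ₗ[k] A.V :=
  ∑ i ∈ range n, (A.ρ (σ ^ i) : A.V →ₗ[k] A.V)

theorem cy_repSum_apply (σ : G) (n : ℕ) (f : G × G → A.V) :
    cy_repSum A σ n f = ∑ i ∈ range n, f (σ ^ i, σ) := by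
  simp [cy_repSum, LinearMap.sum_apply]

theorem cy_repNorm_apply (σ : G) (n : ℕ) (x : A.V) :
    cy_repNorm A σ n x = ∑ i ∈ range n, A.ρ (σ ^ i) x := by
  simp [cy_repNorm, LinearMap.sum_apply]

theorem cy_repSum_eq (σ : G) (n : ℕ) (f : G × G → A.V) :
    cy_repSum A σ n f = cy_sum σ n f := cy_repSum_apply A σ n f

theorem cy_repNorm_eq (σ : G) (n : ℕ) (x : A.V) :
    letI := cy_repAction A
    cy_repNorm A σ n x = cy_norm σ n x := cy_repNorm_apply A σ n x

/-! ### The Nakayama map `H²(G, A) → A / N A` -/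

section nak

variable {σ : G} {n : ℕ} (hσ : σ ^ n = 1)

include hσ in
theorem cy_repSum_of_mem_coboundaries₂ {f : G × G → A.V} (hf : f ∈ coboundaries₂ A) :
    cy_repSum A σ n f ∈ LinearMap.range (cy_repNorm A σ n) := by
  let _ := cy_repAction A
  obtain ⟨x, rfl⟩ := hf
  refine ⟨x σ, ?_⟩
  rw [cy_repNorm_eq, cy_repSum_eq]
  exact (cy_sum_coboundary hσ x).symm

/-- The Nakayama map `H²(G, A) → A / N_σ A`, `[f] ↦ ∑_{i<n} f (σ^i, σ)`. -/
noncomputable def cy_nak : H2 A →ₗ[k] A.V ⧸ LinearMap.range (cy_repNorm A σ n) :=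
  cy_H2lift A ((LinearMap.range (cy_repNorm A σ n)).mkQ ∘ₗ cy_repSum A σ n ∘ₗ
      (cocycles₂ A).subtype) (fun f hf => by
    rw [LinearMap.comp_apply, LinearMap.comp_apply, Submodule.mkQ_apply,
      Submodule.Quotient.mk_eq_zero]
    exact cy_repSum_of_mem_coboundaries₂ A hσ hf)

theorem cy_nak_H2π (f : cocycles₂ A) :
    cy_nak A hσ (H2π A f) = Submodule.Quotient.mk (cy_repSum A σ n (f : G × G → A.V)) := by
  unfold cy_nak
  rw [cy_H2lift_H2π']
  rfl

end nak

section main

variable {σ : G} {n : ℕ} (hn : 0 < n) (ho : orderOf σ = n)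
  (hgen : ∀ g : G, g ∈ Subgroup.zpowers σ)

include hn ho hgen

theorem cy_mem_coboundaries₂_iff (f : cocycles₂ A) :
    (f : G × G → A.V) ∈ coboundaries₂ A ↔
      ∃ b, cy_repNorm A σ n b = cy_repSum A σ n (f : G × G → A.V) := by
  let _ := cy_repAction A
  rw [cy_rep_mem_coboundaries₂_iff, cy_isCoboundary₂_iff hn ho hgen (cy_rep_isCocycle₂ A f)]
  simp only [cy_repNorm_eq, cy_repSum_eq]

theorem cy_H2π_eq_zero_iff (f : cocycles₂ A) :
    H2π A f = 0 ↔ ∃ b, cy_repNorm A σ n b = cy_repSum A σ n (f : G × G → A.V) := by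
  rw [H2π_eq_zero_iff, cy_mem_coboundaries₂_iff A hn ho hgen]

theorem cy_rep_invariant {a : A.V} (ha : A.ρ σ a = a) (g : G) : A.ρ g a = a := by
  let _ := cy_repAction A
  exact cy_invariant_of_pow hn ho hgen ha g

/-- The cyclic-algebra cocycle attached to an invariant element, as an element of `Z²(G, A)`. -/
noncomputable def cy_repCocycle (a : A.V) (ha : A.ρ σ a = a) : cocycles₂ A :=
  ⟨cy_cocycle σ n a, cy_rep_mem_cocycles₂ A (by
    let _ := cy_repAction A
    exact cy_isCocycle₂ hn ho hgen ha)⟩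

theorem cy_repCocycle_coe (a : A.V) (ha : A.ρ σ a = a) :
    (cy_repCocycle A hn ho hgen a ha : G × G → A.V) = cy_cocycle σ n a := rfl

theorem cy_repSum_repCocycle (h1n : 1 < n) (a : A.V) (ha : A.ρ σ a = a) :
    cy_repSum A σ n (cy_repCocycle A hn ho hgen a ha : G × G → A.V) = a := by
  rw [cy_repCocycle_coe, cy_repSum_eq]
  exact cy_sum_cocycle hn ho h1n a

theorem cy_repSum_invariant (f : cocycles₂ A) (g : G) :
    A.ρ g (cy_repSum A σ n (f : G × G → A.V)) = cy_repSum A σ n (f : G × G → A.V) := by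
  let _ := cy_repAction A
  have hσ : σ ^ n = 1 := by rw [← ho]; exact pow_orderOf_eq_one σ
  apply cy_rep_invariant A hn ho hgen
  rw [cy_repSum_eq]
  have := cy_smul_sum hσ (cy_rep_isCocycle₂ A f) 1
  rwa [pow_one] at this

/-- Every class in `H²` of a finite cyclic group is a cyclic-algebra class. -/
theorem cy_H2_exists_cocycle (z : H2 A) :
    ∃ (a : A.V) (ha : A.ρ σ a = a), z = H2π A (cy_repCocycle A hn ho hgen a ha) := by
  let _ := cy_repAction A
  induction z using H2_induction_on with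
  | h f =>
    refine ⟨cy_repSum A σ n (f : G × G → A.V), cy_repSum_invariant A hn ho hgen f σ, ?_⟩
    rw [H2π_eq_iff, cy_rep_mem_coboundaries₂_iff, cy_repCocycle_coe, cy_repSum_eq]
    exact cy_isCoboundary_sub hn ho hgen (cy_rep_isCocycle₂ A f)

theorem cy_nak_injective :
    Function.Injective (cy_nak A (σ := σ) (n := n) (by rw [← ho]; exact pow_orderOf_eq_one σ)) := by
  rw [← LinearMap.ker_eq_bot, LinearMap.ker_eq_bot']
  intro z hz
  induction z using H2_induction_on with
  | h f =>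
    rw [cy_nak_H2π, Submodule.Quotient.mk_eq_zero] at hz
    obtain ⟨b, hb⟩ := hz
    exact (cy_H2π_eq_zero_iff A hn ho hgen f).2 ⟨b, hb⟩

theorem cy_nak_eq_mk_invariant (z : H2 A) :
    ∃ a : A.V, (∀ g, A.ρ g a = a) ∧
      cy_nak A (σ := σ) (n := n) (by rw [← ho]; exact pow_orderOf_eq_one σ) z =
        Submodule.Quotient.mk a := by
  induction z using H2_induction_on with
  | h f =>
    exact ⟨_, cy_repSum_invariant A hn ho hgen f, cy_nak_H2π A _ f⟩

theorem cy_nak_surjective_on_invariants (a : A.V) (ha : A.ρ σ a = a) :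
    ∃ z : H2 A, cy_nak A (σ := σ) (n := n) (by rw [← ho]; exact pow_orderOf_eq_one σ) z =
      Submodule.Quotient.mk a := by
  rcases Nat.lt_or_ge 1 n with h1n | h1n
  · exact ⟨H2π A (cy_repCocycle A hn ho hgen a ha), by
      rw [cy_nak_H2π, cy_repSum_repCocycle A hn ho hgen h1n]⟩
  · have hn1 : n = 1 := by omega
    subst hn1
    refine ⟨0, ?_⟩
    rw [map_zero, eq_comm, Submodule.Quotient.mk_eq_zero]
    exact ⟨a, by simp [cy_repNorm_apply]⟩

end main

/-- For a finite cyclic group with generator `σ` of order `n`, `cy_repNorm A σ n` is Mathlib's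
norm `∑ g, ρ g`. -/
theorem cy_repNorm_eq_norm [Fintype G] {σ : G} {n : ℕ} (hn : 0 < n) (ho : orderOf σ = n)
    (hgen : ∀ g : G, g ∈ Subgroup.zpowers σ) : cy_repNorm A σ n = A.ρ.norm := by
  unfold cy_repNorm Representation.norm
  refine Finset.sum_bij (fun i _ => σ ^ i) (fun _ _ => Finset.mem_univ _) ?_ ?_ (fun _ _ => rfl)
  · intro i hi j hj hij
    have hi' : i ∈ Set.Iio (orderOf σ) := by rw [ho]; exact Finset.mem_range.1 hi
    have hj' : j ∈ Set.Iio (orderOf σ) := by rw [ho]; exact Finset.mem_range.1 hj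
    exact pow_injOn_Iio_orderOf hi' hj' hij
  · intro g _
    exact ⟨cy_idx σ g, Finset.mem_range.2 (cy_idx_lt hn ho hgen g), cy_pow_idx hn ho hgen g⟩

/-! ### Naturality: restriction and inflation on cyclic invariants -/

section naturality

variable {A}
variable {H : Type u} [Group H] {B : Rep k H} (ι : H →* G) (φ : Rep.res ι A ⟶ B)

theorem cy_mapCocycles₂_apply (f : cocycles₂ A) (p : H × H) :
    (mapCocycles₂ ι φ f : H × H → B.V) p = φ.hom (f (ι p.1, ι p.2)) := rfl

/-- The cyclic invariant of the pull-back of a cocycle along `ι : H →* G` with `ι τ = σ ^ d`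
(restriction to `⟨σ ^ d⟩`; inflation for `d = 1`). -/
theorem cy_repSum_mapCocycles₂ {σ : G} {n : ℕ} (hσ : σ ^ n = 1) {τ : H} {d : ℕ}
    (hι : ι τ = σ ^ d) (m r : ℕ) (h : d * m = n * r) (f : cocycles₂ A) :
    cy_repSum B τ m (mapCocycles₂ ι φ f : H × H → B.V) =
      φ.hom (r • cy_repSum A σ n (f : G × G → A.V) +
        cy_repNorm A (σ ^ d) m (f (1, 1) - cy_phi σ (f : G × G → A.V) d)) := by
  let _ := cy_repAction A
  have h1 := cy_sum_comp_hom hσ ι hι (cy_rep_isCocycle₂ A f) m r h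
  rw [cy_repSum_eq B, cy_repSum_eq A, cy_repNorm_eq, ← h1]
  unfold cy_sum
  rw [map_sum]
  rfl

/-- Inflation: no error term. -/
theorem cy_repSum_mapCocycles₂_inflation {σ : G} {n : ℕ} (hσ : σ ^ n = 1) {τ : H}
    (hι : ι τ = σ) (r : ℕ) (f : cocycles₂ A) :
    cy_repSum B τ (n * r) (mapCocycles₂ ι φ f : H × H → B.V) =
      φ.hom (r • cy_repSum A σ n (f : G × G → A.V)) := by
  let _ := cy_repAction A
  have h1 := cy_sum_inflation hσ ι hι (cy_rep_isCocycle₂ A f) r
  rw [cy_repSum_eq B, cy_repSum_eq A, ← h1]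
  unfold cy_sum
  rw [map_sum]
  rfl

/-- The Nakayama map is natural in the coefficients and under pull-back along `ι`. -/
theorem cy_nak_map_H2π {σ : G} {n : ℕ} (hσ : σ ^ n = 1) {τ : H} {d : ℕ}
    (hι : ι τ = σ ^ d) (m r : ℕ) (h : d * m = n * r) (hτ : τ ^ m = 1) (f : cocycles₂ A) :
    cy_nak B hτ (map ι φ 2 (H2π A f)) =
      Submodule.Quotient.mk (φ.hom (r • cy_repSum A σ n (f : G × G → A.V) +
        cy_repNorm A (σ ^ d) m (f (1, 1) - cy_phi σ (f : G × G → A.V) d))) := by
  have : map ι φ 2 (H2π A f) = H2π B (mapCocycles₂ ι φ f) := by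
    have := H2π_comp_map ι φ
    exact congr($this f)
  rw [this, cy_nak_H2π, cy_repSum_mapCocycles₂ ι φ hσ hι m r h]

end naturality

end Fermat.Agent.S55
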