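import Mathlib
import Fermat.Agent.S55.Local.CyclicH2Rep

/-!
# S55 / local theory: the invariant map of a cyclic layer with a valuation

For a finite cyclic group `G = ⟨σ⟩` of order `n`, a representation `A` and a `G`-invariant
additive map `v : A → ℤ` ("valuation"), the map `[f] ↦ v (∑_{i<n} f (σ^i, σ)) / n mod ℤ` is a
well-defined homomorphism `H²(G, A) → ℚ/ℤ`.  It is injective as soon as invariant elements of
valuation `0` are norms and there is an invariant element of valuation `1` (unramified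
extensions of local fields), and we compute its behaviour under inflation and base change.
-/

set_option autoImplicit false

namespace Fermat.Agent.S55

open Finset groupCohomology CategoryTheory

universe u

/-! ### The map `x ↦ x / n mod ℤ` -/

/-- `x ↦ x / n mod ℤ`, as an additive map `ℤ →+ ℚ/ℤ`. -/
noncomputable def cy_frac (n : ℕ) : ℤ →+ AddCircle (1 : ℚ) :=
  (QuotientAddGroup.mk' _).comp
    ((AddMonoidHom.mulRight ((n : ℚ)⁻¹)).comp (Int.castAddHom ℚ))

theorem cy_frac_apply (n : ℕ) (x : ℤ) :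
    cy_frac n x = (((x : ℚ) * (n : ℚ)⁻¹ : ℚ) : AddCircle (1 : ℚ)) := rfl

theorem cy_frac_eq_zero_iff {n : ℕ} (hn : 0 < n) (x : ℤ) : cy_frac n x = 0 ↔ (n : ℤ) ∣ x := by
  rw [cy_frac_apply, AddCircle.coe_eq_zero_iff]
  have hn' : (n : ℚ) ≠ 0 := by exact_mod_cast hn.ne'
  constructor
  · rintro ⟨c, hc⟩
    refine ⟨c, ?_⟩
    have : (x : ℚ) = (n : ℚ) * c := by
      field_simp at hc
      rw [← hc]; ring
    exact_mod_cast this
  · rintro ⟨c, rfl⟩
    refine ⟨c, ?_⟩
    push_cast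
    field_simp
    simp

theorem cy_frac_mul_self (n : ℕ) (x : ℤ) : cy_frac n ((n : ℤ) * x) = 0 := by
  rcases Nat.eq_zero_or_pos n with rfl | hn
  · simp
  · exact (cy_frac_eq_zero_iff hn _).2 ⟨x, rfl⟩

/-- `(a x) / m = (b x) / n` when `a n = b m`. -/
theorem cy_frac_eq_of_mul_eq {m n : ℕ} (hm : 0 < m) (hn : 0 < n) {a b : ℤ}
    (h : a * n = b * m) (x : ℤ) : cy_frac m (a * x) = cy_frac n (b * x) := by
  rw [cy_frac_apply, cy_frac_apply]
  congr 1
  have hm' : (m : ℚ) ≠ 0 := by exact_mod_cast hm.ne'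
  have hn' : (n : ℚ) ≠ 0 := by exact_mod_cast hn.ne'
  have h' : (a : ℚ) * n = b * m := by exact_mod_cast h
  push_cast
  field_simp
  linear_combination (x : ℚ) * h'

theorem cy_addOrderOf_frac_one {n : ℕ} (hn : 0 < n) : addOrderOf (cy_frac n 1) = n := by
  rw [cy_frac_apply]
  have := AddCircle.addOrderOf_period_div (p := (1 : ℚ)) hn
  convert this using 3
  simp [div_eq_mul_inv]

theorem cy_pow_eq_one_of_orderOf {G : Type*} [Monoid G] {σ : G} {n : ℕ} (ho : orderOf σ = n) :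
    σ ^ n = 1 := by rw [← ho]; exact pow_orderOf_eq_one σ

/-! ### Additive descent to `H²` -/

variable {k G : Type u} [CommRing k] [Group G] (A : Rep k G)

/-- Descend an additive map on 2-cocycles which kills the coboundaries to `H²`. -/
noncomputable def cy_H2liftAdd {M : Type*} [AddCommGroup M] (φ : cocycles₂ A →+ M)
    (hφ : ∀ f : cocycles₂ A, (f : G × G → A.V) ∈ coboundaries₂ A → φ f = 0) : H2 A →+ M :=
  (QuotientAddGroup.lift ((H2π A).hom.toAddMonoidHom.ker) φ (fun f hf => by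
      rw [AddMonoidHom.mem_ker] at hf
      exact hφ f ((H2π_eq_zero_iff f).1 hf))).comp
    (QuotientAddGroup.quotientKerEquivOfSurjective (H2π A).hom.toAddMonoidHom
      (cy_H2π_surjective A)).symm.toAddMonoidHom

theorem cy_H2liftAdd_H2π {M : Type*} [AddCommGroup M] (φ : cocycles₂ A →+ M)
    (hφ : ∀ f : cocycles₂ A, (f : G × G → A.V) ∈ coboundaries₂ A → φ f = 0)
    (f : cocycles₂ A) : cy_H2liftAdd A φ hφ (H2π A f) = φ f := by
  unfold cy_H2liftAdd
  have h : (QuotientAddGroup.quotientKerEquivOfSurjective (H2π A).hom.toAddMonoidHom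
      (cy_H2π_surjective A)).symm (H2π A f) = QuotientAddGroup.mk f := by
    rw [AddEquiv.symm_apply_eq]
    rfl
  rw [AddMonoidHom.comp_apply, AddEquiv.coe_toAddMonoidHom, h]
  rfl

/-! ### The invariant map -/

section inv

variable {σ : G} {n : ℕ} (v : A.V →+ ℤ)

theorem cy_v_repNorm (hv : ∀ g x, v (A.ρ g x) = v x) (τ : G) (m : ℕ) (b : A.V) :
    v (cy_repNorm A τ m b) = (m : ℤ) * v b := by
  rw [cy_repNorm_apply, map_sum, Finset.sum_congr rfl (fun i _ => hv (τ ^ i) b)]
  simp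

/-- The invariant map `H²(G, A) → ℚ/ℤ`, `[f] ↦ v (∑_{i<n} f (σ^i, σ)) / n`. -/
noncomputable def cy_inv (hσ : σ ^ n = 1) (hv : ∀ g x, v (A.ρ g x) = v x) :
    H2 A →+ AddCircle (1 : ℚ) :=
  cy_H2liftAdd A
    ((cy_frac n).comp (v.comp ((cy_repSum A σ n).toAddMonoidHom.comp
      (cocycles₂ A).subtype.toAddMonoidHom)))
    (fun f hf => by
      obtain ⟨b, hb⟩ := cy_repSum_of_mem_coboundaries₂ A hσ hf
      show cy_frac n (v (cy_repSum A σ n (f : G × G → A.V))) = 0
      rw [← hb, cy_v_repNorm A v hv, cy_frac_mul_self])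

theorem cy_inv_H2π (hσ : σ ^ n = 1) (hv : ∀ g x, v (A.ρ g x) = v x) (f : cocycles₂ A) :
    cy_inv A v hσ hv (H2π A f) = cy_frac n (v (cy_repSum A σ n (f : G × G → A.V))) := by
  unfold cy_inv
  rw [cy_H2liftAdd_H2π]
  rfl

theorem cy_inv_eq_frac (hσ : σ ^ n = 1) (hv : ∀ g x, v (A.ρ g x) = v x) (z : H2 A) :
    ∃ c : ℤ, cy_inv A v hσ hv z = cy_frac n c := by
  induction z using H2_induction_on with
  | h f => exact ⟨_, cy_inv_H2π A v hσ hv f⟩

section cyclic

variable (hn : 0 < n) (ho : orderOf σ = n) (hgen : ∀ g : G, g ∈ Subgroup.zpowers σ)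
  (hv : ∀ g x, v (A.ρ g x) = v x)

include hn ho hgen

/-- The invariant of the cyclic-algebra class of an invariant element `a` is `v a / n`. -/
theorem cy_inv_repCocycle (a : A.V) (ha : A.ρ σ a = a) :
    cy_inv A v (cy_pow_eq_one_of_orderOf ho) hv
      (H2π A (cy_repCocycle A hn ho hgen a ha)) = cy_frac n (v a) := by
  rw [cy_inv_H2π]
  rcases Nat.lt_or_ge 1 n with h1n | h1n
  · rw [cy_repSum_repCocycle A hn ho hgen h1n]
  · have hn1 : n = 1 := by omega
    subst hn1
    rw [(cy_frac_eq_zero_iff one_pos _).2 (one_dvd _), (cy_frac_eq_zero_iff one_pos _).2 (one_dvd _)]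

/-- **Injectivity of the invariant map** when invariant elements of valuation `0` are norms and
some invariant element has valuation `1`. -/
theorem cy_inv_injective
    (hU : ∀ a : A.V, (∀ g, A.ρ g a = a) → v a = 0 → ∃ b, cy_repNorm A σ n b = a)
    (hπ : ∃ π : A.V, (∀ g, A.ρ g π = π) ∧ v π = 1) :
    Function.Injective (cy_inv A v (cy_pow_eq_one_of_orderOf ho) hv) := by
  rw [injective_iff_map_eq_zero]
  intro z hz
  induction z using H2_induction_on with
  | h f =>
    rw [cy_inv_H2π, cy_frac_eq_zero_iff hn] at hz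
    obtain ⟨c, hc⟩ := hz
    obtain ⟨π, hπinv, hπ1⟩ := hπ
    set s := cy_repSum A σ n (f : G × G → A.V) with hs
    have hsinv : ∀ g, A.ρ g s = s := cy_repSum_invariant A hn ho hgen f
    have hN : cy_repNorm A σ n (c • π) = (n : ℤ) • (c • π) := by
      rw [cy_repNorm_apply]
      have : ∀ i ∈ range n, A.ρ (σ ^ i) (c • π) = c • π := fun i _ => by
        rw [map_zsmul, hπinv]
      rw [Finset.sum_congr rfl this]
      simp
    have h0 : v (s - cy_repNorm A σ n (c • π)) = 0 := by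
      rw [map_sub, hN, hc, map_zsmul, map_zsmul, hπ1]
      simp
    have hinv : ∀ g, A.ρ g (s - cy_repNorm A σ n (c • π)) = s - cy_repNorm A σ n (c • π) := by
      intro g
      rw [map_sub, hsinv, hN, map_zsmul, map_zsmul, hπinv]
    obtain ⟨b, hb⟩ := hU _ hinv h0
    refine (cy_H2π_eq_zero_iff A hn ho hgen f).2 ⟨b + c • π, ?_⟩
    rw [map_add, hb]
    abel

/-- The invariant map takes the value `1 / n`. -/
theorem cy_inv_exists_gen (hπ : ∃ π : A.V, (∀ g, A.ρ g π = π) ∧ v π = 1) :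
    ∃ z : H2 A, cy_inv A v (cy_pow_eq_one_of_orderOf ho) hv z = cy_frac n 1 := by
  obtain ⟨π, hπinv, hπ1⟩ := hπ
  exact ⟨_, by rw [cy_inv_repCocycle A v hn ho hgen hv π (hπinv σ), hπ1]⟩

end cyclic

end inv

/-! ### Functoriality: inflation and base change -/

section functoriality

variable {A}
variable {H : Type u} [Group H] {B : Rep k H} (ι : H →* G) (φ : Rep.res ι A ⟶ B)
  {σ : G} {n : ℕ} {τ : H} {m : ℕ} (v : A.V →+ ℤ) (v' : B.V →+ ℤ)

/-- **Base change formula.** If `ι τ = σ ^ d`, `d * m = n * r` and `v' ∘ φ = e • v`, then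
`inv' (ι^* z) = (e * d) • inv z`. -/
theorem cy_inv_map (hn : 0 < n) (hm : 0 < m) (hσ : σ ^ n = 1) (hτ : τ ^ m = 1)
    (hv : ∀ g x, v (A.ρ g x) = v x) (hv' : ∀ g x, v' (B.ρ g x) = v' x)
    {d : ℕ} (hι : ι τ = σ ^ d) {r : ℕ} (h : d * m = n * r)
    {e : ℤ} (he : ∀ x, v' (φ.hom x) = e * v x) (z : H2 A) :
    cy_inv B v' hτ hv' (map ι φ 2 z) = (e * d) • cy_inv A v hσ hv z := by
  induction z using H2_induction_on with
  | h f =>
    have h1 : map ι φ 2 (H2π A f) = H2π B (mapCocycles₂ ι φ f) := by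
      have := H2π_comp_map ι φ
      exact congr($this f)
    rw [h1, cy_inv_H2π, cy_inv_H2π, cy_repSum_mapCocycles₂ ι φ hσ hι m r h, he, map_add,
      map_nsmul, cy_v_repNorm A v hv, ← map_zsmul]
    set x := v (cy_repSum A σ n (f : G × G → A.V))
    set y := v (f (1, 1) - cy_phi σ (f : G × G → A.V) d)
    have e1 : e * (r • x + (m : ℤ) * y) = (e * r) * x + (m : ℤ) * (e * y) := by
      rw [nsmul_eq_mul]; ring
    rw [e1, map_add, cy_frac_mul_self, add_zero, smul_eq_mul]
    refine cy_frac_eq_of_mul_eq hm hn ?_ x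
    have : (d : ℤ) * m = n * r := by exact_mod_cast h
    linear_combination (-e) * this

/-- **Inflation formula**: `inv' (inf z) = inv z` when `ι τ = σ`, `m = n * r` and `v' ∘ φ = v`. -/
theorem cy_inv_inflation (hn : 0 < n) {r : ℕ} (hr : 0 < r) (hσ : σ ^ n = 1)
    (hτ : τ ^ (n * r) = 1)
    (hv : ∀ g x, v (A.ρ g x) = v x) (hv' : ∀ g x, v' (B.ρ g x) = v' x)
    (hι : ι τ = σ) (he : ∀ x, v' (φ.hom x) = v x) (z : H2 A) :
    cy_inv B v' hτ hv' (map ι φ 2 z) = cy_inv A v hσ hv z := by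
  have := cy_inv_map ι φ v v' hn (Nat.mul_pos hn hr) hσ hτ hv hv' (d := 1)
    (by rw [hι, pow_one]) (r := r) (by rw [one_mul]) (e := 1) (by simpa using he) z
  rw [this]
  simp

end functoriality

end Fermat.Agent.S55
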