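import Mathlib

/-!
# S55 / local toolkit [L0], part 1: the abstract setting

`lf_IsLocal E L v`: a finite Galois extension `L/E` with a normalised discrete valuation
`v : Valuation L ℤᵐ⁰`, invariant under `Gal(L/E)`, complete, with finite residue field.
No topology, no residue field type, no valuation on `E`.

This file: basic valuation lemmas, the norm and "`σ - 1`" endomorphisms of `Lˣ`, the unit
filtration `lf_U v i`, its separatedness and completeness (also for open subfiltrations).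
-/

namespace Fermat.Agent.S55

open WithZero Finset

section Setting

variable (E L : Type) [Field E] [Field L] [Algebra E L] (v : Valuation L ℤᵐ⁰)

/-- The abstract local setting. -/
structure lf_IsLocal : Prop where
  inv : ∀ (σ : L ≃ₐ[E] L) (x : L), v (σ x) = v x
  unif : ∃ π : L, v π = exp (-1 : ℤ)
  complete : ∀ a : ℕ → L, (∀ i, v (a (i + 1) - a i) ≤ exp (-(i : ℤ))) →
    ∃ x : L, ∀ i, v (x - a i) ≤ exp (-(i : ℤ))
  finite_res : ∃ S : Finset L, ∀ x : L, v x ≤ 1 → ∃ s ∈ S, v (x - s) < 1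

variable {E L v}

/-- (T3) The setting passes to the top of a tower. -/
theorem lf_IsLocal.tower (h : lf_IsLocal E L v) (K : IntermediateField E L) :
    lf_IsLocal K L v where
  inv σ x := h.inv (σ.restrictScalars E) x
  unif := h.unif
  complete := h.complete
  finite_res := h.finite_res

end Setting

section Valuation

variable {L : Type} [Field L] (v : Valuation L ℤᵐ⁰)

theorem lf_exp_neg_le_one (i : ℕ) : exp (-(i : ℤ)) ≤ (1 : ℤᵐ⁰) := by
  rw [← exp_zero, exp_le_exp]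
  omega

theorem lf_exp_neg_succ_lt (i : ℕ) : exp (-((i + 1 : ℕ) : ℤ)) < exp (-(i : ℤ)) := by
  rw [exp_lt_exp]
  push_cast
  omega

theorem lf_exp_neg_anti {i j : ℕ} (hij : i ≤ j) : exp (-(j : ℤ)) ≤ exp (-(i : ℤ)) := by
  rw [exp_le_exp]
  omega

theorem lf_lt_exp_neg_iff {x : ℤᵐ⁰} (i : ℕ) : x < exp (-(i : ℤ)) ↔ x ≤ exp (-((i + 1 : ℕ) : ℤ)) := by
  rcases eq_or_ne x 0 with rfl | hx
  · simp
  · rw [← log_lt_iff_lt_exp hx, ← log_le_iff_le_exp hx]
    push_cast
    omega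

theorem lf_lt_one_iff {x : ℤᵐ⁰} : x < 1 ↔ x ≤ exp (-(1 : ℤ)) := by
  have := lf_lt_exp_neg_iff (x := x) 0
  simpa using this

/-- Separatedness of the valuation topology. -/
theorem lf_sep {x : L} (hx : ∀ i : ℕ, v x ≤ exp (-(i : ℤ))) : x = 0 := by
  by_contra h0
  have hv : v x ≠ 0 := (v.ne_zero_iff).mpr h0
  obtain ⟨k, hk⟩ := exists_exp_neg_natCast_lt hv
  exact absurd (hx k) (not_le.mpr hk)

theorem lf_v_eq_exp_log {x : L} (hx : x ≠ 0) : v x = exp (log (v x)) :=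
  (exp_log ((v.ne_zero_iff).mpr hx)).symm

end Valuation

section Galois

variable {E L : Type} [Field E] [Field L] [Algebra E L] {v : Valuation L ℤᵐ⁰}

/-- The action of an automorphism on units. -/
def lf_act (σ : L ≃ₐ[E] L) : Lˣ →* Lˣ := Units.map (σ : L →* L)

@[simp] theorem lf_act_coe (σ : L ≃ₐ[E] L) (u : Lˣ) : ((lf_act σ u : Lˣ) : L) = σ (u : L) := rfl

/-- `σ - 1`, as an endomorphism of `Lˣ`. -/
noncomputable def lf_D (σ : L ≃ₐ[E] L) : Lˣ →* Lˣ := lf_act σ / MonoidHom.id Lˣ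

theorem lf_D_apply (σ : L ≃ₐ[E] L) (u : Lˣ) : lf_D σ u = lf_act σ u / u := rfl

theorem lf_D_coe (σ : L ≃ₐ[E] L) (u : Lˣ) : ((lf_D σ u : Lˣ) : L) = σ (u : L) / (u : L) := by
  rw [lf_D_apply, Units.val_div_eq_div_val, lf_act_coe]

variable [FiniteDimensional E L]

/-- The norm, as an endomorphism of `Lˣ`. -/
noncomputable def lf_N (E : Type) {L : Type} [Field E] [Field L] [Algebra E L]
    [FiniteDimensional E L] : Lˣ →* Lˣ :=
  ∏ τ : L ≃ₐ[E] L, lf_act τ

theorem lf_N_apply (u : Lˣ) : lf_N E u = ∏ τ : L ≃ₐ[E] L, lf_act τ u := by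
  simp [lf_N]

theorem lf_N_act (σ : L ≃ₐ[E] L) (u : Lˣ) : lf_N E (lf_act σ u) = lf_N E u := by
  rw [lf_N_apply, lf_N_apply]
  refine Fintype.prod_equiv (Equiv.mulRight σ) _ _ fun τ => ?_
  apply Units.ext
  simp [AlgEquiv.mul_apply]

theorem lf_act_N (σ : L ≃ₐ[E] L) (u : Lˣ) : lf_act σ (lf_N E u) = lf_N E u := by
  rw [lf_N_apply, map_prod]
  refine Fintype.prod_equiv (Equiv.mulLeft σ) _ _ fun τ => ?_
  apply Units.ext
  simp [AlgEquiv.mul_apply]

theorem lf_D_N (σ : L ≃ₐ[E] L) (u : Lˣ) : lf_D σ (lf_N E u) = 1 := by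
  rw [lf_D_apply, lf_act_N, div_self']

theorem lf_N_D (σ : L ≃ₐ[E] L) (u : Lˣ) : lf_N E (lf_D σ u) = 1 := by
  rw [lf_D_apply, map_div, lf_N_act, div_self']

variable [IsGalois E L]

theorem lf_N_coe (u : Lˣ) : ((lf_N E u : Lˣ) : L) = algebraMap E L (Algebra.norm E (u : L)) := by
  rw [lf_N_apply, Algebra.norm_eq_prod_automorphisms, Units.coe_prod]
  rfl

/-- `v (N x) = v x ^ [L:E]`. -/
theorem lf_v_norm (h : lf_IsLocal E L v) (x : L) :
    v (algebraMap E L (Algebra.norm E x)) = v x ^ Module.finrank E L := by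
  rw [Algebra.norm_eq_prod_automorphisms, map_prod]
  simp only [h.inv]
  rw [Finset.prod_const, Finset.card_univ, ← Nat.card_eq_fintype_card,
    IsGalois.card_aut_eq_finrank]

/-- `v (Tr x) ≤ v x`. -/
theorem lf_v_trace_le (h : lf_IsLocal E L v) (x : L) :
    v (algebraMap E L (Algebra.trace E L x)) ≤ v x := by
  rw [trace_eq_sum_automorphisms]
  apply Valuation.map_sum_le
  intro σ _
  rw [h.inv]

end Galois

section UnitFiltration

variable {L : Type} [Field L] (v : Valuation L ℤᵐ⁰)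

/-- The unit filtration: `U⁽⁰⁾` = units, `U⁽ⁱ⁾ = 1 + 𝔪ⁱ`. -/
def lf_U (i : ℕ) : Subgroup Lˣ where
  carrier := {u | v (u : L) = 1 ∧ v ((u : L) - 1) ≤ exp (-(i : ℤ))}
  one_mem' := by simp
  mul_mem' := by
    rintro a b ⟨ha1, ha2⟩ ⟨hb1, hb2⟩
    refine ⟨by simp [ha1, hb1], ?_⟩
    have : ((a * b : Lˣ) : L) - 1 = (a : L) * ((b : L) - 1) + ((a : L) - 1) := by
      push_cast; ring
    rw [this]
    refine v.map_add_le ?_ ha2
    rw [map_mul, ha1, one_mul]
    exact hb2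
  inv_mem' := by
    rintro a ⟨ha1, ha2⟩
    refine ⟨by simp [ha1], ?_⟩
    have : ((a⁻¹ : Lˣ) : L) - 1 = (1 - (a : L)) * ((a⁻¹ : Lˣ) : L) := by
      rw [sub_mul, one_mul, Units.mul_inv]
    rw [this, map_mul, Units.val_inv_eq_inv_val, map_inv₀, ha1, inv_one, mul_one,
      Valuation.map_sub_swap]
    exact ha2

theorem lf_mem_U {i : ℕ} {u : Lˣ} :
    u ∈ lf_U v i ↔ v (u : L) = 1 ∧ v ((u : L) - 1) ≤ exp (-(i : ℤ)) := Iff.rfl

theorem lf_U_anti : Antitone (lf_U v) := by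
  intro i j hij u hu
  exact ⟨hu.1, hu.2.trans (lf_exp_neg_anti hij)⟩

theorem lf_mem_U_zero {u : Lˣ} : u ∈ lf_U v 0 ↔ v (u : L) = 1 := by
  refine ⟨fun h => h.1, fun h => ⟨h, ?_⟩⟩
  simp only [CharP.cast_eq_zero, neg_zero, exp_zero]
  refine (v.map_sub_le (le_of_eq h) ?_)
  simp

theorem lf_mem_U_of_pos {i : ℕ} (hi : 0 < i) {u : Lˣ} :
    u ∈ lf_U v i ↔ v ((u : L) - 1) ≤ exp (-(i : ℤ)) := by
  refine ⟨fun h => h.2, fun h => ⟨?_, h⟩⟩
  have hlt : v ((u : L) - 1) < v (1 : L) := by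
    rw [map_one]
    refine lt_of_le_of_lt h ?_
    rw [← exp_zero, exp_lt_exp]
    omega
  have := Valuation.map_add_eq_of_lt_left v hlt
  rw [add_comm] at this
  simpa using this

/-- Membership via a congruence. -/
theorem lf_div_mem_U {i : ℕ} {a b : Lˣ} (ha : v (a : L) = 1) (hb : v (b : L) = 1)
    (hab : v ((a : L) - b) ≤ exp (-(i : ℤ))) : a / b ∈ lf_U v i := by
  refine ⟨by simp [ha, hb], ?_⟩
  have : ((a / b : Lˣ) : L) - 1 = ((a : L) - b) / (b : L) := by
    rw [Units.val_div_eq_div_val, sub_div, div_self b.ne_zero]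
  rw [this, map_div₀, hb, div_one]
  exact hab

theorem lf_sub_le_of_div_mem_U {i : ℕ} {a b : Lˣ} (hb : v (b : L) = 1)
    (hab : a / b ∈ lf_U v i) : v ((a : L) - b) ≤ exp (-(i : ℤ)) := by
  have : (a : L) - b = (((a / b : Lˣ) : L) - 1) * (b : L) := by
    rw [Units.val_div_eq_div_val, sub_mul, one_mul, div_mul_cancel₀ _ b.ne_zero]
  rw [this, map_mul, hb, mul_one]
  exact hab.2

/-- Separatedness. -/
theorem lf_U_sep {u : Lˣ} (hu : ∀ i, u ∈ lf_U v i) : u = 1 := by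
  apply Units.ext
  have : (u : L) - 1 = 0 := lf_sep v fun i => (hu i).2
  rw [Units.val_one]
  exact sub_eq_zero.mp this

end UnitFiltration

section Complete

variable {E L : Type} [Field E] [Field L] [Algebra E L] {v : Valuation L ℤᵐ⁰}

/-- Separatedness for a subfiltration of the unit filtration. -/
theorem lf_hsep_of_le (Fil : ℕ → Subgroup Lˣ) (hle : ∀ i, Fil i ≤ lf_U v i) :
    ∀ x, (∀ i, x ∈ Fil i) → x = 1 :=
  fun _ hx => lf_U_sep v fun i => hle i (hx i)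

/-- Completeness for an open, antitone subfiltration of the unit filtration. -/
theorem lf_hcomp_of_open (h : lf_IsLocal E L v) (Fil : ℕ → Subgroup Lˣ) (hanti : Antitone Fil)
    (hle : ∀ i, Fil i ≤ lf_U v i) (hopen : ∀ k, ∃ m, lf_U v m ≤ Fil k) :
    ∀ x : ℕ → Lˣ, (∀ i, x i ∈ Fil i) → ∃ y, ∀ k, y / ∏ i ∈ range k, x i ∈ Fil k := by
  intro x hx
  set P : ℕ → Lˣ := fun k => ∏ i ∈ range k, x i with hP
  have hPv : ∀ k, v ((P k : Lˣ) : L) = 1 := by
    intro k
    have : P k ∈ lf_U v 0 := by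
      apply Subgroup.prod_mem
      intro i _
      exact lf_U_anti v (Nat.zero_le i) (hle i (hx i))
    exact this.1
  have hstep : ∀ i, v (((P (i + 1) : Lˣ) : L) - (P i : Lˣ)) ≤ exp (-(i : ℤ)) := by
    intro i
    have : ((P (i + 1) : Lˣ) : L) - (P i : Lˣ) = (P i : Lˣ) * (((x i : Lˣ) : L) - 1) := by
      simp only [hP, prod_range_succ, Units.val_mul]
      ring
    rw [this, map_mul, hPv, one_mul]
    exact (hle i (hx i)).2
  obtain ⟨y0, hy0⟩ := h.complete (fun k => ((P k : Lˣ) : L)) hstep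
  have hy0v : v y0 = 1 := by
    have h1 : v (y0 - (P 1 : Lˣ)) < v ((P 1 : Lˣ) : L) := by
      rw [hPv]
      refine lt_of_le_of_lt (hy0 1) ?_
      rw [← exp_zero, exp_lt_exp]
      norm_num
    have := Valuation.map_add_eq_of_lt_left v h1
    rw [add_comm, sub_add_cancel] at this
    rw [this, hPv]
  have hy0ne : y0 ≠ 0 := by
    intro h0
    rw [h0, map_zero] at hy0v
    exact zero_ne_one hy0v
  refine ⟨Units.mk0 y0 hy0ne, fun k => ?_⟩
  obtain ⟨m', hm'⟩ := hopen k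
  set m := max m' k with hm
  have hmk : k ≤ m := le_max_right _ _
  have hUm : lf_U v m ≤ Fil k := (lf_U_anti v (le_max_left m' k)).trans hm'
  have h1 : Units.mk0 y0 hy0ne / P m ∈ Fil k := by
    apply hUm
    apply lf_div_mem_U v (by simpa using hy0v) (hPv m)
    simpa using hy0 m
  have h2 : P m / P k ∈ Fil k := by
    have : P m / P k = ∏ i ∈ Ico k m, x i := by
      rw [div_eq_iff_eq_mul, mul_comm]
      simp only [hP]
      rw [← Finset.prod_range_mul_prod_Ico _ hmk]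
    rw [this]
    apply Subgroup.prod_mem
    intro i hi
    exact hanti (Finset.mem_Ico.mp hi).1 (hx i)
  have : Units.mk0 y0 hy0ne / P k = (Units.mk0 y0 hy0ne / P m) * (P m / P k) := by
    rw [div_mul_div_cancel]
  rw [this]
  exact (Fil k).mul_mem h1 h2

/-- Completeness of the unit filtration. -/
theorem lf_U_complete (h : lf_IsLocal E L v) :
    ∀ x : ℕ → Lˣ, (∀ i, x i ∈ lf_U v i) → ∃ y, ∀ k, y / ∏ i ∈ range k, x i ∈ lf_U v k :=
  lf_hcomp_of_open h (lf_U v) (lf_U_anti v) (fun _ => le_rfl) fun k => ⟨k, le_rfl⟩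

theorem lf_act_mem_U (h : lf_IsLocal E L v) (σ : L ≃ₐ[E] L) {i : ℕ} {u : Lˣ}
    (hu : u ∈ lf_U v i) : lf_act σ u ∈ lf_U v i := by
  refine ⟨by rw [lf_act_coe, h.inv]; exact hu.1, ?_⟩
  have : ((lf_act σ u : Lˣ) : L) - 1 = σ ((u : L) - 1) := by
    rw [lf_act_coe, map_sub, map_one]
  rw [this, h.inv]
  exact hu.2

theorem lf_D_mem_U (h : lf_IsLocal E L v) (σ : L ≃ₐ[E] L) {i : ℕ} {u : Lˣ}
    (hu : u ∈ lf_U v i) : lf_D σ u ∈ lf_U v i := by
  rw [lf_D_apply]
  exact (lf_U v i).div_mem (lf_act_mem_U h σ hu) hu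

variable [FiniteDimensional E L]

theorem lf_N_mem_U (h : lf_IsLocal E L v) {i : ℕ} {u : Lˣ}
    (hu : u ∈ lf_U v i) : lf_N E u ∈ lf_U v i := by
  rw [lf_N_apply]
  exact Subgroup.prod_mem _ fun τ _ => lf_act_mem_U h τ hu

end Complete

end Fermat.Agent.S55
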