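import Mathlib

/-!
# S55 / local toolkit [L0], part 0: complete filtered groups

Pure algebra.  `lf_filtered_surj`: successive approximation.  Let `A` be a commutative group
with a descending, separated and complete filtration `Fil i` by subgroups, and `f g : A →* A`
with `g ∘ f = 1`, `f` preserving the filtration.  If on every graded step the sequence
`f`, `g` is exact "modulo the next step", then it is exact on `Fil 0`.
-/

namespace Fermat.Agent.S55

open Finset

section Filtered

variable {A : Type*} [CommGroup A]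

/-- One successive-approximation step, packaged as a total function. -/
private noncomputable def lf_stepW (f : A →* A) (Fil : ℕ → Subgroup A)
    (i : ℕ) (u : A) : A :=
  open Classical in
  if h : ∃ w ∈ Fil i, u / f w ∈ Fil (i + 1) then h.choose else 1

/-- The sequence of remainders `u_i`. -/
private noncomputable def lf_seqU (f : A →* A) (Fil : ℕ → Subgroup A) (u : A) : ℕ → A
  | 0 => u
  | i + 1 => lf_seqU f Fil u i / f (lf_stepW f Fil i (lf_seqU f Fil u i))

/-- **Successive approximation.** -/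
theorem lf_filtered_surj (f g : A →* A) (Fil : ℕ → Subgroup A)
    (hsep : ∀ x, (∀ i, x ∈ Fil i) → x = 1)
    (hf : ∀ i, ∀ x ∈ Fil i, f x ∈ Fil i)
    (hcomp : ∀ x : ℕ → A, (∀ i, x i ∈ Fil i) →
      ∃ y, ∀ k, y / ∏ i ∈ range k, x i ∈ Fil k)
    (hgf : ∀ x, g (f x) = 1)
    (hstep : ∀ i, ∀ u ∈ Fil i, g u = 1 → ∃ w ∈ Fil i, u / f w ∈ Fil (i + 1))
    {u : A} (hu : u ∈ Fil 0) (hgu : g u = 1) : ∃ y ∈ Fil 0, f y = u := by
  classical
  set U := lf_seqU f Fil u with hU
  set W : ℕ → A := fun i => lf_stepW f Fil i (U i) with hW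
  -- invariants
  have hinv : ∀ i, U i ∈ Fil i ∧ g (U i) = 1 := by
    intro i
    induction i with
    | zero => exact ⟨hu, hgu⟩
    | succ i ih =>
      have hex := hstep i (U i) ih.1 ih.2
      have hWi : W i = hex.choose := by
        simp only [hW, lf_stepW, dif_pos hex]
      have hspec := hex.choose_spec
      refine ⟨?_, ?_⟩
      · show U i / f (W i) ∈ Fil (i + 1)
        rw [hWi]; exact hspec.2
      · show g (U i / f (W i)) = 1
        rw [map_div, ih.2, hgf, div_one]
  have hWmem : ∀ i, W i ∈ Fil i := by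
    intro i
    have hex := hstep i (U i) (hinv i).1 (hinv i).2
    have hWi : W i = hex.choose := by
      simp only [hW, lf_stepW, dif_pos hex]
    rw [hWi]; exact hex.choose_spec.1
  -- closed formula for U k
  have hUk : ∀ k, U k = u / f (∏ i ∈ range k, W i) := by
    intro k
    induction k with
    | zero => simp [hU, lf_seqU]
    | succ k ih =>
      show U k / f (W k) = _
      rw [ih, prod_range_succ, map_mul, div_div]
  obtain ⟨y, hy⟩ := hcomp W hWmem
  refine ⟨y, ?_, ?_⟩
  · simpa using hy 0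
  · have hkey : ∀ k, u / f y ∈ Fil k := by
      intro k
      have h1 : U k ∈ Fil k := (hinv k).1
      have h2 : f (y / ∏ i ∈ range k, W i) ∈ Fil k := hf k _ (hy k)
      have : u / f y = U k / f (y / ∏ i ∈ range k, W i) := by
        rw [hUk k, map_div]
        rw [div_div_div_cancel_right]
      rw [this]
      exact (Fil k).div_mem h1 h2
    have := hsep _ hkey
    rw [div_eq_one] at this
    exact this.symm

/-- Both halves at once: exactness of `N`, `D` on `Fil 0`. -/
theorem lf_filtered_exact (N D : A →* A) (Fil : ℕ → Subgroup A)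
    (hsep : ∀ x, (∀ i, x ∈ Fil i) → x = 1)
    (hN : ∀ i, ∀ x ∈ Fil i, N x ∈ Fil i) (hD : ∀ i, ∀ x ∈ Fil i, D x ∈ Fil i)
    (hcomp : ∀ x : ℕ → A, (∀ i, x i ∈ Fil i) →
      ∃ y, ∀ k, y / ∏ i ∈ range k, x i ∈ Fil k)
    (hDN : ∀ x, D (N x) = 1) (hND : ∀ x, N (D x) = 1)
    (hstepN : ∀ i, ∀ u ∈ Fil i, D u = 1 → ∃ w ∈ Fil i, u / N w ∈ Fil (i + 1))
    (hstepD : ∀ i, ∀ u ∈ Fil i, N u = 1 → ∃ w ∈ Fil i, u / D w ∈ Fil (i + 1)) :
    (∀ u ∈ Fil 0, D u = 1 → ∃ y ∈ Fil 0, N y = u) ∧
      (∀ u ∈ Fil 0, N u = 1 → ∃ y ∈ Fil 0, D y = u) :=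
  ⟨fun _ hu hDu => lf_filtered_surj N D Fil hsep hN hcomp hDN hstepN hu hDu,
    fun _ hu hNu => lf_filtered_surj D N Fil hsep hD hcomp hND hstepD hu hNu⟩

end Filtered

end Fermat.Agent.S55
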