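import Mathlib
import Fermat.Agent.S55.Local.Basic
import Fermat.Agent.S55.Local.Filtered
import Fermat.Agent.S55.Local.CyclicH2

/-!
# S55 / local toolkit [L0]: a cohomologically trivial open subgroup of the units

For a finite Galois extension `L/E` in the abstract local setting `lf_IsLocal E L v` we construct
(from a normal basis) an open `Gal(L/E)`-stable subgroup `V` of the principal units of `L` such
that, for cyclic `Gal(L/E) = ⟨σ⟩`, every `σ`-invariant element of `V` is a norm from `V` and every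
element of `V` of norm `1` is of the form `σ w / w` with `w ∈ V`.
-/

set_option autoImplicit false
set_option linter.unusedSectionVars false

namespace Fermat.Agent.S55

open WithZero Finset

/-! ### Valuation estimates -/

section Estimates

variable {L : Type} [Field L] (v : Valuation L ℤᵐ⁰)

/-- `∏ (1 + x i) = 1 + ∑ x i` up to second order terms. -/
theorem nl_prod_one_add {ι : Type*} (s : Finset ι) (x : ι → L) {ε : ℤᵐ⁰} (hε : ε ≤ 1)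
    (hx : ∀ i ∈ s, v (x i) ≤ ε) :
    v (∏ i ∈ s, (1 + x i) - 1 - ∑ i ∈ s, x i) ≤ ε * ε := by
  classical
  induction s using Finset.induction_on with
  | empty => simp
  | insert a s ha ih =>
    have hxa : v (x a) ≤ ε := hx a (Finset.mem_insert_self a s)
    have hxs : ∀ i ∈ s, v (x i) ≤ ε := fun i hi => hx i (Finset.mem_insert_of_mem hi)
    have ih' := ih hxs
    have hS : v (∑ i ∈ s, x i) ≤ ε := Valuation.map_sum_le v hxs
    rw [Finset.prod_insert ha, Finset.sum_insert ha]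
    set P := ∏ i ∈ s, (1 + x i) with hP
    set S := ∑ i ∈ s, x i with hS'
    have e : (1 + x a) * P - 1 - (x a + S) = (P - 1 - S) + x a * S + x a * (P - 1 - S) := by ring
    rw [e]
    have h1 : v (x a * S) ≤ ε * ε := by
      rw [map_mul]; exact mul_le_mul' hxa hS
    have h2 : v (x a * (P - 1 - S)) ≤ ε * ε := by
      rw [map_mul]
      calc v (x a) * v (P - 1 - S) ≤ ε * (ε * ε) := mul_le_mul' hxa ih'
        _ ≤ 1 * (ε * ε) := mul_le_mul' hε le_rfl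
        _ = ε * ε := one_mul _
    exact v.map_add_le (v.map_add_le ih' h1) h2

theorem nl_v_eq_one_of_sub_lt {w : L} (hw : v (w - 1) < 1) : v w = 1 := by
  have h1 : v (w - 1) < v (1 : L) := by rwa [map_one]
  have := Valuation.map_add_eq_of_lt_left v h1
  rw [add_comm, sub_add_cancel] at this
  rw [this, map_one]

end Estimates

section Expand

variable {E L : Type} [Field E] [Field L] [Algebra E L] [FiniteDimensional E L]
  {v : Valuation L ℤᵐ⁰}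

theorem nl_N_coe (w : Lˣ) : ((lf_N E w : Lˣ) : L) = ∏ ρ : L ≃ₐ[E] L, ρ (w : L) := by
  rw [lf_N_apply, Units.coe_prod]
  rfl

/-- The norm of `1 + x` is `1 + ∑ ρ x` up to second order terms. -/
theorem nl_N_expand (h : lf_IsLocal E L v) (w : Lˣ) {ε : ℤᵐ⁰} (hε : ε ≤ 1)
    (hw : v ((w : L) - 1) ≤ ε) :
    v (((lf_N E w : Lˣ) : L) - 1 - ∑ ρ : L ≃ₐ[E] L, ρ ((w : L) - 1)) ≤ ε * ε := by
  rw [nl_N_coe]
  have e : ∀ ρ : L ≃ₐ[E] L, ρ (w : L) = 1 + ρ ((w : L) - 1) := fun ρ => by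
    rw [map_sub, map_one]; ring
  have := nl_prod_one_add v (Finset.univ : Finset (L ≃ₐ[E] L)) (fun ρ => ρ ((w : L) - 1)) hε
    (fun ρ _ => by rw [h.inv]; exact hw)
  simpa only [← e] using this

omit [FiniteDimensional E L] in
/-- `σ w / w` for `w = 1 + x` is `1 + (σ x - x)` up to second order terms. -/
theorem nl_D_expand (h : lf_IsLocal E L v) (σ : L ≃ₐ[E] L) (w : Lˣ) {ε : ℤᵐ⁰} (hε : ε < 1)
    (hw : v ((w : L) - 1) ≤ ε) :
    v (((lf_D σ w : Lˣ) : L) - 1 - (σ ((w : L) - 1) - ((w : L) - 1))) ≤ ε * ε := by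
  have hw1 : v (w : L) = 1 := nl_v_eq_one_of_sub_lt v (lt_of_le_of_lt hw hε)
  have hw0 : (w : L) ≠ 0 := w.ne_zero
  rw [lf_D_coe]
  set x := (w : L) - 1 with hx
  have e : σ (w : L) / (w : L) - 1 - (σ x - x) = -((σ x - x) * x) / (w : L) := by
    have : σ (w : L) = σ x + 1 := by rw [hx, map_sub, map_one]; ring
    have hwx : (w : L) = x + 1 := by rw [hx]; ring
    rw [this]
    field_simp
    rw [hwx]
    ring
  rw [e, map_div₀, hw1, div_one, Valuation.map_neg, map_mul]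
  refine mul_le_mul' ?_ hw
  refine v.map_sub_le ?_ hw
  rw [h.inv]; exact hw

end Expand

/-! ### Normal lattices -/

section Lattice

variable (E L : Type) [Field E] [Field L] [Algebra E L] [FiniteDimensional E L]
  (v : Valuation L ℤᵐ⁰)

/-- A normal basis of `L/E` consisting of integral elements, together with an openness constant
for the lattice it spans. -/
structure nl_Lattice where
  /-- the normal basis -/
  B : Module.Basis (L ≃ₐ[E] L) E L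
  B_apply : ∀ σ τ : L ≃ₐ[E] L, σ (B τ) = B (σ * τ)
  B_int : ∀ τ, v (B τ) ≤ 1
  /-- the openness constant -/
  a : ℕ
  isOpen : ∀ (t : ℕ) (x : L), v x ≤ exp (-((t + a : ℕ) : ℤ)) →
    ∀ τ, v (algebraMap E L (B.repr x τ)) ≤ exp (-(t : ℤ))

variable {E L v}

/-- The lattice `M(t)`: elements all of whose coordinates have valuation `≤ exp (-t)`. -/
def nl_M (Λ : nl_Lattice E L v) (t : ℕ) : AddSubgroup L where
  carrier := {x | ∀ τ, v (algebraMap E L (Λ.B.repr x τ)) ≤ exp (-(t : ℤ))}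
  zero_mem' := by simp
  add_mem' := by
    intro x y hx hy τ
    rw [map_add, Finsupp.add_apply, map_add]
    exact v.map_add_le (hx τ) (hy τ)
  neg_mem' := by
    intro x hx τ
    rw [map_neg, Finsupp.neg_apply, map_neg, Valuation.map_neg]
    exact hx τ

variable (Λ : nl_Lattice E L v)

theorem nl_mem_M {t : ℕ} {x : L} :
    x ∈ nl_M Λ t ↔ ∀ τ, v (algebraMap E L (Λ.B.repr x τ)) ≤ exp (-(t : ℤ)) := Iff.rfl

theorem nl_M_anti {s t : ℕ} (hst : s ≤ t) : nl_M Λ t ≤ nl_M Λ s :=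
  fun _ hx τ => (hx τ).trans (lf_exp_neg_anti hst)

/-- `M(t) ⊆ 𝔪^t`. -/
theorem nl_M_le_ball {t : ℕ} {x : L} (hx : x ∈ nl_M Λ t) : v x ≤ exp (-(t : ℤ)) := by
  rw [← Λ.B.sum_repr x]
  apply Valuation.map_sum_le
  intro τ _
  rw [Algebra.smul_def, map_mul]
  calc v (algebraMap E L (Λ.B.repr x τ)) * v (Λ.B τ) ≤ exp (-(t : ℤ)) * 1 :=
        mul_le_mul' (hx τ) (Λ.B_int τ)
    _ = exp (-(t : ℤ)) := mul_one _

/-- `𝔪^(t+a) ⊆ M(t)`. -/
theorem nl_ball_le_M {t : ℕ} {x : L} (hx : v x ≤ exp (-((t + Λ.a : ℕ) : ℤ))) : x ∈ nl_M Λ t :=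
  Λ.isOpen t x hx

/-- Coordinates of `σ x`. -/
theorem nl_repr_apply (σ : L ≃ₐ[E] L) (x : L) (τ : L ≃ₐ[E] L) :
    Λ.B.repr (σ x) (σ * τ) = Λ.B.repr x τ := by
  have h1 : σ x = ∑ ρ : L ≃ₐ[E] L, Λ.B.repr x (σ⁻¹ * ρ) • Λ.B ρ := by
    conv_lhs => rw [← Λ.B.sum_repr x]
    rw [map_sum]
    simp only [map_smul, Λ.B_apply]
    exact Fintype.sum_equiv (Equiv.mulLeft σ) _ _ fun τ => by simp
  rw [h1, Λ.B.repr_sum_self]
  simp

/-- `M(t)` is Galois-stable. -/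
theorem nl_M_apply {t : ℕ} {x : L} (hx : x ∈ nl_M Λ t) (σ : L ≃ₐ[E] L) : σ x ∈ nl_M Λ t := by
  intro τ
  have := nl_repr_apply Λ σ x (σ⁻¹ * τ)
  rw [mul_inv_cancel_left] at this
  rw [this]
  exact hx _

theorem nl_B_mem (g : L ≃ₐ[E] L) : Λ.B g ∈ nl_M Λ 0 := by
  classical
  intro τ
  rw [Λ.B.repr_self, Finsupp.single_apply]
  split_ifs
  · simp
  · simp

theorem nl_smul_mem {c : E} {s t : ℕ} (hc : v (algebraMap E L c) ≤ exp (-(s : ℤ))) {x : L}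
    (hx : x ∈ nl_M Λ t) : c • x ∈ nl_M Λ (s + t) := by
  intro τ
  rw [map_smul, Finsupp.smul_apply, smul_eq_mul, map_mul, map_mul]
  calc v (algebraMap E L c) * v (algebraMap E L (Λ.B.repr x τ))
      ≤ exp (-(s : ℤ)) * exp (-(t : ℤ)) := mul_le_mul' hc (hx τ)
    _ = exp (-((s + t : ℕ) : ℤ)) := by rw [← exp_add]; congr 1; push_cast; ring

theorem nl_smul_mem' {c : E} {t : ℕ} (hc : v (algebraMap E L c) ≤ exp (-(t : ℤ))) {x : L}
    (hx : x ∈ nl_M Λ 0) : c • x ∈ nl_M Λ t := by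
  simpa using nl_smul_mem Λ hc hx

/-- Additive `Ĥ⁰(G, M(t)) = 0`: an invariant element of `M(t)` is a trace from `M(t)`. -/
theorem nl_M_invariant {t : ℕ} {x : L} (hx : x ∈ nl_M Λ t) (hinv : ∀ σ : L ≃ₐ[E] L, σ x = x) :
    ∃ y ∈ nl_M Λ t, ∑ ρ : L ≃ₐ[E] L, ρ y = x := by
  have hcoord : ∀ τ : L ≃ₐ[E] L, Λ.B.repr x τ = Λ.B.repr x 1 := by
    intro τ
    have := nl_repr_apply Λ τ x 1
    rwa [hinv, mul_one] at this
  refine ⟨Λ.B.repr x 1 • Λ.B 1, nl_smul_mem' Λ (hx 1) (nl_B_mem Λ 1), ?_⟩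
  conv_rhs => rw [← Λ.B.sum_repr x]
  refine Finset.sum_congr rfl fun ρ _ => ?_
  rw [map_smul, Λ.B_apply, mul_one, hcoord ρ]

/-- The trace of `x` in coordinates. -/
theorem nl_sum_apply (x : L) :
    ∑ ρ : L ≃ₐ[E] L, ρ x = (∑ τ : L ≃ₐ[E] L, Λ.B.repr x τ) • ∑ κ : L ≃ₐ[E] L, Λ.B κ := by
  conv_lhs =>
    enter [2, ρ]
    rw [← Λ.B.sum_repr x, map_sum]
  rw [Finset.sum_comm, Finset.sum_smul]
  refine Finset.sum_congr rfl fun τ _ => ?_
  rw [Finset.smul_sum]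
  simp only [map_smul, Λ.B_apply]
  exact Fintype.sum_equiv (Equiv.mulRight τ) _ _ fun ρ => by simp

theorem nl_coordSum_le {t : ℕ} {x : L} (hx : ∑ ρ : L ≃ₐ[E] L, ρ x ∈ nl_M Λ t) :
    v (algebraMap E L (∑ τ : L ≃ₐ[E] L, Λ.B.repr x τ)) ≤ exp (-(t : ℤ)) := by
  have h1 := hx 1
  rw [nl_sum_apply Λ x, map_smul, Finsupp.smul_apply] at h1
  have h2 : Λ.B.repr (∑ κ : L ≃ₐ[E] L, Λ.B κ) 1 = 1 := by
    have : ∑ κ : L ≃ₐ[E] L, Λ.B κ = ∑ κ : L ≃ₐ[E] L, (fun _ => (1 : E)) κ • Λ.B κ := by simp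
    rw [this, Λ.B.repr_sum_self]
  rwa [h2, smul_eq_mul, mul_one] at h1

/-- Additive `Ĥ⁻¹(G, M(t)/M(t+1)) = 0` for cyclic `G = ⟨σ⟩`. -/
theorem nl_M_telescope (σ : L ≃ₐ[E] L) (hgen : ∀ τ : L ≃ₐ[E] L, τ ∈ Subgroup.zpowers σ)
    {t : ℕ} {x : L} (hx : x ∈ nl_M Λ t)
    (hA : v (algebraMap E L (∑ τ : L ≃ₐ[E] L, Λ.B.repr x τ)) ≤ exp (-((t + 1 : ℕ) : ℤ))) :
    ∃ y ∈ nl_M Λ t, x - (σ y - y) ∈ nl_M Λ (t + 1) := by
  classical
  have hn : 0 < orderOf σ := orderOf_pos σ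
  set S : ℕ → L := fun m => ∑ k ∈ range m, Λ.B (σ ^ k) with hS
  have hSmem : ∀ m, S m ∈ nl_M Λ 0 := fun m =>
    AddSubgroup.sum_mem _ fun k _ => nl_B_mem Λ _
  have hSσ : ∀ m, σ (S m) - S m = Λ.B (σ ^ m) - Λ.B 1 := by
    intro m
    simp only [hS, map_sum, Λ.B_apply, ← pow_succ']
    rw [← Finset.sum_sub_distrib, Finset.sum_range_sub (fun k => Λ.B (σ ^ k)), pow_zero]
  refine ⟨∑ g : L ≃ₐ[E] L, Λ.B.repr x g • S (cy_idx σ g), ?_, ?_⟩
  · exact AddSubgroup.sum_mem _ fun g _ => nl_smul_mem' Λ (hx g) (hSmem _)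
  · have h1 : σ (∑ g : L ≃ₐ[E] L, Λ.B.repr x g • S (cy_idx σ g)) -
        ∑ g : L ≃ₐ[E] L, Λ.B.repr x g • S (cy_idx σ g) =
        x - (∑ τ : L ≃ₐ[E] L, Λ.B.repr x τ) • Λ.B 1 := by
      rw [map_sum, ← Finset.sum_sub_distrib]
      simp only [map_smul, ← smul_sub, hSσ, cy_pow_idx hn rfl hgen]
      simp only [smul_sub, Finset.sum_sub_distrib, Λ.B.sum_repr, Finset.sum_smul]
    rw [h1, sub_sub_cancel]
    exact nl_smul_mem' Λ hA (nl_B_mem Λ 1)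

end Lattice

/-! ### The multiplicative filtration `1 + M(a + 1 + i)` -/

section Filtration

variable {E L : Type} [Field E] [Field L] [Algebra E L] [FiniteDimensional E L]
  {v : Valuation L ℤᵐ⁰} (Λ : nl_Lattice E L v)

theorem nl_exp_mul_le {s t u : ℕ} (h : u ≤ s + t) :
    exp (-(s : ℤ)) * exp (-(t : ℤ)) ≤ (exp (-(u : ℤ)) : ℤᵐ⁰) := by
  rw [← exp_add, exp_le_exp]
  omega

theorem nl_exp_lt_one {t : ℕ} (ht : 0 < t) : (exp (-(t : ℤ)) : ℤᵐ⁰) < 1 := by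
  rw [← exp_zero, exp_lt_exp]
  omega

/-- The subgroups `1 + M(a + 1 + i)` of `Lˣ`. -/
def nl_Fil (i : ℕ) : Subgroup Lˣ where
  carrier := {u | (u : L) - 1 ∈ nl_M Λ (Λ.a + 1 + i)}
  one_mem' := by simp
  mul_mem' := by
    intro u u' hu hu'
    have e : ((u * u' : Lˣ) : L) - 1 = ((u : L) - 1) + ((u' : L) - 1) +
        ((u : L) - 1) * ((u' : L) - 1) := by push_cast; ring
    show ((u * u' : Lˣ) : L) - 1 ∈ nl_M Λ (Λ.a + 1 + i)
    rw [e]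
    refine add_mem (add_mem hu hu') (nl_ball_le_M Λ ?_)
    rw [map_mul]
    exact (mul_le_mul' (nl_M_le_ball Λ hu) (nl_M_le_ball Λ hu')).trans
      (nl_exp_mul_le (by omega))
  inv_mem' := by
    intro u hu
    have hu1 : v (u : L) = 1 :=
      nl_v_eq_one_of_sub_lt v (lt_of_le_of_lt (nl_M_le_ball Λ hu) (nl_exp_lt_one (by omega)))
    have e : ((u⁻¹ : Lˣ) : L) - 1 = -((u : L) - 1) + ((u : L) - 1) * ((u : L) - 1) / (u : L) := by
      have : (u : L) ≠ 0 := u.ne_zero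
      rw [Units.val_inv_eq_inv_val]
      field_simp
      ring
    show ((u⁻¹ : Lˣ) : L) - 1 ∈ nl_M Λ (Λ.a + 1 + i)
    rw [e]
    refine add_mem (neg_mem hu) (nl_ball_le_M Λ ?_)
    rw [map_div₀, hu1, div_one, map_mul]
    exact (mul_le_mul' (nl_M_le_ball Λ hu) (nl_M_le_ball Λ hu)).trans
      (nl_exp_mul_le (by omega))

theorem nl_mem_Fil {i : ℕ} {u : Lˣ} : u ∈ nl_Fil Λ i ↔ (u : L) - 1 ∈ nl_M Λ (Λ.a + 1 + i) :=
  Iff.rfl

theorem nl_Fil_anti : Antitone (nl_Fil Λ) :=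
  fun _ _ hij _ hu => nl_M_anti Λ (by omega) hu

theorem nl_Fil_le_U (i : ℕ) : nl_Fil Λ i ≤ lf_U v (i + 1) := by
  intro u hu
  have h1 : v ((u : L) - 1) ≤ exp (-((Λ.a + 1 + i : ℕ) : ℤ)) := nl_M_le_ball Λ hu
  refine ⟨nl_v_eq_one_of_sub_lt v (lt_of_le_of_lt h1 (nl_exp_lt_one (by omega))), ?_⟩
  exact h1.trans (lf_exp_neg_anti (by omega))

theorem nl_U_le_Fil (i : ℕ) : lf_U v (Λ.a + 1 + i + Λ.a) ≤ nl_Fil Λ i :=
  fun _ hu => nl_ball_le_M Λ hu.2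

theorem nl_v_eq_one {i : ℕ} {u : Lˣ} (hu : u ∈ nl_Fil Λ i) : v (u : L) = 1 :=
  (nl_Fil_le_U Λ i hu).1

/-- Congruence criterion for `u / u' ∈ Fil (i+1)`. -/
theorem nl_div_mem_Fil {i : ℕ} {u u' : Lˣ} (hu' : u' ∈ nl_Fil Λ i)
    (h : (u : L) - u' ∈ nl_M Λ (Λ.a + 1 + (i + 1))) : u / u' ∈ nl_Fil Λ (i + 1) := by
  have hu'1 : v (u' : L) = 1 := nl_v_eq_one Λ hu'
  have e : ((u / u' : Lˣ) : L) - 1 = ((u : L) - u') - ((u : L) - u') * ((u' : L) - 1) / (u' : L) := by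
    have : (u' : L) ≠ 0 := u'.ne_zero
    rw [Units.val_div_eq_div_val]
    field_simp
    ring
  rw [nl_mem_Fil, e]
  refine sub_mem h (nl_ball_le_M Λ ?_)
  rw [map_div₀, hu'1, div_one, map_mul]
  exact (mul_le_mul' (nl_M_le_ball Λ h) (nl_M_le_ball Λ hu')).trans (nl_exp_mul_le (by omega))

theorem nl_act_mem_Fil {i : ℕ} {u : Lˣ} (hu : u ∈ nl_Fil Λ i) (σ : L ≃ₐ[E] L) :
    lf_act σ u ∈ nl_Fil Λ i := by
  rw [nl_mem_Fil, lf_act_coe]
  have : σ (u : L) - 1 = σ ((u : L) - 1) := by rw [map_sub, map_one]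
  rw [this]
  exact nl_M_apply Λ hu σ

theorem nl_N_mem_Fil {i : ℕ} {u : Lˣ} (hu : u ∈ nl_Fil Λ i) : lf_N E u ∈ nl_Fil Λ i := by
  rw [lf_N_apply]
  exact Subgroup.prod_mem _ fun τ _ => nl_act_mem_Fil Λ hu τ

theorem nl_D_mem_Fil {i : ℕ} {u : Lˣ} (hu : u ∈ nl_Fil Λ i) (σ : L ≃ₐ[E] L) :
    lf_D σ u ∈ nl_Fil Λ i := by
  rw [lf_D_apply]
  exact (nl_Fil Λ i).div_mem (nl_act_mem_Fil Λ hu σ) hu

/-- The unit `1 + y` for `y` small. -/
noncomputable def nl_unit (y : L) (hy : v y < 1) : Lˣ :=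
  Units.mk0 (1 + y) (by
    intro h0
    have : v ((1 + y) - 1) < 1 := by rwa [add_sub_cancel_left]
    have h1 := nl_v_eq_one_of_sub_lt v this
    rw [h0, map_zero] at h1
    exact zero_ne_one h1)

theorem nl_unit_coe (y : L) (hy : v y < 1) : ((nl_unit y hy : Lˣ) : L) = 1 + y := rfl

theorem nl_unit_sub (y : L) (hy : v y < 1) : ((nl_unit y hy : Lˣ) : L) - 1 = y := by
  rw [nl_unit_coe, add_sub_cancel_left]

theorem nl_lt_one_of_mem {i : ℕ} {y : L} (hy : y ∈ nl_M Λ (Λ.a + 1 + i)) : v y < 1 :=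
  lt_of_le_of_lt (nl_M_le_ball Λ hy) (nl_exp_lt_one (by omega))

/-- Approximation step for the norm. -/
theorem nl_stepN (h : lf_IsLocal E L v) {i : ℕ} {u : Lˣ} (hu : u ∈ nl_Fil Λ i)
    (hinv : ∀ σ : L ≃ₐ[E] L, lf_act σ u = u) :
    ∃ w ∈ nl_Fil Λ i, u / lf_N E w ∈ nl_Fil Λ (i + 1) := by
  have hinv' : ∀ σ : L ≃ₐ[E] L, σ ((u : L) - 1) = (u : L) - 1 := by
    intro σ
    have := congrArg (fun w : Lˣ => (w : L)) (hinv σ)
    simp only [lf_act_coe] at this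
    rw [map_sub, map_one, this]
  obtain ⟨y, hy, hsum⟩ := nl_M_invariant Λ hu hinv'
  have hy1 : v y < 1 := nl_lt_one_of_mem Λ hy
  refine ⟨nl_unit y hy1, ?_, ?_⟩
  · rw [nl_mem_Fil, nl_unit_sub]; exact hy
  · have hw : nl_unit y hy1 ∈ nl_Fil Λ i := by rw [nl_mem_Fil, nl_unit_sub]; exact hy
    refine nl_div_mem_Fil Λ (nl_N_mem_Fil Λ hw) (nl_ball_le_M Λ ?_)
    have hexp := nl_N_expand h (nl_unit y hy1) (ε := exp (-((Λ.a + 1 + i : ℕ) : ℤ)))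
      (nl_exp_lt_one (by omega)).le (by rw [nl_unit_sub]; exact nl_M_le_ball Λ hy)
    simp only [nl_unit_sub] at hexp
    rw [hsum] at hexp
    have e : (u : L) - ((lf_N E (nl_unit y hy1) : Lˣ) : L) =
        -(((lf_N E (nl_unit y hy1) : Lˣ) : L) - 1 - ((u : L) - 1)) := by ring
    rw [e, Valuation.map_neg]
    exact hexp.trans (nl_exp_mul_le (by omega))

/-- Approximation step for `σ - 1` (cyclic case). -/
theorem nl_stepD (h : lf_IsLocal E L v) (σ : L ≃ₐ[E] L)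
    (hgen : ∀ τ : L ≃ₐ[E] L, τ ∈ Subgroup.zpowers σ) {i : ℕ} {u : Lˣ} (hu : u ∈ nl_Fil Λ i)
    (hN : lf_N E u = 1) : ∃ w ∈ nl_Fil Λ i, u / lf_D σ w ∈ nl_Fil Λ (i + 1) := by
  set T := Λ.a + 1 + i with hT
  have hexpN := nl_N_expand h u (ε := exp (-(T : ℤ))) (nl_exp_lt_one (by omega)).le
    (nl_M_le_ball Λ hu)
  rw [hN, Units.val_one, sub_self, zero_sub, Valuation.map_neg] at hexpN
  have hsum : ∑ ρ : L ≃ₐ[E] L, ρ ((u : L) - 1) ∈ nl_M Λ (T + 1) :=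
    nl_ball_le_M Λ (hexpN.trans (nl_exp_mul_le (by omega)))
  obtain ⟨y, hy, hxy⟩ := nl_M_telescope Λ σ hgen hu (nl_coordSum_le Λ hsum)
  have hy1 : v y < 1 := nl_lt_one_of_mem Λ hy
  have hw : nl_unit y hy1 ∈ nl_Fil Λ i := by rw [nl_mem_Fil, nl_unit_sub]; exact hy
  refine ⟨nl_unit y hy1, hw, nl_div_mem_Fil Λ (nl_D_mem_Fil Λ hw σ) ?_⟩
  have hexpD := nl_D_expand h σ (nl_unit y hy1) (ε := exp (-(T : ℤ)))
    (nl_exp_lt_one (by omega)) (by rw [nl_unit_sub]; exact nl_M_le_ball Λ hy)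
  simp only [nl_unit_sub] at hexpD
  have e : (u : L) - ((lf_D σ (nl_unit y hy1) : Lˣ) : L) =
      (((u : L) - 1) - (σ y - y)) - (((lf_D σ (nl_unit y hy1) : Lˣ) : L) - 1 - (σ y - y)) := by
    ring
  rw [e]
  refine sub_mem ?_ (nl_ball_le_M Λ (hexpD.trans (nl_exp_mul_le (by omega))))
  have : Λ.a + 1 + (i + 1) = T + 1 := by omega
  rw [this]
  exact hxy

theorem nl_invariant_of_D_eq_one (σ : L ≃ₐ[E] L)
    (hgen : ∀ τ : L ≃ₐ[E] L, τ ∈ Subgroup.zpowers σ) {u : Lˣ} (hDu : lf_D σ u = 1)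
    (τ : L ≃ₐ[E] L) : lf_act τ u = u := by
  have hσu : σ (u : L) = (u : L) := by
    rw [lf_D_apply, div_eq_one] at hDu
    have := congrArg (fun w : Lˣ => (w : L)) hDu
    simpa only [lf_act_coe] using this
  have hpow : ∀ m : ℕ, (σ ^ m) (u : L) = (u : L) := by
    intro m
    induction m with
    | zero => simp
    | succ m ih => rw [pow_succ, AlgEquiv.mul_apply, hσu, ih]
  obtain ⟨k, rfl⟩ := Subgroup.mem_zpowers_iff.1 (hgen τ)
  apply Units.ext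
  rw [lf_act_coe]
  rcases Int.eq_nat_or_neg k with ⟨m, rfl | rfl⟩
  · rw [zpow_natCast]; exact hpow m
  · rw [zpow_neg, zpow_natCast]
    conv_lhs => rw [← hpow m]
    exact (σ ^ m).symm_apply_apply _

/-- **Cohomological triviality of `Fil 0` for cyclic `G = ⟨σ⟩`.** -/
theorem nl_Fil_exact (h : lf_IsLocal E L v) (σ : L ≃ₐ[E] L)
    (hgen : ∀ τ : L ≃ₐ[E] L, τ ∈ Subgroup.zpowers σ) :
    (∀ u ∈ nl_Fil Λ 0, lf_D σ u = 1 → ∃ w ∈ nl_Fil Λ 0, lf_N E w = u) ∧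
      (∀ u ∈ nl_Fil Λ 0, lf_N E u = 1 → ∃ w ∈ nl_Fil Λ 0, lf_D σ w = u) := by
  have hle : ∀ i, nl_Fil Λ i ≤ lf_U v i := fun i =>
    (nl_Fil_le_U Λ i).trans (lf_U_anti v (Nat.le_succ i))
  have hsep : ∀ x : Lˣ, (∀ i, x ∈ nl_Fil Λ i) → x = 1 := lf_hsep_of_le (nl_Fil Λ) hle
  have hN : ∀ i, ∀ x ∈ nl_Fil Λ i, lf_N E x ∈ nl_Fil Λ i := fun i x hx => nl_N_mem_Fil Λ hx
  have hD : ∀ i, ∀ x ∈ nl_Fil Λ i, lf_D σ x ∈ nl_Fil Λ i := fun i x hx => nl_D_mem_Fil Λ hx σ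
  have hcomp : ∀ x : ℕ → Lˣ, (∀ i, x i ∈ nl_Fil Λ i) →
      ∃ y, ∀ k, y / ∏ i ∈ range k, x i ∈ nl_Fil Λ k :=
    lf_hcomp_of_open h (nl_Fil Λ) (nl_Fil_anti Λ) hle (fun k => ⟨_, nl_U_le_Fil Λ k⟩)
  have hDN : ∀ x : Lˣ, lf_D σ (lf_N E x) = 1 := fun x => lf_D_N σ x
  have hND : ∀ x : Lˣ, lf_N E (lf_D σ x) = 1 := fun x => lf_N_D σ x
  have hstepN : ∀ i, ∀ u ∈ nl_Fil Λ i, lf_D σ u = 1 →
      ∃ w ∈ nl_Fil Λ i, u / lf_N E w ∈ nl_Fil Λ (i + 1) := fun i u hu hDu =>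
    nl_stepN Λ h hu (nl_invariant_of_D_eq_one σ hgen hDu)
  have hstepD : ∀ i, ∀ u ∈ nl_Fil Λ i, lf_N E u = 1 →
      ∃ w ∈ nl_Fil Λ i, u / lf_D σ w ∈ nl_Fil Λ (i + 1) := fun i u hu hNu =>
    nl_stepD Λ h σ hgen hu hNu
  have key := lf_filtered_exact (A := Lˣ) (lf_N E) (lf_D σ) (nl_Fil Λ)
  have k1 := key hsep
  have k2 := k1 hN
  have k3 := k2 hD
  have k4 := k3 hcomp
  have k5 := k4 hDN hND
  have k6 := k5 hstepN
  exact k6 hstepD

end Filtration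

/-! ### Existence of a normal lattice, and the main theorem -/

section Existence

variable {E L : Type} [Field E] [Field L] [Algebra E L] [FiniteDimensional E L] [IsGalois E L]
  {v : Valuation L ℤᵐ⁰}

theorem nl_exists_small (h : lf_IsLocal E L v) :
    ∃ c : E, ∃ s : ℕ, 0 < s ∧ v (algebraMap E L c) = exp (-(s : ℤ)) := by
  obtain ⟨π, hπ⟩ := h.unif
  refine ⟨Algebra.norm E π, Module.finrank E L, Module.finrank_pos, ?_⟩
  rw [lf_v_norm h, hπ, ← exp_nsmul]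
  congr 1
  simp

theorem nl_le_exp_nat (x : ℤᵐ⁰) : ∃ m : ℕ, x ≤ exp (m : ℤ) := by
  rcases eq_or_ne x 0 with rfl | hx
  · exact ⟨0, zero_le⟩
  · refine ⟨(log x).toNat, ?_⟩
    conv_lhs => rw [← exp_log hx]
    rw [exp_le_exp]
    exact Int.self_le_toNat _

theorem nl_exists_lattice (h : lf_IsLocal E L v) : Nonempty (nl_Lattice E L v) := by
  classical
  obtain ⟨c, s, hs, hc⟩ := nl_exists_small h
  have hc0 : c ≠ 0 := by
    rintro rfl
    rw [map_zero, map_zero] at hc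
    exact exp_ne_zero hc.symm
  obtain ⟨m, hm⟩ := nl_le_exp_nat (v (IsGalois.normalBasis E L 1))
  set B := (IsGalois.normalBasis E L).unitsSMul
    (fun _ => Units.mk0 (c ^ m) (pow_ne_zero _ hc0)) with hBdef
  have hB : ∀ τ : L ≃ₐ[E] L, B τ = c ^ m • τ (IsGalois.normalBasis E L 1) := fun τ => by
    rw [hBdef, Module.Basis.unitsSMul_apply, IsGalois.normalBasis_apply]
    rfl
  have hBapply : ∀ σ τ : L ≃ₐ[E] L, σ (B τ) = B (σ * τ) := by
    intro σ τ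
    rw [hB, hB, map_smul, AlgEquiv.mul_apply]
  have hBint : ∀ τ, v (B τ) ≤ 1 := by
    intro τ
    rw [hB, Algebra.smul_def, map_mul, map_pow, map_pow, hc, h.inv, ← exp_nsmul]
    calc exp (m • (-(s : ℤ))) * v (IsGalois.normalBasis E L 1)
        ≤ exp (m • (-(s : ℤ))) * exp (m : ℤ) := mul_le_mul' le_rfl hm
      _ = exp (m • (-(s : ℤ)) + m) := (exp_add _ _).symm
      _ ≤ exp 0 := by
          rw [exp_le_exp, nsmul_eq_mul]
          have : (1 : ℤ) ≤ s := by exact_mod_cast hs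
          nlinarith [Int.natCast_nonneg m]
      _ = 1 := exp_zero
  have hrepr : ∀ (x : L) (τ : L ≃ₐ[E] L),
      B.repr x τ = Algebra.trace E L (x * B.traceDual τ) := by
    intro x τ
    have h1 := Module.Basis.traceDual_repr_apply (b := B.traceDual) x τ
    rw [Module.Basis.traceDual_traceDual] at h1
    rw [h1, Algebra.traceForm_apply]
  have hbound : ∃ a : ℕ, ∀ τ : L ≃ₐ[E] L, v (B.traceDual τ) ≤ exp (a : ℤ) := by
    choose f hf using fun τ : L ≃ₐ[E] L => nl_le_exp_nat (v (B.traceDual τ))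
    refine ⟨∑ τ, f τ, fun τ => (hf τ).trans (exp_le_exp.2 ?_)⟩
    exact_mod_cast Finset.single_le_sum (fun _ _ => Nat.zero_le _) (Finset.mem_univ τ)
  obtain ⟨a, ha⟩ := hbound
  refine ⟨⟨B, hBapply, hBint, a, ?_⟩⟩
  intro t x hx τ
  rw [hrepr]
  refine (lf_v_trace_le h _).trans ?_
  rw [map_mul]
  calc v x * v (B.traceDual τ) ≤ exp (-((t + a : ℕ) : ℤ)) * exp (a : ℤ) :=
        mul_le_mul' hx (ha τ)
    _ = exp (-(t : ℤ)) := by rw [← exp_add]; congr 1; push_cast; ring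

/-- **An open cohomologically trivial subgroup of the units** (cyclic case): there is an open
Galois-stable subgroup `V` of the principal units such that, whenever `Gal(L/E)` is generated by
`σ`, every `σ`-invariant element of `V` is a norm from `V` and every element of `V` of norm `1`
is `σ w / w` with `w ∈ V`. -/
theorem nl_exists_open_cohTrivial (h : lf_IsLocal E L v) :
    ∃ V : Subgroup Lˣ, V ≤ lf_U v 1 ∧ (∃ m, lf_U v m ≤ V) ∧
      (∀ σ : L ≃ₐ[E] L, ∀ u ∈ V, lf_act σ u ∈ V) ∧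
      ∀ σ : L ≃ₐ[E] L, (∀ τ : L ≃ₐ[E] L, τ ∈ Subgroup.zpowers σ) →
        (∀ u ∈ V, lf_D σ u = 1 → ∃ w ∈ V, lf_N E w = u) ∧
        (∀ u ∈ V, lf_N E u = 1 → ∃ w ∈ V, lf_D σ w = u) := by
  obtain ⟨Λ⟩ := nl_exists_lattice h
  exact ⟨nl_Fil Λ 0, nl_Fil_le_U Λ 0, ⟨_, nl_U_le_Fil Λ 0⟩,
    fun σ u hu => nl_act_mem_Fil Λ hu σ, fun σ hgen => nl_Fil_exact Λ h σ hgen⟩

/-- The same statement in the exact shape of the hypothesis `hV` of `lf_norm_index_of_lattice`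
(`Local/NormIndex.lean`), for a cyclic group with a given generator. -/
theorem nl_exists_open_cohTrivial' (h : lf_IsLocal E L v) (σ : L ≃ₐ[E] L)
    (hσ : ∀ τ : L ≃ₐ[E] L, τ ∈ Subgroup.zpowers σ) :
    ∃ V : Subgroup Lˣ, V ≤ lf_U v 1 ∧ (∃ m, lf_U v m ≤ V) ∧
      (∀ σ : L ≃ₐ[E] L, ∀ u ∈ V, lf_act σ u ∈ V) ∧
      (∀ u ∈ V, (∀ σ : L ≃ₐ[E] L, lf_act σ u = u) → ∃ w ∈ V, lf_N E w = u) ∧
      (∀ σ : L ≃ₐ[E] L, (∀ τ : L ≃ₐ[E] L, τ ∈ Subgroup.zpowers σ) →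
        ∀ u ∈ V, lf_N E u = 1 → ∃ w ∈ V, lf_D σ w = u) := by
  obtain ⟨V, h1, h2, h3, h4⟩ := nl_exists_open_cohTrivial h
  refine ⟨V, h1, h2, h3, ?_, fun σ' hσ' u hu hN => (h4 σ' hσ').2 u hu hN⟩
  intro u hu hinv
  exact (h4 σ hσ).1 u hu (by rw [lf_D_apply, hinv σ, div_self'])

end Existence

end Fermat.Agent.S55
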