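import Fermat.Agent.S55.Local.NormIndex
import Fermat.Agent.S55.Local.NormalLattice

/-!
# S55 / local toolkit [L0], (T1): the local norm index

For a cyclic extension `L/E` in the abstract local setting `lf_IsLocal E L v` (any ramification):
`[Eˣ : N Lˣ] = [L : E]`, in the `Lˣ`-form and in the `Eˣ`-form, together with Hilbert 90
(`Ĥ⁻¹(G, Lˣ) = 1`), i.e. the Herbrand quotient of `Lˣ` is `[L : E]`.
-/

namespace Fermat.Agent.S55

open WithZero

section Main

variable {E L : Type} [Field E] [Field L] [Algebra E L] [FiniteDimensional E L] [IsGalois E L]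
  {v : Valuation L ℤᵐ⁰}

/-- (T1) `[ker (σ - 1) : im N] = [L : E]` on `Lˣ`. -/
theorem lf_norm_index' (h : lf_IsLocal E L v) (σ : L ≃ₐ[E] L)
    (hσ : ∀ τ, τ ∈ Subgroup.zpowers σ) :
    (lf_N E).range.relIndex (lf_D σ).ker = Module.finrank E L :=
  lf_norm_index_of_lattice h σ hσ (nl_exists_open_cohTrivial' h σ hσ)

/-- (T1) The local norm index equals the degree: `[Eˣ : N_{L/E} Lˣ] = [L : E]` for cyclic `L/E`. -/
theorem lf_norm_index (h : lf_IsLocal E L v) (σ : L ≃ₐ[E] L)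
    (hσ : ∀ τ, τ ∈ Subgroup.zpowers σ) :
    (MonoidHom.range (Units.map (Algebra.norm E : L →* E))).index = Module.finrank E L := by
  rw [lf_norm_index_Eform σ hσ, lf_norm_index' h σ hσ]

/-- The Herbrand quotient of `Lˣ`: `h⁰ = [L : E]`, `h¹ = 1`. -/
theorem lf_herbrand (h : lf_IsLocal E L v) (σ : L ≃ₐ[E] L)
    (hσ : ∀ τ, τ ∈ Subgroup.zpowers σ) :
    (lf_N E).range.relIndex (lf_D σ).ker = Module.finrank E L ∧
      (lf_D σ).range.relIndex (lf_N E).ker = 1 :=
  ⟨lf_norm_index' h σ hσ, Subgroup.relIndex_eq_one.mpr (lf_hilbert90 σ hσ)⟩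

end Main

end Fermat.Agent.S55
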