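import Fermat.Agent.S55.Local.Unramified

/-!
# S55 / local toolkit [L0], part 8: the inertia subgroup and its fixed field

In the abstract local setting `lf_IsLocal E L v` (any ramification):
* `lf_inertia h`: the inertia subgroup of `Gal(L/E)` (normal);
* `lf_exists_fixed_lift`: the fixed field of inertia has the same residue field as `L`
  (every integral element is congruent to an inertia-fixed integral element);
* `lf_inertia_norm`: every unit of `E` is `∏_{i<f} φ^i b` with `b` fixed by inertia, `φ` a
  Frobenius lift and `f` the index of inertia — "units are norms from the maximal unramified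
  subextension", given a normalised valuation on that subextension.
-/

set_option linter.style.haveILetI false

namespace Fermat.Agent.S55

open WithZero Finset IsLocalRing Polynomial

section FieldCore

/-- If `(X - a)^m` has coefficients in a subfield of a finite field, so does `a`. -/
theorem lf_mem_subfield_of_pow_lifts {k : Type*} [Field k] [Finite k] (k' : Subfield k) (a : k)
    (m : ℕ) (hm : m ≠ 0)
    (hP : ((X - C a) ^ m : k[X]) ∈ Polynomial.lifts (algebraMap k' k)) : a ∈ k' := by
  obtain ⟨Q, hQ⟩ := hP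
  have hQ' : Q.map (algebraMap k' k) = (X - C a) ^ m := hQ
  have hroot : aeval a Q = 0 := by
    rw [aeval_def, eval₂_eq_eval_map, hQ']
    simp [hm]
  have hdvd : minpoly k' a ∣ Q := minpoly.dvd k' a hroot
  have hdvd' : (minpoly k' a).map (algebraMap k' k) ∣ (X - C a) ^ m := by
    rw [← hQ']
    exact Polynomial.map_dvd _ hdvd
  have hsep : (minpoly k' a).Separable := Algebra.IsSeparable.isSeparable k' a
  have hsq : Squarefree ((minpoly k' a).map (algebraMap k' k)) := (hsep.map).squarefree
  have h1 := (hsq.dvd_pow_iff_dvd hm).mp hdvd'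
  have hdeg : ((minpoly k' a).map (algebraMap k' k)).natDegree ≤ 1 := by
    have := Polynomial.natDegree_le_of_dvd h1 (X_sub_C_ne_zero a)
    simpa using this
  rw [Polynomial.natDegree_map] at hdeg
  have hint : IsIntegral k' a := Algebra.IsIntegral.isIntegral a
  have hpos := minpoly.natDegree_pos hint
  have h2 : (minpoly k' a).natDegree = 1 := by omega
  obtain ⟨y, hy⟩ := minpoly.natDegree_eq_one_iff.mp h2
  rw [← hy]
  exact y.2

end FieldCore

section Inertia

variable {E L : Type} [Field E] [Field L] [Algebra E L] {v : Valuation L ℤᵐ⁰}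

/-- The inertia subgroup. -/
def lf_inertia (h : lf_IsLocal E L v) : Subgroup (L ≃ₐ[E] L) where
  carrier := {τ | ∀ x, v x ≤ 1 → v (τ x - x) < 1}
  one_mem' := by
    intro x _
    simp
  mul_mem' := by
    intro σ τ hσ hτ x hx
    have : (σ * τ) x - x = (σ (τ x) - τ x) + (τ x - x) := by
      rw [AlgEquiv.mul_apply]; ring
    rw [this]
    exact Valuation.map_add_lt v (hσ _ (by rw [h.inv]; exact hx)) (hτ x hx)
  inv_mem' := by
    intro τ hτ x hx
    have h1 := hτ (τ⁻¹ x) (by rw [h.inv]; exact hx)
    have h2 : τ (τ⁻¹ x) = x := by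
      rw [← AlgEquiv.mul_apply, mul_inv_cancel, AlgEquiv.one_apply]
    rw [h2, Valuation.map_sub_swap] at h1
    exact h1

theorem lf_mem_inertia_iff (h : lf_IsLocal E L v) (τ : L ≃ₐ[E] L) :
    τ ∈ lf_inertia h ↔ ∀ x, v x ≤ 1 → v (τ x - x) < 1 := Iff.rfl

instance lf_inertia_normal (h : lf_IsLocal E L v) : (lf_inertia h).Normal where
  conj_mem τ hτ g := by
    intro x hx
    have h1 := hτ (g⁻¹ x) (by rw [h.inv]; exact hx)
    have h2 : (g * τ * g⁻¹) x - x = g (τ (g⁻¹ x) - g⁻¹ x) := by
      rw [map_sub, AlgEquiv.mul_apply, AlgEquiv.mul_apply, ← AlgEquiv.mul_apply g g⁻¹,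
        mul_inv_cancel, AlgEquiv.one_apply]
    rw [h2, h.inv]
    exact h1

end Inertia

section FixedLift

variable {E L : Type} [Field E] [Field L] [Algebra E L] [FiniteDimensional E L]
  {v : Valuation L ℤᵐ⁰}

/-- The fixed field of inertia has the same residue field as `L`: every integral element is
congruent to an integral element fixed by inertia. -/
theorem lf_exists_fixed_lift (h : lf_IsLocal E L v) {a : L} (ha : v a ≤ 1) :
    ∃ c : L, (∀ τ ∈ lf_inertia h, τ c = c) ∧ v c ≤ 1 ∧ v (a - c) < 1 := by
  classical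
  letI := lf_actionO h
  haveI := lf_res_finite h
  let R' : Subring v.valuationSubring :=
    { carrier := {x | ∀ τ ∈ lf_inertia h, τ • x = x}
      mul_mem' := fun {x y} hx hy τ hτ => by rw [smul_mul', hx τ hτ, hy τ hτ]
      one_mem' := fun τ _ => smul_one τ
      add_mem' := fun {x y} hx hy τ hτ => by rw [smul_add, hx τ hτ, hy τ hτ]
      zero_mem' := fun τ _ => smul_zero τ
      neg_mem' := fun {x} hx τ hτ => by rw [smul_neg, hx τ hτ] }
  let S' : Subring (ResidueField v.valuationSubring) := R'.map (residue v.valuationSubring)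
  let k' : Subfield (ResidueField v.valuationSubring) :=
    Subfield.closure (S' : Set (ResidueField v.valuationSubring))
  let aO : v.valuationSubring := ⟨a, ha⟩
  let P : (v.valuationSubring)[X] :=
    ∏ τ : lf_inertia h, (X - C ((τ : L ≃ₐ[E] L) • aO))
  have hPfix : ∀ σ ∈ lf_inertia h,
      P.map (MulSemiringAction.toRingHom (L ≃ₐ[E] L) v.valuationSubring σ) = P := by
    intro σ hσ
    simp only [P, Polynomial.map_prod, Polynomial.map_sub, Polynomial.map_X, Polynomial.map_C,
      MulSemiringAction.toRingHom_apply]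
    refine Fintype.prod_equiv (Equiv.mulLeft (⟨σ, hσ⟩ : lf_inertia h)) _ _ fun τ => ?_
    simp [mul_smul]
  have hcoeff : ∀ n, P.coeff n ∈ R' := by
    intro n σ hσ
    have := congrArg (fun p => p.coeff n) (hPfix σ hσ)
    simpa [Polynomial.coeff_map] using this
  have hres : ∀ τ : lf_inertia h,
      residue v.valuationSubring ((τ : L ≃ₐ[E] L) • aO) = residue v.valuationSubring aO := by
    intro τ
    have h1 : v ((τ : L ≃ₐ[E] L) a) ≤ 1 := by rw [h.inv]; exact ha
    exact (lf_res_eq_iff h1 ha).mpr (τ.2 a ha)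
  have hPred : P.map (residue v.valuationSubring)
      = (X - C (residue v.valuationSubring aO)) ^ (Fintype.card (lf_inertia h)) := by
    simp only [P, Polynomial.map_prod, Polynomial.map_sub, Polynomial.map_X, Polynomial.map_C,
      hres]
    rw [Finset.prod_const, Finset.card_univ]
  have hlift : ((X - C (residue v.valuationSubring aO)) ^ Fintype.card (lf_inertia h) :
      (ResidueField v.valuationSubring)[X]) ∈ lifts (algebraMap k' _) := by
    rw [← hPred, lifts_iff_coeff_lifts]
    intro n
    rw [Polynomial.coeff_map]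
    exact ⟨⟨residue v.valuationSubring (P.coeff n),
      Subfield.subset_closure ⟨P.coeff n, hcoeff n, rfl⟩⟩, rfl⟩
  have hmem := lf_mem_subfield_of_pow_lifts k' (residue v.valuationSubring aO)
    (Fintype.card (lf_inertia h)) Fintype.card_ne_zero hlift
  obtain ⟨y, hy, z, hz, hyz⟩ := Subfield.mem_closure_iff.mp hmem
  rw [Subring.closure_eq] at hy hz
  obtain ⟨y0, hy0, rfl⟩ := hy
  obtain ⟨z0, hz0, rfl⟩ := hz
  by_cases hz1 : residue v.valuationSubring z0 = 0
  · refine ⟨0, fun τ _ => map_zero τ, by simp, ?_⟩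
    rw [hz1, div_zero] at hyz
    rw [sub_zero]
    exact (lf_res_eq_zero_iff ha).mp hyz.symm
  · have hz_le : v (z0 : L) ≤ 1 := z0.2
    have hz_one : v (z0 : L) = 1 := by
      refine le_antisymm hz_le (not_lt.mp fun hlt => hz1 ?_)
      exact (lf_res_eq_zero_iff hz_le).mpr hlt
    have hz_ne : (z0 : L) ≠ 0 := lf_ne_zero_of_v_eq_one hz_one
    have hc_le : v ((y0 : L) / (z0 : L)) ≤ 1 := by
      rw [map_div₀, hz_one, div_one]
      exact y0.2
    refine ⟨(y0 : L) / (z0 : L), fun τ hτ => ?_, hc_le, ?_⟩
    · have h1 : τ (y0 : L) = y0 := congrArg Subtype.val (hy0 τ hτ)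
      have h2 : τ (z0 : L) = z0 := congrArg Subtype.val (hz0 τ hτ)
      rw [map_div₀, h1, h2]
    · rw [← lf_res_eq_iff ha hc_le]
      have h3 : lf_res v ((y0 : L) / (z0 : L)) hc_le * residue v.valuationSubring z0
          = residue v.valuationSubring y0 := by
        rw [lf_res, ← map_mul]
        congr 1
        apply Subtype.ext
        simp [div_mul_cancel₀ _ hz_ne]
      rw [eq_div_of_mul_eq hz1 h3]
      exact hyz.symm

end FixedLift

section CyclicProd

/-- A product over a finite cyclic group as a product over powers of a generator. -/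
theorem lf_prod_eq_prod_range_pow {Q M : Type*} [Group Q] [Fintype Q] [CommMonoid M] (ψ : Q)
    (hψ : ∀ γ : Q, γ ∈ Subgroup.zpowers ψ) (F : Q → M) :
    ∏ γ : Q, F γ = ∏ i ∈ range (Nat.card Q), F (ψ ^ i) := by
  have hord : orderOf ψ = Nat.card Q := orderOf_eq_card_of_forall_mem_zpowers hψ
  have hfin : IsOfFinOrder ψ := isOfFinOrder_of_finite ψ
  symm
  refine Finset.prod_bij (fun i _ => ψ ^ i) (fun _ _ => Finset.mem_univ _) ?_ ?_ (fun _ _ => rfl)
  · intro i hi j hj hij
    rw [Finset.mem_range, ← hord] at hi hj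
    exact pow_injOn_Iio_orderOf (Set.mem_Iio.mpr hi) (Set.mem_Iio.mpr hj) hij
  · intro γ _
    obtain ⟨k, rfl⟩ := Subgroup.mem_zpowers_iff.mp (hψ γ)
    refine ⟨(k % (orderOf ψ : ℤ)).toNat, ?_, ?_⟩
    · rw [Finset.mem_range, ← hord]
      have h1 : 0 ≤ k % (orderOf ψ : ℤ) :=
        Int.emod_nonneg _ (by exact_mod_cast hfin.orderOf_pos.ne')
      have h2 : k % (orderOf ψ : ℤ) < orderOf ψ :=
        Int.emod_lt_of_pos _ (by exact_mod_cast hfin.orderOf_pos)
      omega
    · have h1 : 0 ≤ k % (orderOf ψ : ℤ) :=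
        Int.emod_nonneg _ (by exact_mod_cast hfin.orderOf_pos.ne')
      rw [← zpow_natCast, Int.toNat_of_nonneg h1, zpow_mod_orderOf]

end CyclicProd

section InertiaNorm

variable {E L : Type} [Field E] [Field L] [Algebra E L] [FiniteDimensional E L] [IsGalois E L]
  {v : Valuation L ℤᵐ⁰}

open IntermediateField

/-- The fixed field of inertia is unramified over the base (in the `hur` form), for any
normalised valuation `w` on it compatible with `v`. -/
theorem lf_inertia_fixed_hur (h : lf_IsLocal E L v)
    (w : Valuation (fixedField (lf_inertia h)) ℤᵐ⁰)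
    (hle : ∀ x : fixedField (lf_inertia h), w x ≤ 1 ↔ v (x : L) ≤ 1)
    (hlt : ∀ x : fixedField (lf_inertia h), w x < 1 ↔ v (x : L) < 1) :
    ∀ τ' : (fixedField (lf_inertia h)) ≃ₐ[E] (fixedField (lf_inertia h)),
      (∀ x, w x ≤ 1 → w (τ' x - x) < 1) → τ' = 1 := by
  intro τ' hτ'
  obtain ⟨τ, rfl⟩ := AlgEquiv.restrictNormalHom_surjective (F := E)
    (K₁ := fixedField (lf_inertia h)) L τ'
  have hτI : τ ∈ lf_inertia h := by
    intro a ha
    obtain ⟨c, hcfix, hc, hac⟩ := lf_exists_fixed_lift h ha
    have hcmem : c ∈ fixedField (lf_inertia h) := by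
      rw [IntermediateField.mem_fixedField_iff]
      exact hcfix
    have h1 := hτ' ⟨c, hcmem⟩ ((hle _).mpr hc)
    rw [hlt] at h1
    have h2 : ((AlgEquiv.restrictNormalHom (fixedField (lf_inertia h)) τ ⟨c, hcmem⟩ - ⟨c, hcmem⟩ :
        fixedField (lf_inertia h)) : L) = τ c - c := by
      rw [AddSubgroupClass.coe_sub]
      congr 1
      exact AlgEquiv.restrictNormal_commutes τ (fixedField (lf_inertia h)) ⟨c, hcmem⟩
    rw [h2] at h1
    have h3 : τ a - a = τ (a - c) + (τ c - c) - (a - c) := by
      rw [map_sub]; ring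
    rw [h3]
    refine Valuation.map_sub_lt v (Valuation.map_add_lt v ?_ h1) hac
    rw [h.inv]
    exact hac
  have hker : τ ∈ (AlgEquiv.restrictNormalHom (F := E) (K₁ := L)
      (fixedField (lf_inertia h))).ker := by
    rw [IntermediateField.restrictNormalHom_ker, IntermediateField.fixingSubgroup_fixedField]
    exact hτI
  exact hker

/-- **Units are norms from the maximal unramified subextension**, in terms of a Frobenius lift:
every unit `a` of `E` is `∏_{i<f} φ^i b` with `b` fixed by inertia, where `f` is the index of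
inertia. -/
theorem lf_inertia_norm (h : lf_IsLocal E L v)
    (w : Valuation (fixedField (lf_inertia h)) ℤᵐ⁰)
    (hw : lf_IsLocal E (fixedField (lf_inertia h)) w)
    (hle : ∀ x : fixedField (lf_inertia h), w x ≤ 1 ↔ v (x : L) ≤ 1)
    (hlt : ∀ x : fixedField (lf_inertia h), w x < 1 ↔ v (x : L) < 1)
    (φ : L ≃ₐ[E] L) (hφ : ∀ g : L ≃ₐ[E] L, ∃ k : ℕ, g⁻¹ * φ ^ k ∈ lf_inertia h)
    (a : E) (ha : v (algebraMap E L a) = 1) :
    ∃ b : L, v b = 1 ∧ (∀ τ ∈ lf_inertia h, τ b = b) ∧
      ∏ i ∈ range (lf_inertia h).index, (φ ^ i) b = algebraMap E L a := by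
  have hur := lf_inertia_fixed_hur h w hle hlt
  have hcoe : ((algebraMap E (fixedField (lf_inertia h)) a : fixedField (lf_inertia h)) : L)
      = algebraMap E L a := rfl
  have hwa : w (algebraMap E (fixedField (lf_inertia h)) a) = 1 := by
    refine le_antisymm ((hle _).mpr (by rw [hcoe, ha])) (not_lt.mp fun hlt' => ?_)
    have := (hlt _).mp hlt'
    rw [hcoe, ha] at this
    exact lt_irrefl _ this
  obtain ⟨b', hb'w, hb'N⟩ := lf_unram_norm_surj hw hur a hwa
  have hb'v : v (b' : L) = 1 := by
    refine le_antisymm ((hle _).mp hb'w.le) (not_lt.mp fun hlt' => ?_)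
    have := (hlt _).mpr hlt'
    rw [hb'w] at this
    exact lt_irrefl _ this
  refine ⟨(b' : L), hb'v, fun τ hτ => ?_, ?_⟩
  · exact (IntermediateField.mem_fixedField_iff _ _).mp b'.2 τ hτ
  · set r := AlgEquiv.restrictNormalHom (F := E) (K₁ := L) (fixedField (lf_inertia h)) with hr
    have hrsurj : Function.Surjective r := AlgEquiv.restrictNormalHom_surjective L
    have hrker : r.ker = lf_inertia h := by
      rw [hr, IntermediateField.restrictNormalHom_ker,
        IntermediateField.fixingSubgroup_fixedField]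
    have hψ : ∀ γ : (fixedField (lf_inertia h)) ≃ₐ[E] (fixedField (lf_inertia h)),
        γ ∈ Subgroup.zpowers (r φ) := by
      intro γ
      obtain ⟨g, rfl⟩ := hrsurj γ
      obtain ⟨k, hk⟩ := hφ g
      rw [← hrker, MonoidHom.mem_ker, map_mul, map_inv, map_pow, inv_mul_eq_one] at hk
      rw [Subgroup.mem_zpowers_iff]
      exact ⟨k, by rw [zpow_natCast, hk]⟩
    have hcard : Nat.card ((fixedField (lf_inertia h)) ≃ₐ[E] (fixedField (lf_inertia h)))
        = (lf_inertia h).index := by
      have h1 := Subgroup.index_ker r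
      rw [hrker, MonoidHom.range_eq_top.mpr hrsurj, Subgroup.card_top] at h1
      exact h1.symm
    have hnorm := Algebra.norm_eq_prod_automorphisms E b'
    rw [hb'N, lf_prod_eq_prod_range_pow (r φ) hψ (fun γ => γ b'), hcard] at hnorm
    have := congrArg (fun x : fixedField (lf_inertia h) => (x : L)) hnorm
    simp only [hcoe] at this
    rw [this]
    push_cast
    refine Finset.prod_congr rfl fun i _ => ?_
    rw [← map_pow]
    exact (AlgEquiv.restrictNormal_commutes (φ ^ i) (fixedField (lf_inertia h)) b').symm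

end InertiaNorm

end Fermat.Agent.S55
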