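import Mathlib

/-!
# S55 / local theory: successive approximation in complete filtered modules

A generic version of Serre, *Local Fields*, V §1 Lemma 2 and XII §3 Lemma 3: if a map
`D : X → Y` between filtered groups is "surjective onto a subgroup `Z` on the graded pieces",
`X` is complete and `Y` is separated, then `D` is surjective onto `Z`.  Specialisations: norms,
1-cocycles, 2-cocycles and the kernel of the norm for a finite group acting on a complete filtered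
module.
-/

set_option autoImplicit false

namespace Fermat.Agent.S55

open Finset

/-- A filtration of an additive group by subgroups (monotonicity is never needed). -/
structure ap_Filt (A : Type*) [AddCommGroup A] where
  F : ℕ → AddSubgroup A

namespace ap_Filt

variable {A : Type*} [AddCommGroup A]

/-- Separated: the intersection of the filtration is zero. -/
def IsSep (Φ : ap_Filt A) : Prop := ∀ a : A, (∀ i, a ∈ Φ.F i) → a = 0

/-- Complete: every series `∑ s i` with `s i ∈ F i` has a sum. -/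
def IsComplete (Φ : ap_Filt A) : Prop :=
  ∀ s : ℕ → A, (∀ i, s i ∈ Φ.F i) → ∃ a : A, ∀ n, a - ∑ i ∈ range n, s i ∈ Φ.F n

/-- The pointwise filtration on a function space. -/
def pi (ι : Type*) (Φ : ap_Filt A) : ap_Filt (ι → A) where
  F i := AddSubgroup.pi Set.univ fun _ => Φ.F i

theorem mem_pi {ι : Type*} (Φ : ap_Filt A) (i : ℕ) (f : ι → A) :
    f ∈ (Φ.pi ι).F i ↔ ∀ j, f j ∈ Φ.F i := by
  simp [pi, AddSubgroup.mem_pi]

theorem IsSep.pi {ι : Type*} {Φ : ap_Filt A} (h : Φ.IsSep) : (Φ.pi ι).IsSep := by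
  intro f hf
  funext j
  exact h _ fun i => (mem_pi Φ i f).1 (hf i) j

theorem IsComplete.pi {ι : Type*} {Φ : ap_Filt A} (h : Φ.IsComplete) : (Φ.pi ι).IsComplete := by
  intro s hs
  have hj : ∀ j : ι, ∃ a : A, ∀ n, a - ∑ i ∈ range n, s i j ∈ Φ.F n := fun j =>
    h (fun i => s i j) fun i => (mem_pi Φ i (s i)).1 (hs i) j
  choose a ha using hj
  refine ⟨a, fun n => (mem_pi Φ n _).2 fun j => ?_⟩
  simpa using ha j n

end ap_Filt

section Abstract

variable {X Y : Type*} [AddCommGroup X] [AddCommGroup Y]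

/-- **Successive approximation.** -/
theorem ap_approx (ΦX : ap_Filt X) (ΦY : ap_Filt Y) (hc : ΦX.IsComplete) (hs : ΦY.IsSep)
    (D : X →+ Y) (hD : ∀ i x, x ∈ ΦX.F i → D x ∈ ΦY.F i) (Z : AddSubgroup Y)
    (hDZ : ∀ x, D x ∈ Z)
    (h : ∀ i, ∀ z ∈ Z, z ∈ ΦY.F i → ∃ x ∈ ΦX.F i, z - D x ∈ ΦY.F (i + 1)) :
    ∀ z ∈ Z, z ∈ ΦY.F 0 → ∃ x ∈ ΦX.F 0, D x = z := by
  classical
  intro z hzZ hz0
  -- one approximation step
  have hstep : ∀ (i : ℕ) (w : Y), ∃ x : X, (w ∈ Z → w ∈ ΦY.F i →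
      x ∈ ΦX.F i ∧ w - D x ∈ ΦY.F (i + 1)) := by
    intro i w
    by_cases hw : w ∈ Z ∧ w ∈ ΦY.F i
    · obtain ⟨x, hx, hx'⟩ := h i w hw.1 hw.2
      exact ⟨x, fun _ _ => ⟨hx, hx'⟩⟩
    · exact ⟨0, fun h1 h2 => absurd ⟨h1, h2⟩ hw⟩
  choose step hstep using hstep
  -- the sequence of remainders
  let zs : ℕ → Y := fun n => Nat.rec z (fun n w => w - D (step n w)) n
  have hzs0 : zs 0 = z := rfl
  have hzsS : ∀ n, zs (n + 1) = zs n - D (step n (zs n)) := fun n => rfl
  have hP : ∀ n, zs n ∈ Z ∧ zs n ∈ ΦY.F n := by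
    intro n
    induction n with
    | zero => exact ⟨hzZ, hz0⟩
    | succ n ih =>
      rw [hzsS]
      exact ⟨Z.sub_mem ih.1 (hDZ _), (hstep n (zs n) ih.1 ih.2).2⟩
  let xs : ℕ → X := fun n => step n (zs n)
  have hxs : ∀ n, xs n ∈ ΦX.F n := fun n => (hstep n (zs n) (hP n).1 (hP n).2).1
  obtain ⟨x, hx⟩ := hc xs hxs
  have hsum : ∀ n, zs n = z - D (∑ i ∈ range n, xs i) := by
    intro n
    induction n with
    | zero => simp [hzs0]
    | succ n ih =>
      have e : zs (n + 1) = zs n - D (xs n) := hzsS n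
      rw [e, ih, Finset.sum_range_succ, map_add]
      abel
  refine ⟨x, ?_, ?_⟩
  · simpa using hx 0
  · have : z - D x = 0 := by
      apply hs
      intro n
      have h1 : z - D x = zs n - D (x - ∑ i ∈ range n, xs i) := by
        rw [hsum n, map_sub]
        abel
      rw [h1]
      exact (ΦY.F n).sub_mem (hP n).2 (hD n _ (hx n))
    exact (sub_eq_zero.1 this).symm

end Abstract

section GModule

variable {G A : Type*} [Group G] [Fintype G] [AddCommGroup A] [DistribMulAction G A]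

/-- The norm `a ↦ ∑ g, g • a` as an additive map. -/
def ap_norm (G A : Type*) [Group G] [Fintype G] [AddCommGroup A] [DistribMulAction G A] :
    A →+ A where
  toFun a := ∑ g : G, g • a
  map_zero' := by simp
  map_add' a b := by simp [smul_add, Finset.sum_add_distrib]

@[simp] theorem ap_norm_apply (a : A) : ap_norm G A a = ∑ g : G, g • a := rfl

theorem ap_smul_norm (g : G) (a : A) : g • ap_norm G A a = ap_norm G A a := by
  simp only [ap_norm_apply, Finset.smul_sum, smul_smul]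
  exact Fintype.sum_equiv (Equiv.mulLeft g) _ _ fun _ => rfl

theorem ap_norm_smul (g : G) (a : A) : ap_norm G A (g • a) = ap_norm G A a := by
  simp only [ap_norm_apply, smul_smul]
  exact Fintype.sum_equiv (Equiv.mulRight g) _ _ fun _ => rfl

/-- The invariants as an additive subgroup. -/
def ap_inv (G A : Type*) [Group G] [AddCommGroup A] [DistribMulAction G A] : AddSubgroup A where
  carrier := {a | ∀ g : G, g • a = a}
  zero_mem' := fun g => smul_zero g
  add_mem' := fun ha hb g => by rw [smul_add, ha g, hb g]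
  neg_mem' := fun ha g => by rw [smul_neg, ha g]

omit [Fintype G] in
theorem ap_mem_inv {a : A} : a ∈ ap_inv G A ↔ ∀ g : G, g • a = a := Iff.rfl

/-- `G`-stability of a filtration. -/
def ap_Filt.IsStable (G : Type*) [Group G] [DistribMulAction G A] (Φ : ap_Filt A) : Prop :=
  ∀ (i : ℕ) (g : G) (a : A), a ∈ Φ.F i → g • a ∈ Φ.F i

variable (Φ : ap_Filt A) (hst : Φ.IsStable G) (hs : Φ.IsSep) (hc : Φ.IsComplete)

include hst hs hc

/-- **Norms.** If on every graded piece the invariants are norms, then every invariant element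
of `F 0` is the norm of an element of `F 0`. -/
theorem ap_norm_surjective
    (h : ∀ i, ∀ x ∈ Φ.F i, (∀ g : G, g • x = x) →
      ∃ y ∈ Φ.F i, x - ∑ g : G, g • y ∈ Φ.F (i + 1)) :
    ∀ x ∈ Φ.F 0, (∀ g : G, g • x = x) → ∃ y ∈ Φ.F 0, ∑ g : G, g • y = x := by
  intro x hx0 hxinv
  refine ap_approx Φ Φ hc hs (ap_norm G A) ?_ (ap_inv G A) (fun y g => ap_smul_norm g y) ?_
    x hxinv hx0
  · intro i y hy
    exact (Φ.F i).sum_mem fun g _ => hst i g y hy
  · intro i z hz hzi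
    exact h i z hzi hz

/-- **The kernel of the norm, cyclic form.** -/
theorem ap_ker_norm_cyclic (σ : G)
    (h : ∀ i, ∀ x ∈ Φ.F i, ∑ g : G, g • x = 0 → ∃ y ∈ Φ.F i, x - (σ • y - y) ∈ Φ.F (i + 1)) :
    ∀ x ∈ Φ.F 0, ∑ g : G, g • x = 0 → ∃ y ∈ Φ.F 0, σ • y - y = x := by
  intro x hx0 hxN
  let D : A →+ A := (DistribSMul.toAddMonoidHom A σ) - AddMonoidHom.id A
  have hDapp : ∀ y, D y = σ • y - y := fun y => rfl
  refine ap_approx Φ Φ hc hs D ?_ (ap_norm G A).ker ?_ ?_ x hxN hx0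
  · intro i y hy
    rw [hDapp]
    exact (Φ.F i).sub_mem (hst i σ y hy) hy
  · intro y
    rw [AddMonoidHom.mem_ker, hDapp, map_sub, ap_norm_smul, sub_self]
  · intro i z hz hzi
    exact h i z hzi hz

omit [Fintype G] in
/-- **1-cocycles.** -/
theorem ap_cocycle₁_coboundary
    (h : ∀ i, ∀ f : G → A, (∀ g, f g ∈ Φ.F i) → (∀ g k, f (g * k) = f g + g • f k) →
      ∃ a ∈ Φ.F i, ∀ g, f g - (g • a - a) ∈ Φ.F (i + 1)) :
    ∀ f : G → A, (∀ g, f g ∈ Φ.F 0) → (∀ g k, f (g * k) = f g + g • f k) →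
      ∃ a ∈ Φ.F 0, ∀ g, f g = g • a - a := by
  intro f hf0 hfc
  let D : A →+ (G → A) :=
    { toFun := fun a g => g • a - a
      map_zero' := by funext g; simp
      map_add' := fun a b => by funext g; simp only [smul_add, Pi.add_apply]; abel }
  have hDapp : ∀ a g, D a g = g • a - a := fun _ _ => rfl
  let Z : AddSubgroup (G → A) :=
    { carrier := {f | ∀ g k, f (g * k) = f g + g • f k}
      zero_mem' := fun g k => by simp
      add_mem' := fun {f₁ f₂} h₁ h₂ g k => by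
        simp only [Pi.add_apply, h₁ g k, h₂ g k, smul_add]; abel
      neg_mem' := fun {f₁} h₁ g k => by
        simp only [Pi.neg_apply, h₁ g k, smul_neg]; abel }
  have h1 : ∀ i a, a ∈ Φ.F i → D a ∈ (Φ.pi G).F i := by
    intro i a ha
    rw [ap_Filt.mem_pi]
    intro g
    rw [hDapp]
    exact (Φ.F i).sub_mem (hst i g a ha) ha
  have h2 : ∀ a, D a ∈ Z := by
    intro a g k
    simp only [hDapp, mul_smul, smul_sub]
    abel
  have h3 : ∀ i, ∀ z ∈ Z, z ∈ (Φ.pi G).F i → ∃ a ∈ Φ.F i, z - D a ∈ (Φ.pi G).F (i + 1) := by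
    intro i z hz hzi
    obtain ⟨a, ha, hfa⟩ := h i z ((ap_Filt.mem_pi Φ i z).1 hzi) hz
    refine ⟨a, ha, (ap_Filt.mem_pi Φ (i + 1) _).2 fun g => ?_⟩
    simpa [hDapp] using hfa g
  obtain ⟨a, ha, hDa⟩ := ap_approx Φ (Φ.pi G) hc hs.pi D h1 Z h2 h3 f hfc
    ((ap_Filt.mem_pi Φ 0 f).2 hf0)
  exact ⟨a, ha, fun g => by rw [← hDa, hDapp]⟩

omit [Fintype G] in
/-- **2-cocycles** (Mathlib's convention `f (g * k, l) + f (g, k) = g • f (k, l) + f (g, k * l)`,
coboundary of `φ` is `(g, k) ↦ g • φ k - φ (g * k) + φ g`). -/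
theorem ap_cocycle₂_coboundary
    (h : ∀ i, ∀ f : G × G → A, (∀ x, f x ∈ Φ.F i) →
      (∀ g k l, f (g * k, l) + f (g, k) = g • f (k, l) + f (g, k * l)) →
      ∃ φ : G → A, (∀ g, φ g ∈ Φ.F i) ∧
        ∀ g k, f (g, k) - (g • φ k - φ (g * k) + φ g) ∈ Φ.F (i + 1)) :
    ∀ f : G × G → A, (∀ x, f x ∈ Φ.F 0) →
      (∀ g k l, f (g * k, l) + f (g, k) = g • f (k, l) + f (g, k * l)) →
      ∃ φ : G → A, (∀ g, φ g ∈ Φ.F 0) ∧ ∀ g k, f (g, k) = g • φ k - φ (g * k) + φ g := by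
  intro f hf0 hfc
  let D : (G → A) →+ (G × G → A) :=
    { toFun := fun φ x => x.1 • φ x.2 - φ (x.1 * x.2) + φ x.1
      map_zero' := by funext x; simp
      map_add' := fun a b => by funext x; simp only [smul_add, Pi.add_apply]; abel }
  have hDapp : ∀ φ g k, D φ (g, k) = g • φ k - φ (g * k) + φ g := fun _ _ _ => rfl
  let Z : AddSubgroup (G × G → A) :=
    { carrier := {f | ∀ g k l, f (g * k, l) + f (g, k) = g • f (k, l) + f (g, k * l)}
      zero_mem' := fun g k l => by simp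
      add_mem' := fun {f₁ f₂} h₁ h₂ g k l => by
        have e₁ := h₁ g k l
        have e₂ := h₂ g k l
        simp only [Pi.add_apply, smul_add]
        calc f₁ (g * k, l) + f₂ (g * k, l) + (f₁ (g, k) + f₂ (g, k))
            = (f₁ (g * k, l) + f₁ (g, k)) + (f₂ (g * k, l) + f₂ (g, k)) := by abel
          _ = (g • f₁ (k, l) + f₁ (g, k * l)) + (g • f₂ (k, l) + f₂ (g, k * l)) := by
              rw [e₁, e₂]
          _ = _ := by abel
      neg_mem' := fun {f₁} h₁ g k l => by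
        have e₁ := h₁ g k l
        simp only [Pi.neg_apply, smul_neg]
        calc -f₁ (g * k, l) + -f₁ (g, k) = -(f₁ (g * k, l) + f₁ (g, k)) := by abel
          _ = -(g • f₁ (k, l) + f₁ (g, k * l)) := by rw [e₁]
          _ = _ := by abel }
  have h1 : ∀ i φ, φ ∈ (Φ.pi G).F i → D φ ∈ (Φ.pi (G × G)).F i := by
    intro i φ hφ
    rw [ap_Filt.mem_pi] at hφ ⊢
    rintro ⟨g, k⟩
    rw [hDapp]
    exact (Φ.F i).add_mem ((Φ.F i).sub_mem (hst i g _ (hφ k)) (hφ _)) (hφ g)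
  have h2 : ∀ φ, D φ ∈ Z := by
    intro φ g k l
    simp only [hDapp, smul_add, smul_sub, mul_smul, mul_assoc]
    abel
  have h3 : ∀ i, ∀ z ∈ Z, z ∈ (Φ.pi (G × G)).F i →
      ∃ φ ∈ (Φ.pi G).F i, z - D φ ∈ (Φ.pi (G × G)).F (i + 1) := by
    intro i z hz hzi
    obtain ⟨φ, hφ, hfφ⟩ := h i z ((ap_Filt.mem_pi Φ i z).1 hzi) hz
    refine ⟨φ, (ap_Filt.mem_pi Φ i φ).2 hφ, (ap_Filt.mem_pi Φ (i + 1) _).2 ?_⟩
    rintro ⟨g, k⟩
    simpa [hDapp] using hfφ g k
  obtain ⟨φ, hφ, hDφ⟩ := ap_approx (Φ.pi G) (Φ.pi (G × G)) hc.pi hs.pi D h1 Z h2 h3 f hfc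
    ((ap_Filt.mem_pi Φ 0 f).2 hf0)
  exact ⟨φ, (ap_Filt.mem_pi Φ 0 φ).1 hφ, fun g k => by rw [← hDφ, hDapp]⟩

end GModule

end Fermat.Agent.S55
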