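import Mathlib
import Fermat.Agent.S14.FirstIneq.Herbrand
import Fermat.Agent.S55.Local.Approx
import Fermat.Agent.S55.SUnit.Hexagon

/-!
# S55 / local block: the local power index `[Kˣ : Kˣ^p]` (abstract form)

`K` a complete ultrametric normed field, `p` a prime.  With `U_a = {x ∈ Kˣ | ‖x‖ = 1, ‖x - 1‖ ≤ ‖a‖}`:

* `pi_norm_pow_sub_one`: `‖x^p - 1‖ = ‖p‖ ‖x - 1‖` if `‖x - 1‖ < ‖p‖`;
* `pi_pow_surj`: `x ↦ x^p` maps `U_a` ONTO `U_{pa}` for `‖a‖ < ‖p‖` (successive approximation,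
  no logarithm), and it is injective there (`pi_eq_one_of_pow_eq_one`);
* `pi_relIndex_U_eq`: `[U_a : U_{ca}] = [O : cO]`;
* `pi_index_pow`: if `ord : Kˣ →* Multiplicative ℤ` is surjective with kernel the norm-one units,
  then `[Kˣ : Kˣ^p] = p * #μ_p(K) * [O : pO]`.
-/

namespace Fermat.Agent.S55

open Finset Filter Topology Fermat.Agent.S14

set_option linter.unusedSectionVars false
set_option linter.style.haveILetI false

section GroupLemmas

/-- index of the `p`-th powers in `Multiplicative ℤ`. -/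
theorem pi_index_pow_int (p : ℕ) (hp : p ≠ 0) :
    (powMonoidHom p : Multiplicative ℤ →* Multiplicative ℤ).range.index = p := by
  haveI : NeZero p := ⟨hp⟩
  let φ : Multiplicative ℤ →* Multiplicative (ZMod p) :=
    AddMonoidHom.toMultiplicative (Int.castAddHom (ZMod p))
  have hφ : Function.Surjective φ := by
    intro x
    obtain ⟨n, hn⟩ := ZMod.intCast_surjective x.toAdd
    exact ⟨Multiplicative.ofAdd n, by
      apply Multiplicative.toAdd.injective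
      simpa [φ] using hn⟩
  have hker : φ.ker = (powMonoidHom p : Multiplicative ℤ →* Multiplicative ℤ).range := by
    ext x
    rw [MonoidHom.mem_ker, MonoidHom.mem_range]
    constructor
    · intro hx
      have h1 : ((x.toAdd : ℤ) : ZMod p) = 0 := by
        have := congrArg Multiplicative.toAdd hx
        simpa [φ] using this
      rw [ZMod.intCast_zmod_eq_zero_iff_dvd] at h1
      obtain ⟨k, hk⟩ := h1
      refine ⟨Multiplicative.ofAdd k, ?_⟩
      apply Multiplicative.toAdd.injective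
      simp [hk]
    · rintro ⟨y, rfl⟩
      apply Multiplicative.toAdd.injective
      simp [φ]
  rw [← hker, Subgroup.index_ker, MonoidHom.range_eq_top.mpr hφ]
  simp [Nat.card_eq_fintype_card, ZMod.card]

theorem pi_ker_pow_int (p : ℕ) (hp : p ≠ 0) :
    (powMonoidHom p : Multiplicative ℤ →* Multiplicative ℤ).ker = ⊥ := by
  rw [eq_bot_iff]
  intro x hx
  rw [MonoidHom.mem_ker] at hx
  have h1 : (p : ℤ) * x.toAdd = 0 := by
    have := congrArg Multiplicative.toAdd hx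
    simpa using this
  rcases mul_eq_zero.mp h1 with h | h
  · exact absurd h (by exact_mod_cast hp)
  · rw [Subgroup.mem_bot]
    exact Multiplicative.toAdd.injective h

end GroupLemmas

variable {K : Type*} [NormedField K] [IsUltrametricDist K]

theorem pi_norm_sub_le_max (x y : K) : ‖x - y‖ ≤ max ‖x‖ ‖y‖ := by
  rw [sub_eq_add_neg, ← norm_neg y]
  exact IsUltrametricDist.norm_add_le_max _ _

theorem pi_norm_le_one_of_sub_one {x : K} (hx : ‖x - 1‖ ≤ 1) : ‖x‖ ≤ 1 := by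
  have : x = (x - 1) + 1 := by ring
  rw [this]
  refine (IsUltrametricDist.norm_add_le_max _ _).trans ?_
  simp [hx]

theorem pi_norm_eq_one_of_sub_one {x : K} (hx : ‖x - 1‖ < 1) : ‖x‖ = 1 := by
  have h1 : ‖x‖ ≤ 1 := pi_norm_le_one_of_sub_one hx.le
  by_contra hne
  have hlt : ‖x‖ < 1 := lt_of_le_of_ne h1 hne
  have : ‖(1 : K)‖ ≤ max ‖x‖ ‖x - 1‖ := by
    have e : (1 : K) = x - (x - 1) := by ring
    conv_lhs => rw [e]
    exact pi_norm_sub_le_max _ _
  rw [norm_one] at this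
  have h2 : max ‖x‖ ‖x - 1‖ < 1 := max_lt hlt hx
  linarith

theorem pi_norm_geom_sum_le {x : K} (hx : ‖x‖ ≤ 1) (n : ℕ) : ‖∑ i ∈ range n, x ^ i‖ ≤ 1 := by
  apply IsUltrametricDist.norm_sum_le_of_forall_le_of_nonneg zero_le_one
  intro i _
  rw [norm_pow]
  exact pow_le_one₀ (norm_nonneg _) hx

theorem pi_norm_pow_sub_one_le {x : K} (hx : ‖x - 1‖ ≤ 1) (k : ℕ) : ‖x ^ k - 1‖ ≤ ‖x - 1‖ := by
  have h : x ^ k - 1 = (∑ i ∈ range k, x ^ i) * (x - 1) := (geom_sum_mul x k).symm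
  rw [h, norm_mul]
  calc ‖∑ i ∈ range k, x ^ i‖ * ‖x - 1‖ ≤ 1 * ‖x - 1‖ :=
        mul_le_mul_of_nonneg_right (pi_norm_geom_sum_le (pi_norm_le_one_of_sub_one hx) k)
          (norm_nonneg _)
    _ = ‖x - 1‖ := one_mul _

/-- `x^p - 1 = (x - 1)(p + δ)` with `‖δ‖ ≤ ‖x - 1‖`. -/
theorem pi_pow_sub_one (p : ℕ) {x : K} (hx : ‖x - 1‖ ≤ 1) :
    ∃ δ : K, x ^ p - 1 = (x - 1) * ((p : K) + δ) ∧ ‖δ‖ ≤ ‖x - 1‖ := by
  refine ⟨∑ i ∈ range p, (x ^ i - 1), ?_, ?_⟩
  · rw [sum_sub_distrib, sum_const, card_range, nsmul_eq_mul, mul_one, add_sub_cancel,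
      mul_comm, geom_sum_mul]
  · apply IsUltrametricDist.norm_sum_le_of_forall_le_of_nonneg (norm_nonneg _)
    intro i _
    exact pi_norm_pow_sub_one_le hx i

/-- If `‖x - 1‖ < ‖p‖` then `‖x^p - 1‖ = ‖p‖ ‖x - 1‖`. -/
theorem pi_norm_pow_sub_one (p : ℕ) {x : K} (hx : ‖x - 1‖ < ‖(p : K)‖) :
    ‖x ^ p - 1‖ = ‖(p : K)‖ * ‖x - 1‖ := by
  have hp1 : ‖(p : K)‖ ≤ 1 := IsUltrametricDist.norm_natCast_le_one K p
  obtain ⟨δ, h1, h2⟩ := pi_pow_sub_one p (hx.le.trans hp1)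
  rw [h1, norm_mul, mul_comm]
  congr 1
  have hlt : ‖δ‖ < ‖(p : K)‖ := lt_of_le_of_lt h2 hx
  have := IsUltrametricDist.norm_add_eq_max_of_norm_ne_norm (x := (p : K)) (y := δ) hlt.ne'
  rw [this, max_eq_left hlt.le]

/-- `‖x^p - 1 - p (x - 1)‖ ≤ ‖x - 1‖²`. -/
theorem pi_norm_pow_sub_lin (p : ℕ) {x : K} (hx : ‖x - 1‖ ≤ 1) :
    ‖x ^ p - 1 - (p : K) * (x - 1)‖ ≤ ‖x - 1‖ ^ 2 := by
  obtain ⟨δ, h1, h2⟩ := pi_pow_sub_one p hx
  have : x ^ p - 1 - (p : K) * (x - 1) = (x - 1) * δ := by rw [h1]; ring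
  rw [this, norm_mul, pow_two]
  exact mul_le_mul_of_nonneg_left h2 (norm_nonneg _)

/-- The closed ball of radius `‖a‖` as an additive subgroup. -/
def pi_ball (a : K) : AddSubgroup K where
  carrier := {x | ‖x‖ ≤ ‖a‖}
  zero_mem' := by simp
  add_mem' {x y} hx hy := (IsUltrametricDist.norm_add_le_max x y).trans (max_le hx hy)
  neg_mem' {x} hx := by simpa using hx

theorem pi_mem_ball {a x : K} : x ∈ pi_ball a ↔ ‖x‖ ≤ ‖a‖ := Iff.rfl

/-- The units of norm one. -/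
def pi_U1 (K : Type*) [NormedField K] : Subgroup Kˣ where
  carrier := {x | ‖(x : K)‖ = 1}
  one_mem' := by simp
  mul_mem' {x y} hx hy := by
    simp only [Set.mem_ofPred_eq, Units.val_mul, norm_mul] at hx hy ⊢
    rw [hx, hy, one_mul]
  inv_mem' {x} hx := by
    simp only [Set.mem_ofPred_eq, Units.val_inv_eq_inv_val, norm_inv] at hx ⊢
    rw [hx, inv_one]

theorem pi_mem_U1 {x : Kˣ} : x ∈ pi_U1 K ↔ ‖(x : K)‖ = 1 := Iff.rfl

/-- The units `x` of norm one with `‖x - 1‖ ≤ ‖a‖`. -/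
def pi_U (a : K) : Subgroup Kˣ where
  carrier := {x | ‖(x : K)‖ = 1 ∧ ‖(x : K) - 1‖ ≤ ‖a‖}
  one_mem' := by simp
  mul_mem' {x y} hx hy := by
    obtain ⟨hx1, hx2⟩ := hx
    obtain ⟨hy1, hy2⟩ := hy
    refine ⟨by simp [hx1, hy1], ?_⟩
    have e : ((x * y : Kˣ) : K) - 1 = (x : K) * ((y : K) - 1) + ((x : K) - 1) := by
      push_cast; ring
    rw [e]
    refine (IsUltrametricDist.norm_add_le_max _ _).trans (max_le ?_ hx2)
    rw [norm_mul, hx1, one_mul]
    exact hy2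
  inv_mem' {x} hx := by
    obtain ⟨hx1, hx2⟩ := hx
    refine ⟨by simp [hx1], ?_⟩
    have hx0 : (x : K) ≠ 0 := x.ne_zero
    have e : ((x⁻¹ : Kˣ) : K) - 1 = -((x : K) - 1) / (x : K) := by
      rw [Units.val_inv_eq_inv_val]
      field_simp
      ring
    rw [e, norm_div, norm_neg, hx1, div_one]
    exact hx2

theorem pi_mem_U {a : K} {x : Kˣ} : x ∈ pi_U a ↔ ‖(x : K)‖ = 1 ∧ ‖(x : K) - 1‖ ≤ ‖a‖ := Iff.rfl

theorem pi_U_le_U1 (a : K) : pi_U a ≤ pi_U1 K := fun _ hx => hx.1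

theorem pi_U_mono {a b : K} (h : ‖a‖ ≤ ‖b‖) : pi_U a ≤ pi_U b := fun _ hx => ⟨hx.1, hx.2.trans h⟩

/-- `x ∈ U_a`, `y ∈ Kˣ` of norm one: `x⁻¹ y ∈ U_b ↔ ‖y - x‖ ≤ ‖b‖`. -/
theorem pi_inv_mul_mem_U {b : K} {x y : Kˣ} (hx : ‖(x : K)‖ = 1) (hy : ‖(y : K)‖ = 1) :
    x⁻¹ * y ∈ pi_U b ↔ ‖(y : K) - x‖ ≤ ‖b‖ := by
  rw [pi_mem_U]
  have hx0 : (x : K) ≠ 0 := x.ne_zero
  have e : ((x⁻¹ * y : Kˣ) : K) - 1 = ((y : K) - x) / (x : K) := by
    rw [Units.val_mul, Units.val_inv_eq_inv_val]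
    field_simp
  rw [e, norm_div, hx, div_one]
  constructor
  · exact fun h => h.2
  · intro h
    refine ⟨?_, h⟩
    simp [hx, hy]

/-- The `p`-th power map sends `U_a` into `U_{pa}` if `‖a‖ < ‖p‖`. -/
theorem pi_pow_mem_U (p : ℕ) {a : K} (ha : ‖a‖ < ‖(p : K)‖) {x : Kˣ} (hx : x ∈ pi_U a) :
    x ^ p ∈ pi_U ((p : K) * a) := by
  refine ⟨by simp [hx.1], ?_⟩
  rw [Units.val_pow_eq_pow_val, pi_norm_pow_sub_one p (lt_of_le_of_lt hx.2 ha), norm_mul]
  exact mul_le_mul_of_nonneg_left hx.2 (norm_nonneg _)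

/-- No `p`-torsion in `U_a` for `‖a‖ < ‖p‖`. -/
theorem pi_eq_one_of_pow_eq_one (p : ℕ) {a : K} (ha : ‖a‖ < ‖(p : K)‖) {x : Kˣ}
    (hx : x ∈ pi_U a) (hxp : x ^ p = 1) : x = 1 := by
  have h1 := pi_norm_pow_sub_one p (lt_of_le_of_lt hx.2 ha)
  have h2 : (x : K) ^ p = 1 := by
    rw [← Units.val_pow_eq_pow_val, hxp, Units.val_one]
  rw [h2, sub_self, norm_zero] at h1
  have hp : ‖(p : K)‖ ≠ 0 := by
    intro h
    rw [h] at ha
    exact absurd ha (not_lt.mpr (norm_nonneg _))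
  have h3 : ‖(x : K) - 1‖ = 0 := by
    rcases mul_eq_zero.mp h1.symm with h | h
    · exact absurd h hp
    · exact h
  apply Units.ext
  rw [Units.val_one]
  exact sub_eq_zero.mp (norm_eq_zero.mp h3)

/-- The bijection `t ↦ 1 + a t` from the unit ball onto `U_a`. -/
noncomputable def pi_ballEquivU {a : K} (ha0 : a ≠ 0) (ha1 : ‖a‖ < 1) :
    ↥(pi_ball (1 : K)) ≃ ↥(pi_U a) where
  toFun t := ⟨Units.mk0 (1 + a * (t : K)) (by
      intro h
      have h1 : ‖(1 + a * (t : K)) - 1‖ < 1 := by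
        rw [add_sub_cancel_left, norm_mul]
        have ht : ‖(t : K)‖ ≤ 1 := by
          have := pi_mem_ball.mp t.2
          rwa [norm_one] at this
        calc ‖a‖ * ‖(t : K)‖ ≤ ‖a‖ * 1 := mul_le_mul_of_nonneg_left ht (norm_nonneg _)
          _ = ‖a‖ := mul_one _
          _ < 1 := ha1
      have := pi_norm_eq_one_of_sub_one h1
      rw [h, norm_zero] at this
      exact zero_ne_one this), by
    have ht : ‖(t : K)‖ ≤ 1 := by
          have := pi_mem_ball.mp t.2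
          rwa [norm_one] at this
    have h2 : ‖a * (t : K)‖ ≤ ‖a‖ := by
      rw [norm_mul]
      calc ‖a‖ * ‖(t : K)‖ ≤ ‖a‖ * 1 := mul_le_mul_of_nonneg_left ht (norm_nonneg _)
        _ = ‖a‖ := mul_one _
    rw [pi_mem_U, Units.val_mk0, add_sub_cancel_left]
    refine ⟨pi_norm_eq_one_of_sub_one ?_, h2⟩
    rw [add_sub_cancel_left]
    exact lt_of_le_of_lt h2 ha1⟩
  invFun x := ⟨(((x : Kˣ) : K) - 1) / a, by
    rw [pi_mem_ball, norm_div, norm_one, div_le_one (norm_pos_iff.mpr ha0)]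
    exact x.2.2⟩
  left_inv t := by
    apply Subtype.ext
    simp only [Units.val_mk0, add_sub_cancel_left]
    field_simp
  right_inv x := by
    apply Subtype.ext
    apply Units.ext
    simp only [Units.val_mk0]
    field_simp
    ring

theorem pi_ballEquivU_coe {a : K} (ha0 : a ≠ 0) (ha1 : ‖a‖ < 1) (t : ↥(pi_ball (1 : K))) :
    (((pi_ballEquivU ha0 ha1 t : ↥(pi_U a)) : Kˣ) : K) = 1 + a * (t : K) := rfl

/-- `[U_a : U_{ca}] = [O : cO]`. -/
theorem pi_relIndex_U_eq {a : K} (ha0 : a ≠ 0) (ha1 : ‖a‖ < 1) (c : K) :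
    (pi_U (c * a)).relIndex (pi_U a) = (pi_ball c).relIndex (pi_ball (1 : K)) := by
  rw [Subgroup.relIndex, AddSubgroup.relIndex, Subgroup.index, AddSubgroup.index]
  symm
  refine Nat.card_congr (Quotient.congr (pi_ballEquivU ha0 ha1) ?_)
  intro t t'
  rw [QuotientAddGroup.leftRel_apply, QuotientGroup.leftRel_apply, Subgroup.mem_subgroupOf,
    AddSubgroup.mem_addSubgroupOf]
  have hn1 := (pi_ballEquivU ha0 ha1 t).2.1
  have hn2 := (pi_ballEquivU ha0 ha1 t').2.1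
  have e : ((((pi_ballEquivU ha0 ha1 t)⁻¹ * pi_ballEquivU ha0 ha1 t' : ↥(pi_U a)) : Kˣ))
      = ((pi_ballEquivU ha0 ha1 t : ↥(pi_U a)) : Kˣ)⁻¹ * ((pi_ballEquivU ha0 ha1 t' : ↥(pi_U a)) : Kˣ) :=
    rfl
  rw [e, pi_inv_mul_mem_U hn1 hn2, pi_ballEquivU_coe, pi_ballEquivU_coe, pi_mem_ball]
  have e2 : (1 + a * (t' : K)) - (1 + a * (t : K)) = a * (-(t : K) + (t' : K)) := by ring
  rw [e2, norm_mul, norm_mul, mul_comm ‖c‖ ‖a‖]
  have hapos : 0 < ‖a‖ := norm_pos_iff.mpr ha0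
  constructor
  · intro h
    exact mul_le_mul_of_nonneg_left h hapos.le
  · intro h
    exact le_of_mul_le_mul_left h hapos

theorem pi_norm_prod_eq_one {a : ℕ → K} (s : ℕ → Kˣ) (hs : ∀ i, s i ∈ pi_U (a i)) (n : ℕ) :
    ‖((∏ i ∈ range n, s i : Kˣ) : K)‖ = 1 := by
  induction n with
  | zero => simp
  | succ n ih =>
    rw [prod_range_succ, Units.val_mul, norm_mul, ih, (hs n).1, one_mul]

variable [CompleteSpace K]

/-- Completeness of the filtration `U_{a b^i}`. -/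
theorem pi_complete {a b : K} (ha : ‖a‖ < 1) (hb : ‖b‖ < 1) (s : ℕ → Kˣ)
    (hs : ∀ i, s i ∈ pi_U (a * b ^ i)) :
    ∃ L : Kˣ, ∀ n, (∏ i ∈ range n, s i)⁻¹ * L ∈ pi_U (a * b ^ n) := by
  set P : ℕ → K := fun n => ((∏ i ∈ range n, s i : Kˣ) : K) with hP
  have hPn : ∀ n, ‖P n‖ = 1 := fun n => pi_norm_prod_eq_one s hs n
  have hstep : ∀ n, ‖P (n + 1) - P n‖ ≤ ‖a‖ * ‖b‖ ^ n := by
    intro n
    have e : P (n + 1) - P n = P n * ((s n : K) - 1) := by
      simp only [hP, prod_range_succ, Units.val_mul]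
      ring
    rw [e, norm_mul, hPn, one_mul]
    have := (hs n).2
    rwa [norm_mul, norm_pow] at this
  have hb0 : 0 ≤ ‖b‖ := norm_nonneg _
  have hmn : ∀ n k, ‖P (n + k) - P n‖ ≤ ‖a‖ * ‖b‖ ^ n := by
    intro n k
    induction k with
    | zero => simp only [add_zero, sub_self, norm_zero]; positivity
    | succ k ih =>
      have e : P (n + (k + 1)) - P n = (P (n + k + 1) - P (n + k)) + (P (n + k) - P n) := by
        rw [← add_assoc]; ring
      rw [e]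
      refine (IsUltrametricDist.norm_add_le_max _ _).trans (max_le ?_ ih)
      refine (hstep (n + k)).trans ?_
      apply mul_le_mul_of_nonneg_left _ (norm_nonneg _)
      exact pow_le_pow_of_le_one hb0 hb.le (Nat.le_add_right n k)
  have hcauchy : CauchySeq P := by
    apply cauchySeq_of_le_geometric ‖b‖ ‖a‖ hb
    intro n
    rw [dist_eq_norm, ← norm_neg, neg_sub]
    exact hstep n
  obtain ⟨L₀, hL₀⟩ := cauchySeq_tendsto_of_complete hcauchy
  have hLn : ∀ n, ‖L₀ - P n‖ ≤ ‖a‖ * ‖b‖ ^ n := by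
    intro n
    have h1 : Tendsto (fun k => P (n + k) - P n) atTop (𝓝 (L₀ - P n)) := by
      apply Tendsto.sub_const
      have := hL₀.comp (tendsto_add_atTop_nat n)
      refine this.congr fun k => ?_
      simp [add_comm]
    exact le_of_tendsto' h1.norm fun k => hmn n k
  have hL1 : ‖L₀ - 1‖ ≤ ‖a‖ := by
    have := hLn 0
    simpa [hP] using this
  have hL0norm : ‖L₀‖ = 1 := pi_norm_eq_one_of_sub_one (lt_of_le_of_lt hL1 ha)
  have hL0ne : L₀ ≠ 0 := by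
    intro h
    rw [h, norm_zero] at hL0norm
    exact zero_ne_one hL0norm
  refine ⟨Units.mk0 L₀ hL0ne, fun n => ?_⟩
  rw [pi_inv_mul_mem_U (pi_norm_prod_eq_one s hs n) (by simpa using hL0norm)]
  rw [Units.val_mk0, norm_mul, norm_pow]
  exact hLn n

/-- Separatedness of the filtration `U_{a b^i}`. -/
theorem pi_sep {a b : K} (hb : ‖b‖ < 1) {x : Kˣ} (hx : ∀ i : ℕ, x ∈ pi_U (a * b ^ i)) :
    x = 1 := by
  have h1 : ∀ i : ℕ, ‖(x : K) - 1‖ ≤ ‖a‖ * ‖b‖ ^ i := fun i => by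
    have := (hx i).2
    rwa [norm_mul, norm_pow] at this
  have h2 : Tendsto (fun i : ℕ => ‖a‖ * ‖b‖ ^ i) atTop (𝓝 0) := by
    have := (tendsto_pow_atTop_nhds_zero_of_lt_one (norm_nonneg b) hb).const_mul ‖a‖
    simpa using this
  have h3 : ‖(x : K) - 1‖ ≤ 0 := ge_of_tendsto' h2 h1
  apply Units.ext
  rw [Units.val_one]
  exact sub_eq_zero.mp (norm_le_zero_iff.mp h3)

/-- **Surjectivity of the `p`-th power map** `U_a → U_{pa}` for `0 < ‖a‖ < ‖p‖`. -/
theorem pi_pow_surj (p : ℕ) {a : K} (ha : ‖a‖ < ‖(p : K)‖) {z : Kˣ}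
    (hz : z ∈ pi_U ((p : K) * a)) : ∃ x ∈ pi_U a, x ^ p = z := by
  have hp1 : ‖(p : K)‖ ≤ 1 := IsUltrametricDist.norm_natCast_le_one K p
  have hpn : 0 < ‖(p : K)‖ := lt_of_le_of_lt (norm_nonneg _) ha
  have hp0 : (p : K) ≠ 0 := norm_pos_iff.mp hpn
  have ha1 : ‖a‖ < 1 := lt_of_lt_of_le ha hp1
  set b : K := a / (p : K) with hb
  have hbn : ‖b‖ < 1 := by
    rw [hb, norm_div, div_lt_one hpn]
    exact ha
  have hb0 : 0 ≤ ‖b‖ := norm_nonneg _
  have hbi : ∀ i : ℕ, ‖b‖ ^ i ≤ 1 := fun i => pow_le_one₀ hb0 hbn.le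
  have habi : ∀ i : ℕ, ‖a * b ^ i‖ < ‖(p : K)‖ := fun i => by
    rw [norm_mul, norm_pow]
    calc ‖a‖ * ‖b‖ ^ i ≤ ‖a‖ * 1 := mul_le_mul_of_nonneg_left (hbi i) (norm_nonneg _)
      _ = ‖a‖ := mul_one _
      _ < ‖(p : K)‖ := ha
  let ΦX : ap_Filt (Additive Kˣ) := ⟨fun i => (pi_U (a * b ^ i)).toAddSubgroup⟩
  let ΦY : ap_Filt (Additive Kˣ) := ⟨fun i => (pi_U ((p : K) * a * b ^ i)).toAddSubgroup⟩
  let D : Additive Kˣ →+ Additive Kˣ := MonoidHom.toAdditive (powMonoidHom p : Kˣ →* Kˣ)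
  have hc : ΦX.IsComplete := by
    intro s hs
    obtain ⟨L, hL⟩ := pi_complete ha1 hbn (fun i => (s i).toMul) hs
    refine ⟨Additive.ofMul L, fun n => ?_⟩
    have e : Additive.ofMul L - ∑ i ∈ range n, s i
        = Additive.ofMul ((∏ i ∈ range n, (s i).toMul)⁻¹ * L) := by
      rw [ofMul_mul, ofMul_inv, ofMul_prod]
      simp only [ofMul_toMul]
      abel
    rw [e]
    exact hL n
  have hs : ΦY.IsSep := by
    intro x hx
    have : x.toMul = 1 := pi_sep (a := (p : K) * a) hbn (fun i => by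
      have := hx i
      exact this)
    exact Additive.toMul.injective this
  have hD : ∀ i x, x ∈ ΦX.F i → D x ∈ ΦY.F i := by
    intro i x hx
    have := pi_pow_mem_U p (habi i) (x := x.toMul) hx
    rw [← mul_assoc] at this
    exact this
  have hstep : ∀ i, ∀ z ∈ (⊤ : AddSubgroup (Additive Kˣ)), z ∈ ΦY.F i →
      ∃ x ∈ ΦX.F i, z - D x ∈ ΦY.F (i + 1) := by
    intro i z _ hzi
    obtain ⟨hz1, hz2⟩ : ‖((z.toMul : Kˣ) : K)‖ = 1 ∧
        ‖((z.toMul : Kˣ) : K) - 1‖ ≤ ‖(p : K) * a * b ^ i‖ := hzi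
    set w : K := ((z.toMul : Kˣ) : K) - 1 with hw
    set y : K := w / (p : K) with hy
    have hyn : ‖y‖ ≤ ‖a * b ^ i‖ := by
      rw [hy, norm_div, div_le_iff₀ hpn, ← norm_mul, mul_comm, ← mul_assoc]
      exact hz2
    have hy1 : ‖(1 + y) - 1‖ < 1 := by
      rw [add_sub_cancel_left]
      exact lt_of_le_of_lt hyn (lt_of_lt_of_le (habi i) hp1)
    have hxnorm : ‖1 + y‖ = 1 := pi_norm_eq_one_of_sub_one hy1
    have hx0 : 1 + y ≠ 0 := by
      intro h
      rw [h, norm_zero] at hxnorm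
      exact zero_ne_one hxnorm
    set x : Kˣ := Units.mk0 (1 + y) hx0 with hx
    have hxU : x ∈ pi_U (a * b ^ i) := by
      refine ⟨by rw [hx, Units.val_mk0]; exact hxnorm, ?_⟩
      rw [hx, Units.val_mk0, add_sub_cancel_left]
      exact hyn
    refine ⟨Additive.ofMul x, hxU, ?_⟩
    have e : z - D (Additive.ofMul x) = Additive.ofMul ((x ^ p)⁻¹ * z.toMul) := by
      change z - Additive.ofMul (x ^ p) = _
      rw [ofMul_mul, ofMul_inv, ofMul_toMul]
      abel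
    rw [e]
    change (x ^ p)⁻¹ * z.toMul ∈ pi_U ((p : K) * a * b ^ (i + 1))
    rw [pi_inv_mul_mem_U (by
      rw [Units.val_pow_eq_pow_val, norm_pow, hx, Units.val_mk0, hxnorm, one_pow]) hz1]
    -- `z - x^p = -(x^p - 1 - p y)`
    have e2 : ((z.toMul : Kˣ) : K) - ((x ^ p : Kˣ) : K)
        = -((1 + y) ^ p - 1 - (p : K) * ((1 + y) - 1)) := by
      rw [Units.val_pow_eq_pow_val, hx, Units.val_mk0, add_sub_cancel_left, hy,
        mul_div_cancel₀ _ hp0, hw]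
      ring
    rw [e2, norm_neg]
    refine (pi_norm_pow_sub_lin p hy1.le).trans ?_
    rw [add_sub_cancel_left]
    have h1 : ‖y‖ ^ 2 ≤ (‖a‖ * ‖b‖ ^ i) ^ 2 := by
      apply pow_le_pow_left₀ (norm_nonneg _)
      rwa [norm_mul, norm_pow] at hyn
    refine h1.trans ?_
    have h2 : ‖(p : K) * a * b ^ (i + 1)‖ = ‖a‖ ^ 2 * ‖b‖ ^ i := by
      rw [norm_mul, norm_mul, norm_pow, pow_succ, hb, norm_div]
      field_simp
    rw [h2, mul_pow]
    apply mul_le_mul_of_nonneg_left _ (by positivity)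
    rw [← pow_mul]
    exact pow_le_pow_of_le_one hb0 hbn.le (by omega)
  have key := ap_approx ΦX ΦY hc hs D hD ⊤ (fun _ => AddSubgroup.mem_top _) hstep
    (Additive.ofMul z) (AddSubgroup.mem_top _) (by
      change z ∈ pi_U ((p : K) * a * b ^ 0)
      simpa using hz)
  obtain ⟨x, hx, hDx⟩ := key
  refine ⟨x.toMul, ?_, ?_⟩
  · have : x.toMul ∈ pi_U (a * b ^ 0) := hx
    simpa using this
  · exact congrArg Additive.toMul hDx

/-- A `p`-th root of unity has norm one. -/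
theorem pi_norm_eq_one_of_pow_eq_one {p : ℕ} (hp : p ≠ 0) {x : Kˣ} (hx : x ^ p = 1) :
    ‖(x : K)‖ = 1 := by
  have h1 : ‖(x : K)‖ ^ p = 1 := by
    rw [← norm_pow, ← Units.val_pow_eq_pow_val, hx, Units.val_one, norm_one]
  exact (pow_eq_one_iff_of_nonneg (norm_nonneg _) hp).mp h1

/-- The `p`-power index of `U_a`, `0 < ‖a‖ < ‖p‖`. -/
theorem pi_index_pow_U (p : ℕ) {a : K} (ha0 : a ≠ 0) (ha : ‖a‖ < ‖(p : K)‖) :
    (powMonoidHom p : ↥(pi_U a) →* ↥(pi_U a)).range.index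
      = (pi_ball (p : K)).relIndex (pi_ball (1 : K)) ∧
    (powMonoidHom p : ↥(pi_U a) →* ↥(pi_U a)).ker = ⊥ := by
  have hp1 : ‖(p : K)‖ ≤ 1 := IsUltrametricDist.norm_natCast_le_one K p
  constructor
  · rw [← pi_relIndex_U_eq ha0 (lt_of_lt_of_le ha hp1) (p : K), Subgroup.relIndex]
    congr 1
    ext x
    rw [MonoidHom.mem_range, Subgroup.mem_subgroupOf]
    constructor
    · rintro ⟨y, rfl⟩
      exact pi_pow_mem_U p ha y.2
    · intro hx
      obtain ⟨y, hy, hyx⟩ := pi_pow_surj p ha hx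
      exact ⟨⟨y, hy⟩, Subtype.ext hyx⟩
  · rw [eq_bot_iff]
    intro x hx
    rw [MonoidHom.mem_ker] at hx
    have h1 : (x : Kˣ) ^ p = 1 := by
      have := congrArg (fun z : ↥(pi_U a) => (z : Kˣ)) hx
      simpa using this
    rw [Subgroup.mem_bot]
    exact Subtype.ext (pi_eq_one_of_pow_eq_one p ha x.2 h1)

/-- **Local power index** (abstract form).  `K` a complete ultrametric normed field with a
surjective "valuation" `ord : Kˣ →* Multiplicative ℤ` whose kernel is the group of norm-one units;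
`p` a prime, `a ≠ 0` with `‖a‖ < ‖p‖`, `[U : U_a]` and `[O : pO]` finite.  Then
`[Kˣ : Kˣ^p] = p * #μ_p(K) * [O : pO]`. -/
theorem pi_index_pow (p : ℕ) [hp : Fact p.Prime]
    (ord : Kˣ →* Multiplicative ℤ) (hord : Function.Surjective ord)
    (hker : ∀ x : Kˣ, ord x = 1 ↔ ‖(x : K)‖ = 1)
    (a : K) (ha0 : a ≠ 0) (ha : ‖a‖ < ‖(p : K)‖)
    (hfinU : (pi_U a).relIndex (pi_U1 K) ≠ 0)
    (hfinO : (pi_ball (p : K)).relIndex (pi_ball (1 : K)) ≠ 0) :
    (powMonoidHom p : Kˣ →* Kˣ).range.index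
      = p * Nat.card (powMonoidHom p : Kˣ →* Kˣ).ker *
        (pi_ball (p : K)).relIndex (pi_ball (1 : K)) ∧
    (powMonoidHom p : Kˣ →* Kˣ).range.index ≠ 0 := by
  have hp0 : p ≠ 0 := hp.out.ne_zero
  set fM : Kˣ →* Kˣ := powMonoidHom p with hfM
  set fE : ↥(pi_U1 K) →* ↥(pi_U1 K) := powMonoidHom p with hfE
  set fA : ↥(pi_U a) →* ↥(pi_U a) := powMonoidHom p with hfA
  set fQ : Multiplicative ℤ →* Multiplicative ℤ := powMonoidHom p with hfQ
  obtain ⟨hAidx, hAker⟩ := pi_index_pow_U p ha0 ha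
  -- kernels
  have hkerfin : Finite ↥fM.ker := by
    have : fM.ker = rootsOfUnity p K := by
      ext x
      rw [MonoidHom.mem_ker, mem_rootsOfUnity]
      rfl
    rw [this]
    haveI : NeZero p := ⟨hp0⟩
    infer_instance
  have hcμ : Nat.card ↥fM.ker ≠ 0 := Nat.card_pos.ne'
  have hkerE : Nat.card ↥fE.ker = Nat.card ↥fM.ker := by
    refine Nat.card_congr
      { toFun := fun x => ⟨((x : ↥(pi_U1 K)) : Kˣ), ?_⟩
        invFun := fun y => ⟨⟨(y : Kˣ), ?_⟩, ?_⟩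
        left_inv := fun x => rfl
        right_inv := fun y => rfl }
    · have := x.2
      rw [MonoidHom.mem_ker] at this ⊢
      have h2 := congrArg (fun z : ↥(pi_U1 K) => (z : Kˣ)) this
      exact h2
    · have := y.2
      rw [MonoidHom.mem_ker] at this
      exact pi_norm_eq_one_of_pow_eq_one hp0 this
    · have := y.2
      rw [MonoidHom.mem_ker] at this ⊢
      exact Subtype.ext this
  -- step 1: `U_a ≤ U1`
  have htr := fi_herbrand_transport (Subgroup.inclusion (pi_U_le_U1 a))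
    (Subgroup.inclusion_injective _) (by
      rw [Subgroup.inclusion_range]
      exact hfinU) fE (1 : ↥(pi_U1 K) →* ↥(pi_U1 K)) fA (1 : ↥(pi_U a) →* ↥(pi_U a))
    (fun x => rfl) (fun x => rfl) (fun x => by simp [hfE]) (fun x => by simp)
  simp only [MonoidHom.range_one, MonoidHom.ker_one, Subgroup.relIndex_bot_left,
    Subgroup.relIndex_top_right] at htr
  obtain ⟨h1eq, -, h1ne⟩ := htr
  rw [hAidx, hAker, Subgroup.card_bot, one_mul, hkerE] at h1eq
  have hEne : fE.range.index ≠ 0 := h1ne (by rw [hAidx]; exact hfinO)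
  -- step 2: `1 → U1 → Kˣ → ℤ → 1`
  have hex : ord.ker = (pi_U1 K).subtype.range := by
    ext x
    rw [MonoidHom.mem_ker, hker, Subgroup.range_subtype]
    rfl
  have hhex := hq_hexagon (pi_U1 K).subtype ord (Subgroup.subtype_injective _) hord hex
    fM (1 : Kˣ →* Kˣ) fE (1 : ↥(pi_U1 K) →* ↥(pi_U1 K)) fQ
    (1 : Multiplicative ℤ →* Multiplicative ℤ)
    (fun x => rfl) (fun x => by simp) (fun x => by simp [hfM, hfQ]) (fun x => by simp)
    (fun x => by simp [hfM]) (fun x => by simp)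
  simp only [MonoidHom.range_one, MonoidHom.ker_one, Subgroup.relIndex_bot_left,
    Subgroup.relIndex_top_right] at hhex
  obtain ⟨h2eq, -, -, h2ne⟩ := hhex
  rw [pi_index_pow_int p hp0, pi_ker_pow_int p hp0, Subgroup.card_bot, mul_one, hkerE] at h2eq
  have hMne : fM.range.index ≠ 0 := by
    have := h2ne (by rw [hkerE]; exact hcμ) hEne (by rw [pi_ker_pow_int p hp0]; simp)
      (by rw [pi_index_pow_int p hp0]; exact hp0)
    exact this.2
  refine ⟨?_, hMne⟩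
  -- arithmetic
  have : Nat.card ↥fM.ker * fM.range.index
      = Nat.card ↥fM.ker * (p * Nat.card ↥fM.ker *
        (pi_ball (p : K)).relIndex (pi_ball (1 : K))) := by
    calc Nat.card ↥fM.ker * fM.range.index = fM.range.index * Nat.card ↥fM.ker := by ring
      _ = Nat.card ↥fM.ker * fE.range.index * p := h2eq.symm
      _ = Nat.card ↥fM.ker * (Nat.card ↥fM.ker *
          (pi_ball (p : K)).relIndex (pi_ball (1 : K))) * p := by rw [← h1eq]
      _ = _ := by ring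
  exact Nat.eq_of_mul_eq_mul_left (Nat.pos_of_ne_zero hcμ) this

end Fermat.Agent.S55
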