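import Mathlib

/-!
# S55 / local toolkit [L0], part 2: a finite group acting faithfully on a finite field

`k` a finite field, `G` a finite group acting faithfully on `k` by ring automorphisms.
* `lf_ff_trace_surj`, `lf_ff_norm_surj`: trace and norm are onto the fixed elements;
* `lf_ff_h90_add`, `lf_ff_h90_mul`: Hilbert 90 (additive and multiplicative) for cyclic `G`;
* `lf_ff_dedekind`: Dedekind independence of the elements of `G`.
-/

namespace Fermat.Agent.S55

open Finset

section Counting

variable {A : Type*} [CommGroup A] [Finite A]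

/-- Counting: if `range N = ker D` and `N ∘ D = 1` in a finite commutative group, then
`ker N = range D`. -/
@[to_additive lf_add_ker_eq_range_of_finite]
theorem lf_ker_eq_range_of_finite (N D : A →* A) (hND : ∀ x, N (D x) = 1)
    (h : N.range = D.ker) : N.ker = D.range := by
  symm
  have hle : D.range ≤ N.ker := by
    rintro _ ⟨x, rfl⟩
    exact hND x
  apply Subgroup.eq_of_le_of_card_ge hle
  have h1 : Nat.card N.ker * Nat.card N.range = Nat.card A := by
    rw [← Subgroup.index_ker, Subgroup.card_mul_index]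
  have h2 : Nat.card D.ker * Nat.card D.range = Nat.card A := by
    rw [← Subgroup.index_ker, Subgroup.card_mul_index]
  rw [h] at h1
  have h3 : Nat.card D.ker * Nat.card N.ker = Nat.card D.ker * Nat.card D.range := by
    rw [h2, mul_comm, h1]
  exact le_of_eq (Nat.eq_of_mul_eq_mul_left Nat.card_pos h3)

end Counting

section FiniteField

variable {k G : Type*} [Field k] [Finite k] [Group G] [Fintype G] [MulSemiringAction G k]
  [FaithfulSMul G k]

omit [Finite k] in
theorem lf_ff_trace_surj (a : k) (ha : ∀ g : G, g • a = a) : ∃ b : k, ∑ g : G, g • b = a := by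
  obtain ⟨b, hb⟩ := Algebra.trace_surjective (FixedPoints.subfield G k) k ⟨a, ha⟩
  refine ⟨b, ?_⟩
  have h1 := trace_eq_sum_automorphisms (K := FixedPoints.subfield G k) b
  rw [hb] at h1
  have h2 : algebraMap (FixedPoints.subfield G k) k ⟨a, ha⟩ = a := rfl
  rw [h2] at h1
  rw [h1]
  exact Fintype.sum_equiv (FixedPoints.toAlgAutMulEquiv G k).toEquiv _ _ fun g => rfl

theorem lf_ff_norm_surj (a : k) (ha0 : a ≠ 0) (ha : ∀ g : G, g • a = a) :
    ∃ b : k, b ≠ 0 ∧ ∏ g : G, g • b = a := by
  obtain ⟨b, hb⟩ := FiniteField.norm_surjective (FixedPoints.subfield G k) k ⟨a, ha⟩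
  have h1 := Algebra.norm_eq_prod_automorphisms (FixedPoints.subfield G k) b
  rw [hb] at h1
  have h2 : algebraMap (FixedPoints.subfield G k) k ⟨a, ha⟩ = a := rfl
  rw [h2] at h1
  have h3 : ∏ g : G, g • b = a := by
    rw [h1]
    exact Fintype.prod_equiv (FixedPoints.toAlgAutMulEquiv G k).toEquiv _ _ fun g => rfl
  refine ⟨b, ?_, h3⟩
  rintro rfl
  apply ha0
  rw [← h3]
  have : Nonempty G := ⟨1⟩
  simp [Finset.prod_const]

omit [Finite k] in
/-- Dedekind independence. -/
theorem lf_ff_dedekind (u : G → k) (hu : ∃ g, u g ≠ 0) : ∃ c : k, ∑ g : G, u g * g • c ≠ 0 := by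
  by_contra hcon
  push Not at hcon
  have hli := linearIndependent_monoidHom k k
  let χ : G → (k →* k) := fun g => (MulSemiringAction.toRingHom G k g : k →* k)
  have hχ : Function.Injective χ := by
    intro g g' hgg
    apply FaithfulSMul.eq_of_smul_eq_smul (α := k)
    intro x
    exact DFunLike.congr_fun hgg x
  have hli' := hli.comp χ hχ
  rw [Fintype.linearIndependent_iff] at hli'
  obtain ⟨g, hg⟩ := hu
  apply hg
  apply hli' u
  funext c
  simpa [χ] using hcon c

omit [Finite k] [Fintype G] [FaithfulSMul G k] in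
theorem lf_ff_fixed_of_gen (σ : G) (hσ : ∀ g, g ∈ Subgroup.zpowers σ) {a : k} (ha : σ • a = a)
    (g : G) : g • a = a := by
  have : Subgroup.zpowers σ ≤ MulAction.stabilizer G a := by
    rw [Subgroup.zpowers_le]
    exact ha
  exact this (hσ g)

/-- Additive Hilbert 90 for a cyclic group acting on a finite field. -/
theorem lf_ff_h90_add (σ : G) (hσ : ∀ g, g ∈ Subgroup.zpowers σ) (a : k)
    (ha : ∑ g : G, g • a = 0) : ∃ b : k, σ • b - b = a := by
  let T : k →+ k := ∑ g : G, DistribSMul.toAddMonoidHom k g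
  let S : k →+ k := DistribSMul.toAddMonoidHom k σ - AddMonoidHom.id k
  have hT : ∀ x, T x = ∑ g : G, g • x := fun x => by simp [T]
  have hS : ∀ x, S x = σ • x - x := fun x => rfl
  have hTS : ∀ x, T (S x) = 0 := by
    intro x
    rw [hT, hS]
    simp only [smul_sub, Finset.sum_sub_distrib]
    rw [sub_eq_zero]
    refine Fintype.sum_equiv (Equiv.mulRight σ) _ _ fun g => ?_
    simp [mul_smul]
  have hrange : T.range = S.ker := by
    ext x
    constructor
    · rintro ⟨y, rfl⟩
      rw [AddMonoidHom.mem_ker, hS, hT, sub_eq_zero, Finset.smul_sum]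
      refine Fintype.sum_equiv (Equiv.mulLeft σ) _ _ fun g => ?_
      simp [mul_smul]
    · intro hx
      rw [AddMonoidHom.mem_ker, hS, sub_eq_zero] at hx
      obtain ⟨b, hb⟩ := lf_ff_trace_surj x (lf_ff_fixed_of_gen σ hσ hx)
      exact ⟨b, by rw [hT, hb]⟩
  have hker := lf_add_ker_eq_range_of_finite T S hTS hrange
  have : a ∈ T.ker := by rw [AddMonoidHom.mem_ker, hT, ha]
  rw [hker] at this
  obtain ⟨b, hb⟩ := this
  exact ⟨b, hb⟩

/-- Multiplicative Hilbert 90 for a cyclic group acting on a finite field. -/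
theorem lf_ff_h90_mul (σ : G) (hσ : ∀ g, g ∈ Subgroup.zpowers σ) (a : k)
    (ha : ∏ g : G, g • a = 1) : ∃ b : k, b ≠ 0 ∧ σ • b / b = a := by
  let φ : G → (kˣ →* kˣ) := fun g => Units.map (MulSemiringAction.toRingHom G k g : k →* k)
  have hφ : ∀ g (x : kˣ), ((φ g x : kˣ) : k) = g • (x : k) := fun g x => rfl
  let T : kˣ →* kˣ := ∏ g : G, φ g
  let S : kˣ →* kˣ := φ σ / MonoidHom.id kˣ
  have hT : ∀ x : kˣ, ((T x : kˣ) : k) = ∏ g : G, g • (x : k) := fun x => by
    simp [T, Units.coe_prod, hφ]
  have hS : ∀ x : kˣ, ((S x : kˣ) : k) = σ • (x : k) / x := fun x => by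
    simp [S, hφ, Units.val_div_eq_div_val]
  have hTS : ∀ x, T (S x) = 1 := by
    intro x
    apply Units.ext
    rw [hT, hS]
    simp only [smul_div₀', Finset.prod_div_distrib, Units.val_one]
    rw [div_eq_one_iff_eq]
    · refine Fintype.prod_equiv (Equiv.mulRight σ) _ _ fun g => ?_
      simp [mul_smul]
    · rw [Finset.prod_ne_zero_iff]
      intro g _
      exact (smul_ne_zero_iff_ne g).mpr x.ne_zero
  have hrange : T.range = S.ker := by
    ext x
    constructor
    · rintro ⟨y, rfl⟩
      rw [MonoidHom.mem_ker]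
      apply Units.ext
      rw [hS, hT, Units.val_one, div_eq_one_iff_eq, Finset.smul_prod']
      · refine Fintype.prod_equiv (Equiv.mulLeft σ) _ _ fun g => ?_
        simp [mul_smul]
      · rw [Finset.prod_ne_zero_iff]
        intro g _
        exact (smul_ne_zero_iff_ne g).mpr y.ne_zero
    · intro hx
      rw [MonoidHom.mem_ker] at hx
      have hx' : σ • (x : k) = x := by
        have := congrArg Units.val hx
        rw [hS, Units.val_one, div_eq_one_iff_eq x.ne_zero] at this
        exact this
      obtain ⟨b, hb0, hb⟩ := lf_ff_norm_surj (x : k) x.ne_zero (lf_ff_fixed_of_gen σ hσ hx')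
      refine ⟨Units.mk0 b hb0, ?_⟩
      apply Units.ext
      rw [hT, Units.val_mk0, hb]
  have hker := lf_ker_eq_range_of_finite T S hTS hrange
  have ha0 : a ≠ 0 := by
    rintro rfl
    have : Nonempty G := ⟨1⟩
    simp [Finset.prod_const] at ha
  have : Units.mk0 a ha0 ∈ T.ker := by
    rw [MonoidHom.mem_ker]
    apply Units.ext
    rw [hT, Units.val_mk0, ha, Units.val_one]
  rw [hker] at this
  obtain ⟨b, hb⟩ := this
  refine ⟨b, b.ne_zero, ?_⟩
  have := congrArg Units.val hb
  rw [hS, Units.val_mk0] at this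
  exact this

/-- The Frobenius element: it generates `G` and acts as `x ↦ x ^ q`, `q` the cardinality of the
fixed field. -/
theorem lf_ff_exists_frobenius :
    ∃ g : G, (∀ x : k, g • x = x ^ Nat.card (FixedPoints.subfield G k)) ∧
      ∀ g' : G, g' ∈ Subgroup.zpowers g := by
  classical
  haveI : Finite (FixedPoints.subfield G k) := Finite.of_injective _ Subtype.val_injective
  letI := Fintype.ofFinite (FixedPoints.subfield G k)
  let e := FixedPoints.toAlgAutMulEquiv G k
  let F := FiniteField.frobeniusAlgEquivOfAlgebraic (FixedPoints.subfield G k) k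
  refine ⟨e.symm F, ?_, ?_⟩
  · intro x
    have h1 : e (e.symm F) x = F x := by rw [MulEquiv.apply_symm_apply]
    have h2 : e (e.symm F) x = (e.symm F) • x := rfl
    rw [← h2, h1, Nat.card_eq_fintype_card]
    rfl
  · intro g'
    obtain ⟨n, hn⟩ := (FiniteField.bijective_frobeniusAlgEquivOfAlgebraic_pow
      (FixedPoints.subfield G k) k).2 (e g')
    rw [Subgroup.mem_zpowers_iff]
    refine ⟨(n : ℕ), ?_⟩
    apply e.injective
    rw [zpow_natCast, map_pow, MulEquiv.apply_symm_apply]
    exact hn

end FiniteField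

end Fermat.Agent.S55
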