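import Fermat.Agent.S14.FirstIneq.Herbrand

/-!
# S55 / local toolkit [L0], part 5: index bookkeeping

* `lf_relIndex_eq_mul`: `[B : A] = [B ∩ ker f : A ∩ ker f] * [f B : f A]` for `A ≤ B`;
* `lf_relIndex_zpowers_pow`: `[⟨a⟩ : ⟨a ^ n⟩] = n` for `a` of infinite order;
* `lf_index_zpowers_ne_zero`: nontrivial subgroups of `Multiplicative ℤ` have finite index.
-/

namespace Fermat.Agent.S55

open Fermat.Agent.S14

section Index

variable {M M' : Type*} [CommGroup M] [CommGroup M']

/-- `[B : A] = [B ∩ ker f : A ∩ ker f] * [f B : f A]` for `A ≤ B`. -/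
theorem lf_relIndex_eq_mul (f : M →* M') (A B : Subgroup M) (hAB : A ≤ B) :
    A.relIndex B = (A ⊓ f.ker).relIndex (B ⊓ f.ker) * (A.map f).relIndex (B.map f) := by
  have key := fi_index_eq_mul (f.comp B.subtype) (A.subgroupOf B)
  have hker : (f.comp B.subtype).ker = f.ker.subgroupOf B := rfl
  have hrange : (f.comp B.subtype).range = B.map f := by
    rw [MonoidHom.range_comp, Subgroup.range_subtype]
  have hmap : (A.subgroupOf B).map (f.comp B.subtype) = A.map f := by
    rw [← Subgroup.map_map, Subgroup.subgroupOf_map_subtype, inf_of_le_left hAB]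
  have hinf : A.subgroupOf B ⊓ f.ker.subgroupOf B = (A ⊓ f.ker).subgroupOf B := rfl
  rw [hker, hrange, hmap, hinf] at key
  have h1 : f.ker.subgroupOf B = (B ⊓ f.ker).subgroupOf B := by
    rw [inf_comm, Subgroup.inf_subgroupOf_right]
  have h2 : (A ⊓ f.ker).subgroupOf B = ((A ⊓ f.ker) ⊓ (B ⊓ f.ker)).subgroupOf B := by
    congr 1
    ext x
    simp only [Subgroup.mem_inf]
    constructor
    · rintro ⟨ha, hk⟩
      exact ⟨⟨ha, hk⟩, hAB ha, hk⟩
    · rintro ⟨h, -⟩
      exact h
  rw [h1, h2, Subgroup.relIndex_subgroupOf inf_le_left, Subgroup.inf_relIndex_right] at key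
  exact key

theorem lf_index_zpowers_ofAdd (n : ℕ) :
    (Subgroup.zpowers (Multiplicative.ofAdd (n : ℤ))).index = n := by
  have h1 : AddSubgroup.toSubgroup (AddSubgroup.zmultiples (n : ℤ))
      = Subgroup.zpowers (Multiplicative.ofAdd (n : ℤ)) := by
    ext x
    rw [Subgroup.mem_zpowers_iff]
    change Multiplicative.toAdd x ∈ AddSubgroup.zmultiples (n : ℤ) ↔ _
    rw [AddSubgroup.mem_zmultiples_iff]
    constructor
    · rintro ⟨k, hk⟩
      exact ⟨k, by rw [← ofAdd_zsmul, hk]; rfl⟩
    · rintro ⟨k, hk⟩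
      exact ⟨k, by rw [← hk, ← ofAdd_zsmul]; rfl⟩
  rw [← h1, AddSubgroup.index_toSubgroup, Int.index_zmultiples]
  simp

/-- `[⟨a⟩ : ⟨a ^ n⟩] = n` for `a` of infinite order. -/
theorem lf_relIndex_zpowers_pow {Z : Type*} [Group Z] (a : Z) (ha : ∀ k : ℤ, a ^ k = 1 → k = 0)
    (n : ℕ) : (Subgroup.zpowers (a ^ n)).relIndex (Subgroup.zpowers a) = n := by
  have hinj : Function.Injective (zpowersHom Z a) := by
    rw [injective_iff_map_eq_one]
    intro x hx
    have := ha (Multiplicative.toAdd x) (by simpa [zpowersHom_apply] using hx)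
    exact Multiplicative.toAdd.injective this
  have h1 : Subgroup.zpowers a = (⊤ : Subgroup (Multiplicative ℤ)).map (zpowersHom Z a) := by
    ext x
    simp only [Subgroup.mem_zpowers_iff, Subgroup.mem_map, Subgroup.mem_top, true_and]
    constructor
    · rintro ⟨k, rfl⟩
      exact ⟨Multiplicative.ofAdd k, by simp [zpowersHom_apply]⟩
    · rintro ⟨y, rfl⟩
      exact ⟨Multiplicative.toAdd y, by simp [zpowersHom_apply]⟩
  have h2 : Subgroup.zpowers (a ^ n)
      = (Subgroup.zpowers (Multiplicative.ofAdd (n : ℤ))).map (zpowersHom Z a) := by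
    rw [MonoidHom.map_zpowers]
    congr 1
    simp [zpowersHom_apply]
  rw [h1, h2, Subgroup.relIndex_map_map_of_injective _ _ hinj, Subgroup.relIndex_top_right,
    lf_index_zpowers_ofAdd]

theorem lf_index_zpowers_ne_zero (a : Multiplicative ℤ) (ha : a ≠ 1) :
    (Subgroup.zpowers a).index ≠ 0 := by
  have h1 : a = Multiplicative.ofAdd (Multiplicative.toAdd a) := rfl
  have h2 : Subgroup.zpowers a
      = Subgroup.zpowers (Multiplicative.ofAdd (((Multiplicative.toAdd a).natAbs : ℕ) : ℤ)) := by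
    rcases Int.natAbs_eq (Multiplicative.toAdd a) with h | h
    · rw [← h]; rfl
    · have : Multiplicative.ofAdd (((Multiplicative.toAdd a).natAbs : ℕ) : ℤ) = a⁻¹ := by
        rw [h1, ← ofAdd_neg]
        congr 1
        simp only [toAdd_ofAdd]
        omega
      rw [this, Subgroup.zpowers_inv]
  rw [h2, lf_index_zpowers_ofAdd]
  intro h0
  apply ha
  rw [h1, Int.natAbs_eq_zero.mp h0]
  rfl

end Index

end Fermat.Agent.S55
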