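import Fermat.Agent.S55.Local.Basic

/-!
# S55 / local toolkit [L0], part 7: a Galois-stable lattice with bounded coordinates

`lf_exists_lattice_basis`: in the abstract local setting there are `θ ∈ O_L`, `t ∈ E` with
`0 < v t < 1` and `c : ℕ` such that the conjugates `τ θ` form an `E`-basis of `L` and the
coordinates `a τ` of any `x ∈ O_L` satisfy `t ^ c * a τ ∈ O_E`.  (Normal basis theorem + trace-dual
basis.)  Hence `M := ⊕ O_E · τθ` satisfies `t ^ c • O_L ⊆ M ⊆ O_L`.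
-/

namespace Fermat.Agent.S55

open WithZero Finset Module

section Scale

variable {L : Type} [Field L] {v : Valuation L ℤᵐ⁰}

/-- Any element can be scaled into the valuation ring by a power of `t`, `v t < 1`. -/
theorem lf_exists_pow_mul_le_one {t : L} (ht0 : t ≠ 0) (ht1 : v t < 1) (y : L) :
    ∃ k : ℕ, ∀ k' : ℕ, k ≤ k' → v t ^ k' * v y ≤ 1 := by
  rcases eq_or_ne y 0 with rfl | hy
  · exact ⟨0, fun k' _ => by simp⟩
  have hvt0 : v t ≠ 0 := (v.ne_zero_iff).mpr ht0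
  have hvy0 : v y ≠ 0 := (v.ne_zero_iff).mpr hy
  have hlt : log (v t) < 0 := by
    rw [log_lt_iff_lt_exp hvt0, exp_zero]
    exact ht1
  refine ⟨(log (v y)).toNat, fun k' hk' => ?_⟩
  rw [← exp_log hvt0, ← exp_log hvy0, ← exp_nsmul, ← exp_add, ← exp_zero, exp_le_exp]
  have h1 : log (v y) ≤ (k' : ℤ) := (Int.self_le_toNat _).trans (by exact_mod_cast hk')
  have h2 : (k' : ℤ) * log (v t) ≤ (k' : ℤ) * (-1) :=
    mul_le_mul_of_nonneg_left (by omega) (by positivity)
  rw [nsmul_eq_mul]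
  linarith

theorem lf_exists_pow_mul_le_one_finite {ι : Type*} [Finite ι] {t : L} (ht0 : t ≠ 0)
    (ht1 : v t < 1) (y : ι → L) : ∃ k : ℕ, ∀ i, v t ^ k * v (y i) ≤ 1 := by
  classical
  cases nonempty_fintype ι
  choose k hk using fun i => lf_exists_pow_mul_le_one ht0 ht1 (y i)
  refine ⟨Finset.univ.sup k, fun i => hk i _ (Finset.le_sup (Finset.mem_univ i))⟩

end Scale

section Lattice

variable {E L : Type} [Field E] [Field L] [Algebra E L] [FiniteDimensional E L] [IsGalois E L]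
  {v : Valuation L ℤᵐ⁰}

/-- Coordinates with respect to the normal basis are traces against the dual basis. -/
theorem lf_normalBasis_repr :
    ∃ b' : (L ≃ₐ[E] L) → L, ∀ (x : L) (τ : L ≃ₐ[E] L),
      (IsGalois.normalBasis E L).repr x τ = Algebra.trace E L (x * b' τ) := by
  classical
  refine ⟨(Algebra.traceForm E L).dualBasis (traceForm_nondegenerate E L)
    (IsGalois.normalBasis E L), fun x τ => ?_⟩
  have h1 := LinearMap.BilinForm.dualBasis_repr_apply (traceForm_nondegenerate E L)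
    ((Algebra.traceForm E L).dualBasis (traceForm_nondegenerate E L) (IsGalois.normalBasis E L))
    x τ
  rw [LinearMap.BilinForm.dualBasis_dualBasis _ (Algebra.traceForm_isSymm E)] at h1
  rw [h1, Algebra.traceForm_apply]

/-- A Galois-stable lattice with bounded coordinates. -/
theorem lf_exists_lattice_basis (h : lf_IsLocal E L v) :
    ∃ (θ : L) (t : E) (c : ℕ), t ≠ 0 ∧ v (algebraMap E L t) < 1 ∧ v θ ≤ 1 ∧
      (∀ x : L, ∃ a : (L ≃ₐ[E] L) → E, x = ∑ τ, algebraMap E L (a τ) * τ θ) ∧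
      (∀ a : (L ≃ₐ[E] L) → E, ∑ τ, algebraMap E L (a τ) * τ θ = 0 → a = 0) ∧
      (∀ a : (L ≃ₐ[E] L) → E, v (∑ τ, algebraMap E L (a τ) * τ θ) ≤ 1 →
        ∀ τ, v (algebraMap E L (t ^ c * a τ)) ≤ 1) := by
  classical
  -- the element `t`
  obtain ⟨ϖ, hϖ⟩ := h.unif
  have hϖ0 : ϖ ≠ 0 := by
    rintro rfl
    rw [map_zero] at hϖ
    exact exp_ne_zero hϖ.symm
  obtain ⟨t, ht⟩ : ∃ t : E, t = Algebra.norm E ϖ := ⟨_, rfl⟩
  have ht0 : t ≠ 0 := by
    rw [ht]
    exact Algebra.norm_ne_zero_iff.mpr hϖ0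
  obtain ⟨tL, htL⟩ : ∃ tL : L, tL = algebraMap E L t := ⟨_, rfl⟩
  have htL0 : tL ≠ 0 := by
    rw [htL]
    exact (map_ne_zero _).mpr ht0
  have hvt1 : v tL < 1 := by
    rw [htL, ht, lf_v_norm h, hϖ, ← exp_nsmul, ← exp_zero, exp_lt_exp]
    have : 0 < Module.finrank E L := Module.finrank_pos
    simp
    omega
  have hvt0 : v tL ≠ 0 := (v.ne_zero_iff).mpr htL0
  -- the normal basis and its dual
  set b := IsGalois.normalBasis E L with hb
  obtain ⟨b', hb'⟩ := lf_normalBasis_repr (E := E) (L := L)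
  set θ0 : L := b 1 with hθ0
  have hbτ : ∀ τ : L ≃ₐ[E] L, b τ = τ θ0 := fun τ => IsGalois.normalBasis_apply τ
  obtain ⟨k0, hk0⟩ := lf_exists_pow_mul_le_one htL0 hvt1 θ0
  obtain ⟨c1, hc1⟩ := lf_exists_pow_mul_le_one_finite htL0 hvt1 (fun τ : L ≃ₐ[E] L => b' τ)
  have hτθ : ∀ τ : L ≃ₐ[E] L, τ (tL ^ k0 * θ0) = tL ^ k0 * b τ := fun τ => by
    rw [map_mul, map_pow, htL, AlgEquiv.commutes, hbτ]
  have hsum : ∀ a : (L ≃ₐ[E] L) → E, ∑ τ, algebraMap E L (a τ) * τ (tL ^ k0 * θ0)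
      = ∑ τ, (a τ * t ^ k0) • b τ := by
    intro a
    refine Finset.sum_congr rfl fun τ _ => ?_
    rw [hτθ, Algebra.smul_def, map_mul, map_pow, ← htL]
    ring
  rw [htL] at hvt1
  refine ⟨tL ^ k0 * θ0, t, k0 + c1, ht0, hvt1, ?_, ?_, ?_, ?_⟩
  · rw [map_mul, map_pow]
    exact hk0 k0 le_rfl
  · intro x
    refine ⟨fun τ => b.repr x τ / t ^ k0, ?_⟩
    rw [hsum]
    conv_lhs => rw [← b.sum_repr x]
    refine Finset.sum_congr rfl fun τ _ => ?_
    rw [div_mul_cancel₀ _ (pow_ne_zero _ ht0)]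
  · intro a ha
    rw [hsum] at ha
    funext τ
    have h2 : (b.repr (∑ τ, (a τ * t ^ k0) • b τ)) τ = 0 := by
      rw [ha]
      simp
    rw [Basis.repr_sum_self] at h2
    rcases mul_eq_zero.mp h2 with h3 | h3
    · exact h3
    · exact absurd h3 (pow_ne_zero _ ht0)
  · intro a hx τ
    set x := ∑ τ, algebraMap E L (a τ) * τ (tL ^ k0 * θ0) with hxdef
    have hrepr : b.repr x τ = a τ * t ^ k0 := by
      rw [hxdef, hsum, Basis.repr_sum_self]
    have hcoord : v (algebraMap E L (a τ * t ^ k0)) ≤ v (b' τ) := by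
      rw [← hrepr, hb, hb' x τ]
      refine (lf_v_trace_le h _).trans ?_
      rw [map_mul]
      exact mul_le_of_le_one_left' hx
    have : algebraMap E L (t ^ (k0 + c1) * a τ) = tL ^ c1 * algebraMap E L (a τ * t ^ k0) := by
      rw [htL, ← map_pow, ← map_mul]
      congr 1
      ring
    rw [this, map_mul, map_pow]
    refine le_trans ?_ (hc1 τ)
    gcongr

end Lattice

end Fermat.Agent.S55
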