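import Fermat.Agent.S55.Local.Unramified
import Fermat.Agent.S55.Local.Index

/-!
# S55 / local toolkit [L0], part 6 (T1): the local norm index, bookkeeping half

`lf_norm_index_of_lattice`: for a cyclic `L/E` in the abstract local setting, the existence of an
open Galois-stable subgroup `V` of the units with trivial `Ĥ⁰` and `Ĥ⁻¹` implies
`[Eˣ : N Lˣ] = [L : E]` (Herbrand quotient computation + Hilbert 90).
-/

namespace Fermat.Agent.S55

open WithZero Finset Fermat.Agent.S14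

section FiniteIndex

variable {E L : Type} [Field E] [Field L] [Algebra E L] {v : Valuation L ℤᵐ⁰}

theorem lf_U_succ_relIndex_ne_zero (h : lf_IsLocal E L v) (i : ℕ) :
    (lf_U v (i + 1)).relIndex (lf_U v i) ≠ 0 := by
  obtain ⟨π, hπ⟩ := h.unif
  obtain ⟨S, hS⟩ := h.finite_res
  set t : L := π ^ i with ht
  have hvt : v t = exp (-(i : ℤ)) := by
    rw [ht, map_pow, hπ, ← exp_nsmul]
    simp
  have ht0 : t ≠ 0 := by
    intro h0
    rw [h0, map_zero] at hvt
    exact exp_ne_zero hvt.symm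
  have ha : ∀ u : lf_U v i, v ((((u : Lˣ) : L) - 1) / t) ≤ 1 := fun u => by
    rw [map_div₀, hvt]
    exact div_le_one_of_le₀ u.2.2 zero_le
  let φ : lf_U v i → {s : L // s ∈ S} := fun u =>
    ⟨(hS _ (ha u)).choose, (hS _ (ha u)).choose_spec.1⟩
  have hφ : ∀ u : lf_U v i, v ((((u : Lˣ) : L) - 1) / t - (φ u : L)) < 1 := fun u =>
    (hS _ (ha u)).choose_spec.2
  refine (fi_relIndex_le_card (lf_U v (i + 1)) (lf_U v i) φ ?_).1
  intro a b hab
  have hdiv : (a : Lˣ)⁻¹ * (b : Lˣ) = (b : Lˣ) / (a : Lˣ) := by rw [div_eq_mul_inv, mul_comm]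
  rw [hdiv]
  apply lf_div_mem_U v b.2.1 a.2.1
  rw [← lf_lt_exp_neg_iff, ← hvt]
  have h1 := hφ a
  have h2 := hφ b
  rw [hab] at h1
  have h3 : v ((((b : Lˣ) : L) - 1) / t - (((a : Lˣ) : L) - 1) / t) < 1 := by
    have : (((b : Lˣ) : L) - 1) / t - (((a : Lˣ) : L) - 1) / t
        = ((((b : Lˣ) : L) - 1) / t - (φ b : L)) - ((((a : Lˣ) : L) - 1) / t - (φ b : L)) := by
      ring
    rw [this]
    exact Valuation.map_sub_lt v h2 h1
  have h4 : ((b : Lˣ) : L) - (a : Lˣ)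
      = t * ((((b : Lˣ) : L) - 1) / t - (((a : Lˣ) : L) - 1) / t) := by
    field_simp
    ring
  rw [h4, map_mul]
  exact mul_lt_of_lt_one_right (zero_lt_iff.mpr ((v.ne_zero_iff).mpr ht0)) h3

/-- The higher unit groups have finite index in the units. -/
theorem lf_U_relIndex_ne_zero (h : lf_IsLocal E L v) (m : ℕ) :
    (lf_U v m).relIndex (lf_U v 0) ≠ 0 := by
  induction m with
  | zero =>
    rw [Subgroup.relIndex_self]
    exact one_ne_zero
  | succ m ih => exact Subgroup.relIndex_ne_zero_trans (lf_U_succ_relIndex_ne_zero h m) ih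

end FiniteIndex

section Ord

variable {L : Type} [Field L] (v : Valuation L ℤᵐ⁰)

/-- The valuation on units, with values in `Multiplicative ℤ`. -/
noncomputable def lf_ord : Lˣ →* Multiplicative ℤ :=
  (WithZero.unitsWithZeroEquiv : (ℤᵐ⁰)ˣ ≃* Multiplicative ℤ).toMonoidHom.comp
    (Units.map (v : L →* ℤᵐ⁰))

theorem lf_ord_coe (u : Lˣ) : ((lf_ord v u : Multiplicative ℤ) : ℤᵐ⁰) = v (u : L) := by
  simp [lf_ord]

theorem lf_ord_eq_one_iff (u : Lˣ) : lf_ord v u = 1 ↔ v (u : L) = 1 := by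
  rw [← lf_ord_coe]
  constructor
  · intro h
    rw [h]
    rfl
  · intro h
    exact WithZero.coe_injective h

theorem lf_ord_ker : (lf_ord v).ker = lf_U v 0 := by
  ext u
  rw [MonoidHom.mem_ker, lf_ord_eq_one_iff, lf_mem_U_zero]

end Ord

section Main

variable {E L : Type} [Field E] [Field L] [Algebra E L] [FiniteDimensional E L] [IsGalois E L]
  {v : Valuation L ℤᵐ⁰}

/-- Hilbert 90 in the `lf_` language. -/
theorem lf_hilbert90 (σ : L ≃ₐ[E] L) (hσ : ∀ τ, τ ∈ Subgroup.zpowers σ) :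
    (lf_N E).ker ≤ (lf_D σ).range := by
  intro x hx
  rw [MonoidHom.mem_ker] at hx
  have : IsCyclic (L ≃ₐ[E] L) := ⟨σ, fun τ => Subgroup.mem_zpowers_iff.mp (hσ τ)⟩
  have hnorm : Algebra.norm E (x : L) = 1 := by
    apply (algebraMap E L).injective
    rw [← lf_N_coe, hx, Units.val_one, map_one]
  obtain ⟨y, hy⟩ := groupCohomology.exists_div_of_norm_eq_one hσ hnorm
  refine ⟨y⁻¹, ?_⟩
  apply Units.ext
  rw [lf_D_coe, ← hy]
  simp only [Units.val_inv_eq_inv_val, map_inv₀]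
  rw [inv_div_inv]

theorem lf_ord_N (h : lf_IsLocal E L v) (x : Lˣ) :
    lf_ord v (lf_N E x) = lf_ord v x ^ Module.finrank E L := by
  apply WithZero.coe_injective
  rw [WithZero.coe_pow, lf_ord_coe, lf_ord_coe, lf_N_coe, lf_v_norm h]

omit [FiniteDimensional E L] [IsGalois E L] in
theorem lf_ord_D (h : lf_IsLocal E L v) (σ : L ≃ₐ[E] L) (x : Lˣ) :
    lf_ord v (lf_D σ x) = 1 := by
  rw [lf_ord_eq_one_iff, lf_D_coe, map_div₀, h.inv, div_self]
  exact (v.ne_zero_iff).mpr x.ne_zero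

/-- (T1), bookkeeping half: an open Galois-stable subgroup of the units with trivial `Ĥ⁰` and
`Ĥ⁻¹` forces `[Eˣ : N Lˣ] = [L : E]` for cyclic `L/E`. -/
theorem lf_norm_index_of_lattice (h : lf_IsLocal E L v) (σ : L ≃ₐ[E] L)
    (hσ : ∀ τ, τ ∈ Subgroup.zpowers σ)
    (hV : ∃ V : Subgroup Lˣ, V ≤ lf_U v 1 ∧ (∃ m, lf_U v m ≤ V) ∧
      (∀ σ : L ≃ₐ[E] L, ∀ u ∈ V, lf_act σ u ∈ V) ∧
      (∀ u ∈ V, (∀ σ : L ≃ₐ[E] L, lf_act σ u = u) → ∃ w ∈ V, lf_N E w = u) ∧
      (∀ σ : L ≃ₐ[E] L, (∀ τ, τ ∈ Subgroup.zpowers σ) → ∀ u ∈ V, lf_N E u = 1 →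
        ∃ w ∈ V, lf_D σ w = u)) :
    (lf_N E).range.relIndex (lf_D σ).ker = Module.finrank E L := by
  obtain ⟨V, hV1, ⟨m, hm⟩, hVst, hH0, hH1⟩ := hV
  specialize hH1 σ hσ
  set n := Module.finrank E L with hn
  have hnpos : 0 < n := Module.finrank_pos
  -- an element of `Eˣ` of nontrivial valuation
  obtain ⟨ϖ, hϖ⟩ := h.unif
  have hϖ0 : ϖ ≠ 0 := by
    rintro rfl
    rw [map_zero] at hϖ
    exact exp_ne_zero hϖ.symm
  set tU : Lˣ := lf_N E (Units.mk0 ϖ hϖ0) with htU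
  set a : Multiplicative ℤ := lf_ord v tU with ha_def
  have ha1 : a ≠ 1 := by
    intro h1
    rw [ha_def, htU, lf_ord_eq_one_iff, lf_N_coe, lf_v_norm h, Units.val_mk0, hϖ, ← exp_nsmul,
      exp_eq_one] at h1
    simp at h1
    omega
  have ha : ∀ k : ℤ, a ^ k = 1 → k = 0 := by
    intro k hk
    have h1 : k • Multiplicative.toAdd a = 0 := by
      have := congrArg Multiplicative.toAdd hk
      simpa using this
    rcases smul_eq_zero.mp h1 with h2 | h2
    · exact h2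
    · exact absurd (Multiplicative.toAdd.injective h2) ha1
  have hDt : lf_D σ tU = 1 := lf_D_N σ _
  have hNt : lf_N E tU = tU ^ n := by
    apply Units.ext
    rw [lf_N_coe, htU, lf_N_coe, Algebra.norm_algebraMap, Units.val_pow_eq_pow_val, lf_N_coe,
      map_pow]
  have hVU : V ≤ lf_U v 0 := hV1.trans (lf_U_anti v (Nat.zero_le 1))
  have hordV : ∀ w ∈ V, lf_ord v w = 1 := fun w hw =>
    (lf_ord_eq_one_iff v w).mpr ((lf_mem_U_zero v).mp (hVU hw))
  have hNV : ∀ w ∈ V, lf_N E w ∈ V := fun w hw => by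
    rw [lf_N_apply]
    exact Subgroup.prod_mem _ fun τ _ => hVst τ w hw
  have hDV : ∀ w ∈ V, lf_D σ w ∈ V := fun w hw => by
    rw [lf_D_apply]
    exact V.div_mem (hVst σ w hw) hw
  set A : Subgroup Lˣ := V ⊔ Subgroup.zpowers tU with hA
  have hVA : V ≤ A := le_sup_left
  have htA : tU ∈ A := (le_sup_right : Subgroup.zpowers tU ≤ A) (Subgroup.mem_zpowers tU)
  have memA : ∀ x ∈ A, ∃ w ∈ V, ∃ k : ℤ, x = w * tU ^ k := by
    intro x hx
    obtain ⟨w, hw, z, hz, rfl⟩ := Subgroup.mem_sup.mp hx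
    obtain ⟨k, rfl⟩ := Subgroup.mem_zpowers_iff.mp hz
    exact ⟨w, hw, k, rfl⟩
  have hord_wt : ∀ w ∈ V, ∀ k : ℤ, lf_ord v (w * tU ^ k) = a ^ k := fun w hw k => by
    rw [map_mul, hordV w hw, one_mul, map_zpow]
  -- stability
  have hAN : A.map (lf_N E) ≤ A := by
    rintro _ ⟨x, hx, rfl⟩
    obtain ⟨w, hw, k, rfl⟩ := memA x hx
    rw [map_mul, map_zpow, hNt]
    exact A.mul_mem (hVA (hNV w hw)) (A.zpow_mem (A.pow_mem htA n) k)
  have hAD : A.map (lf_D σ) ≤ A := by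
    rintro _ ⟨x, hx, rfl⟩
    obtain ⟨w, hw, k, rfl⟩ := memA x hx
    rw [map_mul, map_zpow, hDt, one_zpow, mul_one]
    exact hVA (hDV w hw)
  -- finite index
  have hAidx : A.index ≠ 0 := by
    rw [fi_index_eq_mul (lf_ord v) A]
    apply mul_ne_zero
    · rw [lf_ord_ker]
      have hle : lf_U v m ≤ A ⊓ lf_U v 0 :=
        le_inf (hm.trans hVA) (lf_U_anti v (Nat.zero_le m))
      exact ne_zero_of_dvd_ne_zero (lf_U_relIndex_ne_zero h m)
        (Subgroup.relIndex_dvd_of_le_left _ hle)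
    · have hle : Subgroup.zpowers a ≤ A.map (lf_ord v) := by
        rw [Subgroup.zpowers_le]
        exact ⟨tU, htA, rfl⟩
      refine ne_zero_of_dvd_ne_zero ?_ (Subgroup.relIndex_dvd_of_le_left _ hle)
      exact ne_zero_of_dvd_ne_zero (lf_index_zpowers_ne_zero a ha1)
        (Subgroup.relIndex_dvd_index_of_normal _ _)
  -- the two local computations
  have h3 : (A.map (lf_D σ)).relIndex ((lf_N E).ker ⊓ A) = 1 := by
    rw [Subgroup.relIndex_eq_one]
    intro x hx
    obtain ⟨hxN, hxA⟩ := Subgroup.mem_inf.mp hx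
    rw [MonoidHom.mem_ker] at hxN
    obtain ⟨w, hw, k, rfl⟩ := memA x hxA
    have h1 : (a ^ k) ^ n = 1 := by
      rw [← hord_wt w hw k, ← lf_ord_N h, hxN, map_one]
    have hk : k = 0 := by
      have := ha (k * n) (by rw [zpow_mul, zpow_natCast]; exact h1)
      rcases mul_eq_zero.mp this with h2 | h2
      · exact h2
      · omega
    subst hk
    rw [zpow_zero, mul_one] at hxN ⊢
    obtain ⟨w', hw', hw'D⟩ := hH1 w hw hxN
    exact ⟨w', hVA hw', hw'D⟩
  have h4 : (A.map (lf_N E)).relIndex ((lf_D σ).ker ⊓ A) = n := by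
    have hAB : A.map (lf_N E) ≤ (lf_D σ).ker ⊓ A := by
      refine le_inf ?_ hAN
      rintro _ ⟨x, -, rfl⟩
      exact lf_D_N σ x
    rw [lf_relIndex_eq_mul (lf_ord v) _ _ hAB]
    have hfirst : (A.map (lf_N E) ⊓ (lf_ord v).ker).relIndex
        (((lf_D σ).ker ⊓ A) ⊓ (lf_ord v).ker) = 1 := by
      rw [Subgroup.relIndex_eq_one]
      intro x hx
      obtain ⟨hx1, hxU⟩ := Subgroup.mem_inf.mp hx
      obtain ⟨hxD, hxA⟩ := Subgroup.mem_inf.mp hx1
      refine Subgroup.mem_inf.mpr ⟨?_, hxU⟩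
      rw [MonoidHom.mem_ker] at hxD hxU
      obtain ⟨w, hw, k, rfl⟩ := memA x hxA
      have hk : k = 0 := ha k (by rw [← hord_wt w hw k]; exact hxU)
      subst hk
      rw [zpow_zero, mul_one] at hxD ⊢
      have hσw : σ (w : L) = w := by
        have := congrArg Units.val hxD
        rw [lf_D_coe, Units.val_one, div_eq_one_iff_eq w.ne_zero] at this
        exact this
      have hfix : ∀ τ : L ≃ₐ[E] L, lf_act τ w = w := fun τ =>
        Units.ext (lf_fixed_of_gen σ hσ hσw τ)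
      obtain ⟨w', hw', hw'N⟩ := hH0 w hw hfix
      exact ⟨w', hVA hw', hw'N⟩
    have himB : ((lf_D σ).ker ⊓ A).map (lf_ord v) = Subgroup.zpowers a := by
      apply le_antisymm
      · rintro _ ⟨x, ⟨-, hxA⟩, rfl⟩
        obtain ⟨w, hw, k, rfl⟩ := memA x hxA
        rw [hord_wt w hw k]
        exact Subgroup.zpow_mem_zpowers a k
      · rw [Subgroup.zpowers_le]
        exact ⟨tU, ⟨hDt, htA⟩, rfl⟩
    have himA : (A.map (lf_N E)).map (lf_ord v) = Subgroup.zpowers (a ^ n) := by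
      apply le_antisymm
      · rintro _ ⟨_, ⟨x, hxA, rfl⟩, rfl⟩
        obtain ⟨w, hw, k, rfl⟩ := memA x hxA
        rw [lf_ord_N h, hord_wt w hw k]
        have : (a ^ k) ^ n = (a ^ n) ^ k := by
          rw [← zpow_natCast, ← zpow_mul, mul_comm, zpow_mul, zpow_natCast]
        rw [← hn, this]
        exact Subgroup.zpow_mem_zpowers _ k
      · rw [Subgroup.zpowers_le]
        exact ⟨lf_N E tU, ⟨tU, htA, rfl⟩, lf_ord_N h tU⟩
    rw [hfirst, one_mul, himA, himB, lf_relIndex_zpowers_pow a ha n]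
  have h5 : (lf_D σ).range.relIndex (lf_N E).ker = 1 := by
    rw [Subgroup.relIndex_eq_one]
    exact lf_hilbert90 σ hσ
  have key := (fi_herbrand_subgroup (lf_D σ) (lf_N E) (lf_D_N σ) (lf_N_D σ) A hAidx hAD hAN).1
  rw [h3, h4, h5, mul_one, mul_one] at key
  exact key

/-- The embedding `Eˣ → Lˣ`. -/
def lf_incl (E L : Type) [Field E] [Field L] [Algebra E L] : Eˣ →* Lˣ :=
  Units.map (algebraMap E L : E →* L)

omit [FiniteDimensional E L] [IsGalois E L] in
theorem lf_incl_coe (x : Eˣ) : ((lf_incl E L x : Lˣ) : L) = algebraMap E L (x : E) := rfl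

omit [FiniteDimensional E L] [IsGalois E L] in
theorem lf_incl_injective : Function.Injective (lf_incl E L) := by
  intro x y hxy
  apply Units.ext
  apply (algebraMap E L).injective
  rw [← lf_incl_coe, ← lf_incl_coe, hxy]

theorem lf_incl_range (σ : L ≃ₐ[E] L) (hσ : ∀ τ, τ ∈ Subgroup.zpowers σ) :
    (lf_incl E L).range = (lf_D σ).ker := by
  ext x
  rw [MonoidHom.mem_ker]
  constructor
  · rintro ⟨y, rfl⟩
    apply Units.ext
    rw [lf_D_coe, lf_incl_coe, AlgEquiv.commutes, div_self, Units.val_one]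
    exact (map_ne_zero _).mpr y.ne_zero
  · intro hx
    have hσx : σ (x : L) = x := by
      have := congrArg Units.val hx
      rw [lf_D_coe, Units.val_one, div_eq_one_iff_eq x.ne_zero] at this
      exact this
    have hfix : ∀ τ : L ≃ₐ[E] L, τ (x : L) = x := lf_fixed_of_gen σ hσ hσx
    obtain ⟨y, hy⟩ := (IsGalois.mem_range_algebraMap_iff_fixed (F := E) (x : L)).mpr hfix
    have hy0 : y ≠ 0 := by
      rintro rfl
      rw [map_zero] at hy
      exact x.ne_zero hy.symm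
    exact ⟨Units.mk0 y hy0, Units.ext hy⟩

theorem lf_incl_map_norm_range :
    (MonoidHom.range (Units.map (Algebra.norm E : L →* E))).map (lf_incl E L)
      = (lf_N E).range := by
  ext x
  constructor
  · rintro ⟨_, ⟨u, rfl⟩, rfl⟩
    refine ⟨u, ?_⟩
    apply Units.ext
    rw [lf_N_coe, lf_incl_coe]
    rfl
  · rintro ⟨u, rfl⟩
    refine ⟨_, ⟨u, rfl⟩, ?_⟩
    apply Units.ext
    rw [lf_N_coe, lf_incl_coe]
    rfl

/-- Passing from the `Lˣ`-form to the `Eˣ`-form of the norm index. -/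
theorem lf_norm_index_Eform (σ : L ≃ₐ[E] L) (hσ : ∀ τ, τ ∈ Subgroup.zpowers σ) :
    (MonoidHom.range (Units.map (Algebra.norm E : L →* E))).index
      = (lf_N E).range.relIndex (lf_D σ).ker := by
  rw [← lf_incl_range σ hσ, ← lf_incl_map_norm_range, MonoidHom.range_eq_map (lf_incl E L),
    Subgroup.relIndex_map_map_of_injective _ _ lf_incl_injective, Subgroup.relIndex_top_right]

end Main

end Fermat.Agent.S55
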