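import Fermat.Agent.S55.Local.Basic
import Fermat.Agent.S55.Local.FiniteFieldCyclic

/-!
# S55 / local toolkit [L0], part 3: the residue field of an unramified extension

For `lf_IsLocal E L v` with trivial inertia, the group `Gal(L/E)` acts faithfully on the (finite)
residue field of `v`.  We export the finite field facts of `FiniteFieldCyclic.lean` as statements
about congruences modulo the maximal ideal ("lifted" forms), so that no residue field type is
visible to the consumers.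
-/

set_option linter.style.haveILetI false

namespace Fermat.Agent.S55

open WithZero Finset IsLocalRing

section Residue

variable {E L : Type} [Field E] [Field L] [Algebra E L] {v : Valuation L ℤᵐ⁰}

/-- The action of `Gal(L/E)` on the valuation ring. -/
@[reducible] noncomputable def lf_actionO (h : lf_IsLocal E L v) :
    MulSemiringAction (L ≃ₐ[E] L) v.valuationSubring where
  smul σ x := ⟨σ x, by
    rw [Valuation.mem_valuationSubring_iff, h.inv]
    exact (Valuation.mem_valuationSubring_iff _ _).mp x.2⟩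
  one_smul x := Subtype.ext rfl
  mul_smul σ τ x := Subtype.ext rfl
  smul_zero σ := Subtype.ext (map_zero σ)
  smul_add σ x y := Subtype.ext (map_add σ _ _)
  smul_one σ := Subtype.ext (map_one σ)
  smul_mul σ x y := Subtype.ext (map_mul σ _ _)

/-- The residue class of an integral element. -/
noncomputable def lf_res (v : Valuation L ℤᵐ⁰) (x : L) (hx : v x ≤ 1) :
    ResidueField v.valuationSubring :=
  residue v.valuationSubring ⟨x, hx⟩

theorem lf_res_eq_iff {x y : L} (hx : v x ≤ 1) (hy : v y ≤ 1) :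
    lf_res v x hx = lf_res v y hy ↔ v (x - y) < 1 := by
  rw [lf_res, lf_res, ← sub_eq_zero, ← map_sub, residue_eq_zero_iff,
    Valuation.mem_maximalIdeal_iff]
  rfl

theorem lf_res_eq_zero_iff {x : L} (hx : v x ≤ 1) : lf_res v x hx = 0 ↔ v x < 1 := by
  rw [lf_res, residue_eq_zero_iff, Valuation.mem_maximalIdeal_iff]

theorem lf_res_surj (a : ResidueField v.valuationSubring) :
    ∃ (x : L) (hx : v x ≤ 1), lf_res v x hx = a := by
  obtain ⟨⟨x, hx⟩, rfl⟩ := residue_surjective a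
  exact ⟨x, hx, rfl⟩

theorem lf_res_finite (h : lf_IsLocal E L v) : Finite (ResidueField v.valuationSubring) := by
  obtain ⟨S, hS⟩ := h.finite_res
  classical
  let f : {s : L // s ∈ S} → ResidueField v.valuationSubring := fun s =>
    if hs : v (s : L) ≤ 1 then lf_res v s hs else 0
  have hf : Function.Surjective f := by
    intro a
    obtain ⟨x, hx, rfl⟩ := lf_res_surj a
    obtain ⟨s, hsS, hs⟩ := hS x hx
    have hs1 : v s ≤ 1 := by
      have : s = x - (x - s) := by ring
      rw [this]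
      exact v.map_sub_le hx hs.le
    refine ⟨⟨s, hsS⟩, ?_⟩
    simp only [f, dif_pos hs1]
    rw [lf_res_eq_iff, Valuation.map_sub_swap]
    exact hs
  exact Finite.of_surjective f hf

theorem lf_res_smul (h : lf_IsLocal E L v) (σ : L ≃ₐ[E] L) {x : L} (hx : v x ≤ 1) :
    letI := lf_actionO h
    σ • lf_res v x hx = lf_res v (σ x) (by rw [h.inv]; exact hx) := by
  letI := lf_actionO h
  rw [lf_res, ← ResidueField.residue_smul]
  rfl

/-- Trivial inertia: the action on the residue field is faithful. -/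
theorem lf_res_faithful (h : lf_IsLocal E L v)
    (hur : ∀ τ : L ≃ₐ[E] L, (∀ x, v x ≤ 1 → v (τ x - x) < 1) → τ = 1) :
    letI := lf_actionO h
    FaithfulSMul (L ≃ₐ[E] L) (ResidueField v.valuationSubring) := by
  letI := lf_actionO h
  refine ⟨fun {g g'} hgg => ?_⟩
  have : g'⁻¹ * g = 1 := by
    apply hur
    intro x hx
    have h1 := hgg (lf_res v x hx)
    have h2 : (g'⁻¹ * g) • lf_res v x hx = lf_res v x hx := by
      rw [mul_smul, h1, inv_smul_smul]
    rw [lf_res_smul h] at h2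
    exact (lf_res_eq_iff _ _).mp h2
  exact (inv_mul_eq_one.mp this).symm

end Residue

section Lifted

variable {E L : Type} [Field E] [Field L] [Algebra E L] [FiniteDimensional E L]
  {v : Valuation L ℤᵐ⁰}

theorem lf_v_sum_le_one {ι : Type*} (s : Finset ι) (f : ι → L) (hf : ∀ i ∈ s, v (f i) ≤ 1) :
    v (∑ i ∈ s, f i) ≤ 1 := Valuation.map_sum_le v hf

theorem lf_v_prod_le_one {ι : Type*} (s : Finset ι) (f : ι → L) (hf : ∀ i ∈ s, v (f i) ≤ 1) :
    v (∏ i ∈ s, f i) ≤ 1 := by
  rw [map_prod]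
  exact Finset.prod_le_one' hf

theorem lf_res_sum {ι : Type*} (s : Finset ι) (f : ι → L) (hf : ∀ i, v (f i) ≤ 1) :
    lf_res v (∑ i ∈ s, f i) (lf_v_sum_le_one s f fun i _ => hf i)
      = ∑ i ∈ s, lf_res v (f i) (hf i) := by
  simp only [lf_res]
  rw [← map_sum]
  congr 1
  apply Subtype.ext
  simp

theorem lf_res_prod {ι : Type*} (s : Finset ι) (f : ι → L) (hf : ∀ i, v (f i) ≤ 1) :
    lf_res v (∏ i ∈ s, f i) (lf_v_prod_le_one s f fun i _ => hf i)
      = ∏ i ∈ s, lf_res v (f i) (hf i) := by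
  simp only [lf_res]
  rw [← map_prod]
  congr 1
  apply Subtype.ext
  simp

theorem lf_res_mul {x y : L} (hx : v x ≤ 1) (hy : v y ≤ 1) :
    lf_res v (x * y) (by rw [map_mul]; exact mul_le_one' hx hy)
      = lf_res v x hx * lf_res v y hy := by
  exact map_mul (residue v.valuationSubring) ⟨x, hx⟩ ⟨y, hy⟩

variable (h : lf_IsLocal E L v)
  (hur : ∀ τ : L ≃ₐ[E] L, (∀ x, v x ≤ 1 → v (τ x - x) < 1) → τ = 1)

include h hur

/-- Lifted trace surjectivity. -/
theorem lf_lift_trace_surj {a : L} (ha : v a ≤ 1) (hfix : ∀ τ : L ≃ₐ[E] L, v (τ a - a) < 1) :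
    ∃ b : L, v b ≤ 1 ∧ v (a - ∑ τ : L ≃ₐ[E] L, τ b) < 1 := by
  letI := lf_actionO h
  haveI := lf_res_faithful h hur
  haveI := lf_res_finite h
  have hfix' : ∀ τ : L ≃ₐ[E] L, τ • lf_res v a ha = lf_res v a ha := by
    intro τ
    rw [lf_res_smul h, lf_res_eq_iff]
    exact hfix τ
  obtain ⟨b', hb'⟩ := lf_ff_trace_surj (G := L ≃ₐ[E] L) (lf_res v a ha) hfix'
  obtain ⟨b, hb, rfl⟩ := lf_res_surj b'
  refine ⟨b, hb, ?_⟩
  have hτb : ∀ τ : L ≃ₐ[E] L, v (τ b) ≤ 1 := fun τ => by rw [h.inv]; exact hb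
  rw [← lf_res_eq_iff ha (lf_v_sum_le_one _ _ fun τ _ => hτb τ), lf_res_sum _ _ hτb, ← hb']
  refine Finset.sum_congr rfl fun τ _ => ?_
  rw [lf_res_smul h]

/-- Lifted norm surjectivity. -/
theorem lf_lift_norm_surj {a : L} (ha : v a = 1) (hfix : ∀ τ : L ≃ₐ[E] L, v (τ a - a) < 1) :
    ∃ b : L, v b = 1 ∧ v (a - ∏ τ : L ≃ₐ[E] L, τ b) < 1 := by
  letI := lf_actionO h
  haveI := lf_res_faithful h hur
  haveI := lf_res_finite h
  have hfix' : ∀ τ : L ≃ₐ[E] L, τ • lf_res v a ha.le = lf_res v a ha.le := by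
    intro τ
    rw [lf_res_smul h, lf_res_eq_iff]
    exact hfix τ
  have ha0 : lf_res v a ha.le ≠ 0 := by
    rw [Ne, lf_res_eq_zero_iff, ha]
    exact lt_irrefl 1
  obtain ⟨b', hb0, hb'⟩ := lf_ff_norm_surj (G := L ≃ₐ[E] L) (lf_res v a ha.le) ha0 hfix'
  obtain ⟨b, hb, rfl⟩ := lf_res_surj b'
  have hb1 : v b = 1 := by
    rw [Ne, lf_res_eq_zero_iff, not_lt] at hb0
    exact le_antisymm hb hb0
  refine ⟨b, hb1, ?_⟩
  have hτb : ∀ τ : L ≃ₐ[E] L, v (τ b) ≤ 1 := fun τ => by rw [h.inv]; exact hb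
  rw [← lf_res_eq_iff ha.le (lf_v_prod_le_one _ _ fun τ _ => hτb τ), lf_res_prod _ _ hτb, ← hb']
  refine Finset.prod_congr rfl fun τ _ => ?_
  rw [lf_res_smul h]

/-- Lifted Dedekind independence. -/
theorem lf_lift_dedekind (u : (L ≃ₐ[E] L) → L) (hu : ∀ τ, v (u τ) = 1) :
    ∃ c : L, v c ≤ 1 ∧ v (∑ τ : L ≃ₐ[E] L, u τ * τ c) = 1 := by
  letI := lf_actionO h
  haveI := lf_res_faithful h hur
  have hu0 : ∃ τ : L ≃ₐ[E] L, lf_res v (u τ) (hu τ).le ≠ 0 := by
    refine ⟨1, ?_⟩
    rw [Ne, lf_res_eq_zero_iff, hu]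
    exact lt_irrefl 1
  obtain ⟨c', hc'⟩ := lf_ff_dedekind (G := L ≃ₐ[E] L) (fun τ => lf_res v (u τ) (hu τ).le) hu0
  obtain ⟨c, hc, rfl⟩ := lf_res_surj c'
  refine ⟨c, hc, ?_⟩
  have hτc : ∀ τ : L ≃ₐ[E] L, v (u τ * τ c) ≤ 1 := fun τ => by
    rw [map_mul, hu, one_mul, h.inv]; exact hc
  have hle := lf_v_sum_le_one (v := v) Finset.univ _ fun τ _ => hτc τ
  refine le_antisymm hle ?_
  rw [← not_lt, ← lf_res_eq_zero_iff hle, lf_res_sum _ _ hτc]
  convert hc' using 2
  refine Finset.sum_congr rfl fun τ _ => ?_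
  have hτc' : v (τ c) ≤ 1 := by rw [h.inv]; exact hc
  rw [lf_res_mul (hu τ).le hτc', lf_res_smul h]

variable (σ : L ≃ₐ[E] L) (hσ : ∀ τ, τ ∈ Subgroup.zpowers σ)

include hσ

/-- Lifted additive Hilbert 90. -/
theorem lf_lift_h90_add {a : L} (ha : v a ≤ 1) (htr : v (∑ τ : L ≃ₐ[E] L, τ a) < 1) :
    ∃ b : L, v b ≤ 1 ∧ v (a - (σ b - b)) < 1 := by
  letI := lf_actionO h
  haveI := lf_res_faithful h hur
  haveI := lf_res_finite h
  have hτa : ∀ τ : L ≃ₐ[E] L, v (τ a) ≤ 1 := fun τ => by rw [h.inv]; exact ha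
  have htr' : ∑ τ : L ≃ₐ[E] L, τ • lf_res v a ha = 0 := by
    have := (lf_res_eq_zero_iff (lf_v_sum_le_one (v := v) _ _ fun τ _ => hτa τ)).mpr htr
    rw [lf_res_sum _ _ hτa] at this
    rw [← this]
    refine Finset.sum_congr rfl fun τ _ => ?_
    rw [lf_res_smul h]
  obtain ⟨b', hb'⟩ := lf_ff_h90_add σ hσ (lf_res v a ha) htr'
  obtain ⟨b, hb, rfl⟩ := lf_res_surj b'
  refine ⟨b, hb, ?_⟩
  have hσb : v (σ b) ≤ 1 := by rw [h.inv]; exact hb
  have hsub : v (σ b - b) ≤ 1 := v.map_sub_le hσb hb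
  rw [← lf_res_eq_iff ha hsub, ← hb', lf_res_smul h]
  simp only [lf_res]
  rw [← map_sub]
  rfl

/-- Lifted multiplicative Hilbert 90. -/
theorem lf_lift_h90_mul {a : L} (ha : v a = 1) (hnm : v (∏ τ : L ≃ₐ[E] L, τ a - 1) < 1) :
    ∃ b : L, v b = 1 ∧ v (a * b - σ b) < 1 := by
  letI := lf_actionO h
  haveI := lf_res_faithful h hur
  haveI := lf_res_finite h
  have hτa : ∀ τ : L ≃ₐ[E] L, v (τ a) ≤ 1 := fun τ => by rw [h.inv]; exact ha.le
  have hnm' : ∏ τ : L ≃ₐ[E] L, τ • lf_res v a ha.le = 1 := by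
    have h1 : v (1 : L) ≤ 1 := by rw [map_one]
    have := (lf_res_eq_iff (lf_v_prod_le_one (v := v) _ _ fun τ _ => hτa τ) h1).mpr hnm
    rw [lf_res_prod _ _ hτa] at this
    have h2 : lf_res v 1 h1 = 1 := by
      simp only [lf_res]
      exact map_one _
    rw [h2] at this
    rw [← this]
    refine Finset.prod_congr rfl fun τ _ => ?_
    rw [lf_res_smul h]
  obtain ⟨b', hb0, hb'⟩ := lf_ff_h90_mul σ hσ (lf_res v a ha.le) hnm'
  obtain ⟨b, hb, rfl⟩ := lf_res_surj b'
  have hb1 : v b = 1 := by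
    rw [Ne, lf_res_eq_zero_iff, not_lt] at hb0
    exact le_antisymm hb hb0
  refine ⟨b, hb1, ?_⟩
  have hσb : v (σ b) ≤ 1 := by rw [h.inv]; exact hb
  have hab : v (a * b) ≤ 1 := by rw [map_mul, ha, hb1, one_mul]
  rw [← lf_res_eq_iff hab hσb, lf_res_mul ha.le hb, ← hb', ← lf_res_smul h,
    div_mul_cancel₀ _ hb0]

end Lifted

section Frobenius

variable {E L : Type} [Field E] [Field L] [Algebra E L] [FiniteDimensional E L] [IsGalois E L]
  {v : Valuation L ℤᵐ⁰}

/-- The cardinality of the residue field of the base field (for the restricted valuation). -/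
noncomputable def lf_q (E : Type) {L : Type} [Field E] [Field L] [Algebra E L]
    (v : Valuation L ℤᵐ⁰) : ℕ :=
  Nat.card (ResidueField (v.comap (algebraMap E L)).valuationSubring)

omit [FiniteDimensional E L] [IsGalois E L] in
theorem lf_mem_E (x : (v.comap (algebraMap E L)).valuationSubring) :
    v (algebraMap E L x) ≤ 1 := x.2

/-- The map from the valuation ring of `E` to the residue field of `L`. -/
noncomputable def lf_resE (E : Type) {L : Type} [Field E] [Field L] [Algebra E L]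
    (v : Valuation L ℤᵐ⁰) :
    (v.comap (algebraMap E L)).valuationSubring →+* ResidueField v.valuationSubring :=
  (residue v.valuationSubring).comp
    { toFun := fun x => ⟨algebraMap E L x, lf_mem_E x⟩
      map_one' := Subtype.ext (map_one _)
      map_mul' := fun _ _ => Subtype.ext (map_mul _ _ _)
      map_zero' := Subtype.ext (map_zero _)
      map_add' := fun _ _ => Subtype.ext (map_add _ _ _) }

omit [FiniteDimensional E L] [IsGalois E L] in
theorem lf_resE_apply (x : (v.comap (algebraMap E L)).valuationSubring) :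
    lf_resE E v x = lf_res v (algebraMap E L x) (lf_mem_E x) := rfl

omit [FiniteDimensional E L] [IsGalois E L] in
theorem lf_resE_ker :
    RingHom.ker (lf_resE E v) = maximalIdeal (v.comap (algebraMap E L)).valuationSubring := by
  ext x
  rw [RingHom.mem_ker, lf_resE_apply, lf_res_eq_zero_iff, Valuation.mem_maximalIdeal_iff]
  rfl

variable (h : lf_IsLocal E L v)
  (hur : ∀ τ : L ≃ₐ[E] L, (∀ x, v x ≤ 1 → v (τ x - x) < 1) → τ = 1)

include h hur

theorem lf_resE_range (a : ResidueField v.valuationSubring) :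
    letI := lf_actionO h
    a ∈ (lf_resE E v).range ↔ a ∈ FixedPoints.subfield (L ≃ₐ[E] L) (ResidueField v.valuationSubring) := by
  letI := lf_actionO h
  haveI := lf_res_faithful h hur
  constructor
  · rintro ⟨x, rfl⟩ τ
    rw [lf_resE_apply, lf_res_smul h]
    congr 1
    exact τ.commutes _
  · intro ha
    obtain ⟨b', hb'⟩ := lf_ff_trace_surj (G := L ≃ₐ[E] L) a ha
    obtain ⟨b, hb, rfl⟩ := lf_res_surj b'
    have htr : v (algebraMap E L (Algebra.trace E L b)) ≤ 1 := (lf_v_trace_le h b).trans hb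
    refine ⟨⟨Algebra.trace E L b, htr⟩, ?_⟩
    rw [lf_resE_apply, ← hb']
    have hτb : ∀ τ : L ≃ₐ[E] L, v (τ b) ≤ 1 := fun τ => by rw [h.inv]; exact hb
    have : lf_res v (algebraMap E L (Algebra.trace E L b)) htr
        = lf_res v (∑ τ : L ≃ₐ[E] L, τ b) (lf_v_sum_le_one _ _ fun τ _ => hτb τ) := by
      congr 1
      exact trace_eq_sum_automorphisms b
    rw [this, lf_res_sum _ _ hτb]
    refine Finset.sum_congr rfl fun τ _ => ?_
    rw [lf_res_smul h]

theorem lf_card_fixed :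
    letI := lf_actionO h
    Nat.card (FixedPoints.subfield (L ≃ₐ[E] L) (ResidueField v.valuationSubring)) = lf_q E v := by
  letI := lf_actionO h
  have e1 : (lf_resE E v).range ≃
      FixedPoints.subfield (L ≃ₐ[E] L) (ResidueField v.valuationSubring) :=
    Equiv.subtypeEquivRight (lf_resE_range h hur)
  have e2 := (RingHom.quotientKerEquivRange (lf_resE E v)).toEquiv
  have e3 := (Ideal.quotEquivOfEq (lf_resE_ker (E := E) (v := v))).toEquiv
  rw [lf_q]
  exact Nat.card_congr (e1.symm.trans (e2.symm.trans e3))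

/-- (T2) The Frobenius element of an unramified extension: it generates the Galois group and
acts as `x ↦ x ^ q` on the residue field, `q = lf_q E v` the cardinality of the residue field of
the base. -/
theorem lf_lift_frobenius :
    ∃ φ : L ≃ₐ[E] L, (∀ τ, τ ∈ Subgroup.zpowers φ) ∧
      ∀ x, v x ≤ 1 → v (φ x - x ^ lf_q E v) < 1 := by
  letI := lf_actionO h
  haveI := lf_res_faithful h hur
  haveI := lf_res_finite h
  obtain ⟨φ, hφ, hgen⟩ := lf_ff_exists_frobenius (G := L ≃ₐ[E] L)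
    (k := ResidueField v.valuationSubring)
  refine ⟨φ, hgen, fun x hx => ?_⟩
  have h1 := hφ (lf_res v x hx)
  rw [lf_card_fixed h hur, lf_res_smul h] at h1
  have hpow : v (x ^ lf_q E v) ≤ 1 := by
    rw [map_pow]
    exact pow_le_one' hx _
  rw [← lf_res_eq_iff (by rw [h.inv]; exact hx) hpow, h1]
  simp only [lf_res]
  rw [← map_pow]
  rfl

end Frobenius

end Fermat.Agent.S55
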