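import Fermat.Agent.S55.Local.Residue
import Fermat.Agent.S55.Local.Filtered

/-!
# S55 / local toolkit [L0], part 4 (T2): unramified extensions

For `lf_IsLocal E L v` with trivial inertia and a chosen generator `σ` of `Gal(L/E)`:
* `lf_unram_unif`: `E` contains a uniformiser of `L` (`e = 1`);
* `lf_unram_exact`: on the units, `ker D = im N` and `ker N = im D` (`Ĥ⁰ = Ĥ⁻¹ = 1`);
* `lf_unram_norm_surj`, `lf_unram_h1`, `lf_unram_mem_norm_iff`: the field-level statements.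
-/

namespace Fermat.Agent.S55

open WithZero Finset

section ProdLemma

variable {L : Type} [Field L] {v : Valuation L ℤᵐ⁰}

/-- `∏ (1 + t xᵢ) ≡ 1 + t ∑ xᵢ` modulo `t²`. -/
theorem lf_prod_one_add {ι : Type*} (s : Finset ι) (t : L) (ht : v t ≤ 1) (x : ι → L)
    (hx : ∀ i, v (x i) ≤ 1) :
    v (∏ i ∈ s, (1 + t * x i) - (1 + t * ∑ i ∈ s, x i)) ≤ v t ^ 2 := by
  classical
  induction s using Finset.induction_on with
  | empty => simp
  | insert a s has ih =>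
    rw [Finset.prod_insert has, Finset.sum_insert has]
    set P := ∏ i ∈ s, (1 + t * x i) with hP
    set S := ∑ i ∈ s, x i with hS
    have hSle : v S ≤ 1 := Valuation.map_sum_le v fun i _ => hx i
    have hR : v (P - (1 + t * S)) ≤ v t ^ 2 := ih
    have : (1 + t * x a) * P - (1 + t * (x a + S))
        = t ^ 2 * (x a * S) + (1 + t * x a) * (P - (1 + t * S)) := by ring
    rw [this]
    refine v.map_add_le ?_ ?_
    · rw [map_mul, map_pow, map_mul]
      calc v t ^ 2 * (v (x a) * v S) ≤ v t ^ 2 * (1 * 1) := by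
            gcongr
            · exact hx a
        _ = v t ^ 2 := by rw [mul_one, mul_one]
    · rw [map_mul]
      have h1 : v (1 + t * x a) ≤ 1 := by
        refine v.map_add_le (by rw [map_one]) ?_
        rw [map_mul]
        exact mul_le_one' ht (hx a)
      calc v (1 + t * x a) * v (P - (1 + t * S)) ≤ 1 * v t ^ 2 := by gcongr
        _ = v t ^ 2 := one_mul _

theorem lf_one_add_unit {t b : L} (ht1 : v t < 1) (hb : v b ≤ 1) : v (1 + t * b) = 1 := by
  have hlt : v (t * b) < v (1 : L) := by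
    rw [map_one, map_mul]
    exact lt_of_le_of_lt (mul_le_of_le_one_right' hb) ht1
  rw [Valuation.map_add_eq_of_lt_left v hlt, map_one]

theorem lf_unit_decomp {t : L} (ht0 : t ≠ 0) {i : ℕ} (hvt : v t = exp (-(i : ℤ))) {u : Lˣ}
    (hu : u ∈ lf_U v i) : ∃ a : L, v a ≤ 1 ∧ (u : L) = 1 + t * a := by
  refine ⟨((u : L) - 1) / t, ?_, ?_⟩
  · rw [map_div₀, hvt]
    exact div_le_one_of_le₀ hu.2 zero_le
  · field_simp
    ring

theorem lf_one_add_mem_U {t b : L} {i : ℕ} (hvt : v t = exp (-(i : ℤ))) (ht1 : v t < 1)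
    (hb : v b ≤ 1) (h0 : (1 + t * b) ≠ 0) : Units.mk0 (1 + t * b) h0 ∈ lf_U v i := by
  refine ⟨by simpa using lf_one_add_unit ht1 hb, ?_⟩
  rw [Units.val_mk0, add_sub_cancel_left, map_mul, ← hvt]
  exact mul_le_of_le_one_right' hb

theorem lf_ne_zero_of_v_eq_one {x : L} (hx : v x = 1) : x ≠ 0 := by
  rintro rfl
  rw [map_zero] at hx
  exact zero_ne_one hx

end ProdLemma

section NCoe

variable {E L : Type} [Field E] [Field L] [Algebra E L] [FiniteDimensional E L]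

theorem lf_N_coe' (u : Lˣ) : ((lf_N E u : Lˣ) : L) = ∏ τ : L ≃ₐ[E] L, τ (u : L) := by
  rw [lf_N_apply, Units.coe_prod]
  rfl

omit [FiniteDimensional E L] in
theorem lf_fixed_of_gen (σ : L ≃ₐ[E] L) (hσ : ∀ τ, τ ∈ Subgroup.zpowers σ) {a : L}
    (ha : σ a = a) (τ : L ≃ₐ[E] L) : τ a = a :=
  lf_ff_fixed_of_gen (k := L) σ hσ (a := a) ha τ

end NCoe

section Unram

variable {E L : Type} [Field E] [Field L] [Algebra E L] [FiniteDimensional E L] [IsGalois E L]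
  {v : Valuation L ℤᵐ⁰} (h : lf_IsLocal E L v)
  (hur : ∀ τ : L ≃ₐ[E] L, (∀ x, v x ≤ 1 → v (τ x - x) < 1) → τ = 1)

include h hur

/-- (T2) `e = 1`: the base field contains a uniformiser. -/
theorem lf_unram_unif : ∃ π : E, v (algebraMap E L π) = exp (-1 : ℤ) := by
  obtain ⟨ϖ, hϖ⟩ := h.unif
  have hϖ0 : ϖ ≠ 0 := by
    rintro rfl
    rw [map_zero] at hϖ
    exact exp_ne_zero hϖ.symm
  have hvϖ0 : v ϖ ≠ 0 := (v.ne_zero_iff).mpr hϖ0
  obtain ⟨c, hc, hcs⟩ := lf_lift_dedekind h hur (fun τ => τ ϖ / ϖ) (fun τ => by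
    rw [map_div₀, h.inv, div_self hvϖ0])
  refine ⟨Algebra.trace E L (c * ϖ), ?_⟩
  rw [trace_eq_sum_automorphisms]
  have : ∑ τ : L ≃ₐ[E] L, τ (c * ϖ) = ϖ * ∑ τ : L ≃ₐ[E] L, (τ ϖ / ϖ) * τ c := by
    rw [Finset.mul_sum]
    refine Finset.sum_congr rfl fun τ _ => ?_
    rw [map_mul]
    field_simp
  rw [this, map_mul, hcs, mul_one, hϖ]

omit [IsGalois E L] in
/-- Graded step for the norm, positive level. -/
theorem lf_unram_stepN_pos {t : L} (ht0 : t ≠ 0) (ht1 : v t < 1)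
    (htfix : ∀ τ : L ≃ₐ[E] L, τ t = t) {a : L} (ha : v a ≤ 1)
    (hfix : ∀ τ : L ≃ₐ[E] L, v (τ a - a) < 1) :
    ∃ b : L, v b ≤ 1 ∧ v ((1 + t * a) - ∏ τ : L ≃ₐ[E] L, τ (1 + t * b)) < v t := by
  obtain ⟨b, hb, hab⟩ := lf_lift_trace_surj h hur ha hfix
  refine ⟨b, hb, ?_⟩
  have hvt0 : v t ≠ 0 := (v.ne_zero_iff).mpr ht0
  have hτb : ∀ τ : L ≃ₐ[E] L, v (τ b) ≤ 1 := fun τ => by rw [h.inv]; exact hb
  have hprod : ∏ τ : L ≃ₐ[E] L, τ (1 + t * b) = ∏ τ : L ≃ₐ[E] L, (1 + t * τ b) := by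
    refine Finset.prod_congr rfl fun τ _ => ?_
    rw [map_add, map_one, map_mul, htfix]
  rw [hprod]
  have hsplit : (1 + t * a) - ∏ τ : L ≃ₐ[E] L, (1 + t * τ b)
      = t * (a - ∑ τ : L ≃ₐ[E] L, τ b)
        - (∏ τ : L ≃ₐ[E] L, (1 + t * τ b) - (1 + t * ∑ τ : L ≃ₐ[E] L, τ b)) := by ring
  rw [hsplit]
  refine Valuation.map_sub_lt v ?_ ?_
  · rw [map_mul]
    exact mul_lt_of_lt_one_right (zero_lt_iff.mpr hvt0) hab
  · refine lt_of_le_of_lt (lf_prod_one_add _ t ht1.le _ hτb) ?_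
    rw [pow_two]
    exact mul_lt_of_lt_one_right (zero_lt_iff.mpr hvt0) ht1

variable (σ : L ≃ₐ[E] L) (hσ : ∀ τ, τ ∈ Subgroup.zpowers σ)

include hσ

omit [IsGalois E L] in
/-- Graded step for `σ - 1`, positive level. -/
theorem lf_unram_stepD_pos {t : L} (ht0 : t ≠ 0) (ht1 : v t < 1)
    (htfix : ∀ τ : L ≃ₐ[E] L, τ t = t) {a : L} (ha : v a ≤ 1)
    (hnorm : ∏ τ : L ≃ₐ[E] L, τ (1 + t * a) = 1) :
    ∃ b : L, v b ≤ 1 ∧ v ((1 + t * a) * (1 + t * b) - (1 + t * σ b)) < v t := by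
  have hvt0 : v t ≠ 0 := (v.ne_zero_iff).mpr ht0
  have hvtpos : 0 < v t := zero_lt_iff.mpr hvt0
  have hτa : ∀ τ : L ≃ₐ[E] L, v (τ a) ≤ 1 := fun τ => by rw [h.inv]; exact ha
  have hprod : ∏ τ : L ≃ₐ[E] L, τ (1 + t * a) = ∏ τ : L ≃ₐ[E] L, (1 + t * τ a) := by
    refine Finset.prod_congr rfl fun τ _ => ?_
    rw [map_add, map_one, map_mul, htfix]
  rw [hprod] at hnorm
  have h1 := lf_prod_one_add (v := v) (Finset.univ : Finset (L ≃ₐ[E] L)) t ht1.le _ hτa
  rw [hnorm] at h1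
  have h2 : (1 : L) - (1 + t * ∑ τ : L ≃ₐ[E] L, τ a) = -(t * ∑ τ : L ≃ₐ[E] L, τ a) := by ring
  rw [h2, Valuation.map_neg, map_mul, pow_two] at h1
  have htr : v (∑ τ : L ≃ₐ[E] L, τ a) < 1 :=
    lt_of_le_of_lt (le_of_mul_le_mul_left h1 hvtpos) ht1
  obtain ⟨b, hb, hab⟩ := lf_lift_h90_add h hur σ hσ ha htr
  refine ⟨b, hb, ?_⟩
  have hsplit : (1 + t * a) * (1 + t * b) - (1 + t * σ b)
      = t * (a - (σ b - b)) + t ^ 2 * (a * b) := by ring
  rw [hsplit]
  refine Valuation.map_add_lt v ?_ ?_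
  · rw [map_mul]
    exact mul_lt_of_lt_one_right hvtpos hab
  · rw [map_mul, map_pow, map_mul]
    calc v t ^ 2 * (v a * v b) ≤ v t ^ 2 * (1 * 1) := by gcongr
      _ = v t * v t := by rw [mul_one, mul_one, pow_two]
      _ < v t := mul_lt_of_lt_one_right hvtpos ht1

omit hσ [IsGalois E L] in
/-- Graded steps for the norm. -/
theorem lf_unram_hstepN (π : E) (hπ : v (algebraMap E L π) = exp (-1 : ℤ)) :
    ∀ i, ∀ u ∈ lf_U v i, (∀ τ : L ≃ₐ[E] L, τ (u : L) = u) →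
      ∃ w ∈ lf_U v i, u / lf_N E w ∈ lf_U v (i + 1) := by
  intro i u hu hfixu
  rcases Nat.eq_zero_or_pos i with rfl | hi
  · obtain ⟨b, hb, hub⟩ := lf_lift_norm_surj h hur hu.1 (fun τ => by
      rw [hfixu, sub_self, map_zero]; exact zero_lt_one)
    have hb0 := lf_ne_zero_of_v_eq_one hb
    have hW : Units.mk0 b hb0 ∈ lf_U v 0 := (lf_mem_U_zero v).mpr (by simpa using hb)
    refine ⟨Units.mk0 b hb0, hW, ?_⟩
    apply lf_div_mem_U v hu.1 (lf_N_mem_U h hW).1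
    rw [lf_N_coe', Units.val_mk0]
    exact lf_lt_one_iff.mp hub
  · set t : L := (algebraMap E L π) ^ i with ht
    have hvt : v t = exp (-(i : ℤ)) := by
      rw [ht, map_pow, hπ, ← exp_nsmul]
      simp
    have ht1 : v t < 1 := by
      rw [hvt, ← exp_zero, exp_lt_exp]
      omega
    have ht0 : t ≠ 0 := by
      intro h0
      rw [h0, map_zero] at hvt
      exact exp_ne_zero hvt.symm
    have htfix : ∀ τ : L ≃ₐ[E] L, τ t = t := fun τ => by
      rw [ht, map_pow, AlgEquiv.commutes]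
    obtain ⟨a, ha, hua⟩ := lf_unit_decomp ht0 hvt hu
    have hfixa : ∀ τ : L ≃ₐ[E] L, v (τ a - a) < 1 := by
      intro τ
      have h1 := hfixu τ
      rw [hua, map_add, map_one, map_mul, htfix] at h1
      have h2 : τ a = a := mul_left_cancel₀ ht0 (add_left_cancel h1)
      rw [h2, sub_self, map_zero]
      exact zero_lt_one
    obtain ⟨b, hb, hab⟩ := lf_unram_stepN_pos h hur ht0 ht1 htfix ha hfixa
    have hW0 : (1 + t * b) ≠ 0 := lf_ne_zero_of_v_eq_one (lf_one_add_unit ht1 hb)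
    have hW : Units.mk0 (1 + t * b) hW0 ∈ lf_U v i := lf_one_add_mem_U hvt ht1 hb hW0
    refine ⟨_, hW, ?_⟩
    apply lf_div_mem_U v hu.1 (lf_N_mem_U h hW).1
    rw [lf_N_coe', Units.val_mk0, hua, ← lf_lt_exp_neg_iff, ← hvt]
    exact hab

omit [IsGalois E L] in
/-- Graded steps for `σ - 1`. -/
theorem lf_unram_hstepD (π : E) (hπ : v (algebraMap E L π) = exp (-1 : ℤ)) :
    ∀ i, ∀ u ∈ lf_U v i, lf_N E u = 1 →
      ∃ w ∈ lf_U v i, u / lf_D σ w ∈ lf_U v (i + 1) := by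
  intro i u hu hNu
  have hNu' : ∏ τ : L ≃ₐ[E] L, τ (u : L) = 1 := by
    rw [← lf_N_coe', hNu, Units.val_one]
  rcases Nat.eq_zero_or_pos i with rfl | hi
  · obtain ⟨b, hb, hub⟩ := lf_lift_h90_mul h hur σ hσ hu.1 (by
      rw [hNu', sub_self, map_zero]; exact zero_lt_one)
    have hb0 := lf_ne_zero_of_v_eq_one hb
    have hW : Units.mk0 b hb0 ∈ lf_U v 0 := (lf_mem_U_zero v).mpr (by simpa using hb)
    refine ⟨Units.mk0 b hb0, hW, ?_⟩
    apply lf_div_mem_U v hu.1 (lf_D_mem_U h σ hW).1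
    rw [lf_D_coe, Units.val_mk0]
    have : (u : L) - σ b / b = ((u : L) * b - σ b) / b := by
      field_simp
    rw [this, map_div₀, hb, div_one]
    exact lf_lt_one_iff.mp hub
  · set t : L := (algebraMap E L π) ^ i with ht
    have hvt : v t = exp (-(i : ℤ)) := by
      rw [ht, map_pow, hπ, ← exp_nsmul]
      simp
    have ht1 : v t < 1 := by
      rw [hvt, ← exp_zero, exp_lt_exp]
      omega
    have ht0 : t ≠ 0 := by
      intro h0
      rw [h0, map_zero] at hvt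
      exact exp_ne_zero hvt.symm
    have htfix : ∀ τ : L ≃ₐ[E] L, τ t = t := fun τ => by
      rw [ht, map_pow, AlgEquiv.commutes]
    obtain ⟨a, ha, hua⟩ := lf_unit_decomp ht0 hvt hu
    rw [hua] at hNu'
    obtain ⟨b, hb, hab⟩ := lf_unram_stepD_pos h hur σ hσ ht0 ht1 htfix ha hNu'
    have hW1 : v (1 + t * b) = 1 := lf_one_add_unit ht1 hb
    have hW0 : (1 + t * b) ≠ 0 := lf_ne_zero_of_v_eq_one hW1
    have hW : Units.mk0 (1 + t * b) hW0 ∈ lf_U v i := lf_one_add_mem_U hvt ht1 hb hW0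
    refine ⟨_, hW, ?_⟩
    apply lf_div_mem_U v hu.1 (lf_D_mem_U h σ hW).1
    rw [lf_D_coe, Units.val_mk0, hua]
    have : (1 + t * a) - σ (1 + t * b) / (1 + t * b)
        = ((1 + t * a) * (1 + t * b) - (1 + t * σ b)) / (1 + t * b) := by
      rw [map_add, map_one, map_mul, htfix]
      field_simp
    rw [this, map_div₀, hW1, div_one, ← lf_lt_exp_neg_iff, ← hvt]
    exact hab

/-- (T2) On the units of an unramified extension, `ker D = im N` and `ker N = im D`. -/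
theorem lf_unram_exact :
    (∀ u ∈ lf_U v 0, lf_D σ u = 1 → ∃ y ∈ lf_U v 0, lf_N E y = u) ∧
      (∀ u ∈ lf_U v 0, lf_N E u = 1 → ∃ y ∈ lf_U v 0, lf_D σ y = u) := by
  obtain ⟨π, hπ⟩ := lf_unram_unif h hur
  refine lf_filtered_exact (lf_N E) (lf_D σ) (lf_U v) (fun _ hx => lf_U_sep v hx)
    (fun i _ hx => lf_N_mem_U h hx) (fun i _ hx => lf_D_mem_U h σ hx) (lf_U_complete h)
    (lf_D_N σ) (lf_N_D σ) ?_ (lf_unram_hstepD h hur σ hσ π hπ)
  intro i u hu hDu
  refine lf_unram_hstepN h hur π hπ i u hu ?_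
  have hσu : σ (u : L) = u := by
    have := congrArg Units.val hDu
    rw [lf_D_coe, Units.val_one, div_eq_one_iff_eq u.ne_zero] at this
    exact this
  exact lf_fixed_of_gen σ hσ hσu

/-- (T2) `H¹(G, U_L) = 1` in cyclic form: a unit of norm one is `σ w / w` with `w` a unit. -/
theorem lf_unram_h1 (u : L) (hu : v u = 1) (hN : Algebra.norm E u = 1) :
    ∃ w : L, v w = 1 ∧ σ w / w = u := by
  have hu0 : u ≠ 0 := lf_ne_zero_of_v_eq_one hu
  have hU : Units.mk0 u hu0 ∈ lf_U v 0 := (lf_mem_U_zero v).mpr (by simpa using hu)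
  have hNU : lf_N E (Units.mk0 u hu0) = 1 := by
    apply Units.ext
    rw [lf_N_coe, Units.val_mk0, hN, map_one, Units.val_one]
  obtain ⟨y, hy, hDy⟩ := (lf_unram_exact h hur σ hσ).2 _ hU hNU
  refine ⟨y, hy.1, ?_⟩
  have := congrArg Units.val hDy
  rw [lf_D_coe, Units.val_mk0] at this
  exact this

omit hσ

/-- (T2) An unramified extension is cyclic, generated by the Frobenius element. -/
theorem lf_unram_frobenius :
    ∃ φ : L ≃ₐ[E] L, (∀ τ, τ ∈ Subgroup.zpowers φ) ∧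
      ∀ x, v x ≤ 1 → v (φ x - x ^ lf_q E v) < 1 :=
  lf_lift_frobenius h hur

/-- (T2) `Ĥ⁰(G, U_L) = 1`: every unit of `E` is the norm of a unit of `L`. -/
theorem lf_unram_norm_surj (x : E) (hx : v (algebraMap E L x) = 1) :
    ∃ w : L, v w = 1 ∧ Algebra.norm E w = x := by
  obtain ⟨σ, hσ, -⟩ := lf_unram_frobenius h hur
  have hx0 : algebraMap E L x ≠ 0 := lf_ne_zero_of_v_eq_one hx
  have hU : Units.mk0 _ hx0 ∈ lf_U v 0 := (lf_mem_U_zero v).mpr (by simpa using hx)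
  have hDU : lf_D σ (Units.mk0 _ hx0) = 1 := by
    apply Units.ext
    rw [lf_D_coe, Units.val_mk0, AlgEquiv.commutes, div_self hx0, Units.val_one]
  obtain ⟨y, hy, hNy⟩ := (lf_unram_exact h hur σ hσ).1 _ hU hDU
  refine ⟨y, hy.1, ?_⟩
  apply (algebraMap E L).injective
  rw [← lf_N_coe, hNy, Units.val_mk0]

/-- (T2) An element of `Eˣ` is a norm from `L` iff its valuation is divisible by `[L:E]`. -/
theorem lf_unram_mem_norm_iff (x : E) (hx : x ≠ 0) :
    (∃ y : L, Algebra.norm E y = x) ↔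
      (Module.finrank E L : ℤ) ∣ log (v (algebraMap E L x)) := by
  constructor
  · rintro ⟨y, rfl⟩
    rw [lf_v_norm h, log_pow, nsmul_eq_mul]
    exact dvd_mul_right _ _
  · rintro ⟨m, hm⟩
    obtain ⟨π, hπ⟩ := lf_unram_unif h hur
    have hπ0 : π ≠ 0 := by
      rintro rfl
      rw [map_zero, map_zero] at hπ
      exact exp_ne_zero hπ.symm
    have hx0 : algebraMap E L x ≠ 0 := (map_ne_zero _).mpr hx
    have hvx : v (algebraMap E L x) = exp ((Module.finrank E L : ℤ) * m) := by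
      rw [← hm, exp_log ((v.ne_zero_iff).mpr hx0)]
    set n := Module.finrank E L with hn
    have hvu : v (algebraMap E L (x / π ^ (-(n : ℤ) * m))) = 1 := by
      rw [map_div₀, map_zpow₀, map_div₀, map_zpow₀, hvx, hπ, ← exp_zsmul, ← exp_sub]
      simp
    obtain ⟨w, hw, hNw⟩ := lf_unram_norm_surj h hur _ hvu
    refine ⟨w * algebraMap E L (π ^ (-m)), ?_⟩
    rw [map_mul, hNw, Algebra.norm_algebraMap, ← hn, ← zpow_natCast, ← zpow_mul,
      div_mul_eq_mul_div, mul_div_assoc]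
    have : -m * (n : ℤ) = -(n : ℤ) * m := by ring
    rw [this, div_self (zpow_ne_zero _ hπ0), mul_one]

end Unram

end Fermat.Agent.S55
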